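import Fermat.Agent.ClassField.Idele.CosetProd
import Fermat.Agent.ClassField.Idele.PlaceIdeles
import Fermat.Agent.ClassField.Idele.SecondIneq.IdealIdele

/-!
# Places through embeddings: norms at split places, degree one places

If the local field of `L` at `ι` is that of `k`, the idele supported at the place of `ι` is the
norm of the idele of `L` supported at the place of `ι`.  Outside a finite set of primes the
places of degree one are those with trivial local field.
-/

set_option autoImplicit false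

noncomputable section

open IntermediateField IsDedekindDomain
open scoped NumberField

namespace Fermat.Agent.ClassField.Idele.Existence

local notation "Qb" => AlgebraicClosure ℚ
local notation "Γ" => (AlgebraicClosure ℚ ≃ₐ[ℚ] AlgebraicClosure ℚ)

variable {ℓ : Nat.Primes} {k K L : IntermediateField ℚ Qb}

lemma norm_localGal (τ : LocalGal ℓ) (x : PadicAlgCl (ℓ : ℕ)) : ‖τ x‖ = ‖x‖ :=
  (spectralNorm_eq_of_equiv τ x).symm

lemma placeAt_eq_iff_norm {ι ι' : Emb ℓ} :
    placeAt ι K = placeAt ι' K ↔ ∀ x : 𝓞 K, (‖embInt ι K x‖ < 1 ↔ ‖embInt ι' K x‖ < 1) := by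
  refine ⟨fun h x => ?_, fun h => HeightOneSpectrum.ext (Ideal.ext h)⟩
  show x ∈ (placeAt ι K).asIdeal ↔ x ∈ (placeAt ι' K).asIdeal
  rw [h]

lemma placeAt_eq_of_eqOn {ι ι' : Emb ℓ} (τ : LocalGal ℓ) (h : ∀ x ∈ K, τ (ι x) = ι' x) :
    placeAt ι' K = placeAt ι K :=
  placeAt_eq_iff_norm.mpr fun x => by
    rw [embInt_apply, embInt_apply, ← h _ (x : K).2, norm_localGal]

lemma placeAt_mono (hkL : k ≤ L) {ι ι' : Emb ℓ} (h : placeAt ι L = placeAt ι' L) :
    placeAt ι k = placeAt ι' k := by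
  refine placeAt_eq_iff_norm.mpr fun x => ?_
  have hx : IsIntegral ℤ (⟨((x : k) : Qb), hkL (x : k).2⟩ : L) :=
    (NumberField.RingOfIntegers.isIntegral_coe x).map
      ((IntermediateField.inclusion hkL).restrictScalars ℤ)
  exact placeAt_eq_iff_norm.mp h ⟨_, hx⟩

lemma natCast_mem_placeAt (ι : Emb ℓ) (K : IntermediateField ℚ Qb) :
    ((ℓ : ℕ) : 𝓞 K) ∈ (placeAt ι K).asIdeal :=
  natCast_mem_primeIdeal ι K

/-- The prime below a place is unique. -/
lemma primes_eq_of_mem {v : HeightOneSpectrum (𝓞 K)} {ℓ₁ ℓ₂ : Nat.Primes}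
    (h₁ : ((ℓ₁ : ℕ) : 𝓞 K) ∈ v.asIdeal) (h₂ : ((ℓ₂ : ℕ) : 𝓞 K) ∈ v.asIdeal) : ℓ₁ = ℓ₂ := by
  by_contra hne
  obtain ⟨a, b, hab⟩ := Nat.isCoprime_iff_coprime.mpr
    ((Nat.coprime_primes ℓ₁.2 ℓ₂.2).mpr fun h => hne (Subtype.ext h))
  apply v.isPrime.ne_top
  rw [Ideal.eq_top_iff_one]
  have := congrArg (fun z : ℤ => (z : 𝓞 K)) hab
  simp only [Int.cast_add, Int.cast_mul, Int.cast_natCast, Int.cast_one] at this
  rw [← this]
  exact v.asIdeal.add_mem (v.asIdeal.mul_mem_left _ h₁) (v.asIdeal.mul_mem_left _ h₂)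

variable [FiniteDimensional ℚ K]

/-- The component of the idele supported at a place, at a conjugate embedding. -/
lemma single_apply_of_eqOn (ι : Emb ℓ) {y : (PadicAlgCl (ℓ : ℕ))ˣ}
    (hy : (y : PadicAlgCl (ℓ : ℕ)) ∈ localField ι K) (ι' : Emb ℓ) (τ : LocalGal ℓ)
    (hτ : ∀ x ∈ K, τ (ι x) = ι' x) :
    (((single ι K y hy : IdeleGroup) : Raw) ℓ ι' : PadicAlgCl (ℓ : ℕ)) = τ y :=
  singleFun_of_eqOn ι hy ι' τ hτ

/-- The absolute value at an embedding of its own place. -/
lemma idealAbs_placeAt_self (ι : Emb ℓ) :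
    SecondIneq.idealAbs ι (placeAt ι K).asIdeal = ‖embInt ι K (unifK (placeAt ι K))‖ := by
  refine le_antisymm ?_ (SecondIneq.norm_le_idealAbs ι (unifK_mem _))
  have hmem := (SecondIneq.pick_mem ι (placeAt ι K).asIdeal).1
  set x := SecondIneq.pick ι (placeAt ι K).asIdeal with hx
  rcases eq_or_ne x 0 with h0 | h0
  · rw [SecondIneq.idealAbs, ← hx, h0, map_zero, norm_zero]
    exact norm_nonneg _
  obtain ⟨m, hm⟩ : ∃ m : ℕ, (placeAt ι K).intValuation x = WithZero.exp (-(m : ℤ)) :=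
    ⟨_, (placeAt ι K).intValuation_if_neg h0⟩
  have hm1 : 1 ≤ m := by
    have h := ((placeAt ι K).intValuation_lt_one_iff_mem x).mpr hmem
    rw [hm, ← WithZero.exp_zero, WithZero.exp_lt_exp] at h
    omega
  rw [SecondIneq.idealAbs, ← hx, norm_embInt_eq_pow ι hm]
  exact pow_le_of_le_one (norm_nonneg _) (norm_embInt_le_one ι K _) (by omega)

/-- Other places have absolute value one. -/
lemma idealAbs_of_ne (ι : Emb ℓ) {v : HeightOneSpectrum (𝓞 K)} (hv : v ≠ placeAt ι K) :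
    SecondIneq.idealAbs ι v.asIdeal = 1 := by
  refine le_antisymm (SecondIneq.idealAbs_le_one ι _) ?_
  obtain ⟨c, hcv, hc⟩ := SetLike.not_le_iff_exists.mp fun h : v.asIdeal ≤ (placeAt ι K).asIdeal =>
    hv (HeightOneSpectrum.ext (v.isMaximal.eq_of_le (placeAt ι K).isPrime.ne_top h))
  exact le_trans (not_lt.mp hc) (SecondIneq.norm_le_idealAbs ι hcv)

/-- The relative norm, component by component. -/
lemma relNorm_apply [FiniteDimensional ℚ L] (g : IdeleGroup) (ℓ : Nat.Primes) (ι : Emb ℓ) :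
    ((relNorm k L g : IdeleGroup) : Raw) ℓ ι =
      ∏ᶠ q : k.fixingSubgroup ⧸ L.fixingSubgroup.subgroupOf k.fixingSubgroup,
        (g : Raw) ℓ (globalComp ι ((q.out : k.fixingSubgroup) : Γ)) := by
  let ev : IdeleGroup →* (PadicAlgCl (ℓ : ℕ))ˣ :=
    MonoidHom.mk' (fun f => (f : Raw) ℓ ι) fun _ _ => rfl
  show ev (relNorm k L g) = _
  rw [relNorm, cosetProd, MonoidHom.map_finprod _ (Set.toFinite _)]
  rfl

/-- At a split place the supported idele is a norm. -/
theorem relNorm_single [FiniteDimensional ℚ L] (ι : Emb ℓ) (hkL : K ≤ L)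
    (hsplit : localField ι L ≤ localField ι K) {y : (PadicAlgCl (ℓ : ℕ))ˣ}
    (hy : (y : PadicAlgCl (ℓ : ℕ)) ∈ localField ι K) :
    relNorm K L (single ι L y (localField_mono ι hkL hy)) = single ι K y hy := by
  classical
  set g := single ι L y (localField_mono ι hkL hy) with hg
  refine Subtype.ext (Raw.ext fun ℓ' ι' => ?_)
  rw [relNorm_apply]
  rcases eq_or_ne ℓ ℓ' with rfl | hne
  · have hqK : ∀ q : K.fixingSubgroup ⧸ L.fixingSubgroup.subgroupOf K.fixingSubgroup,
        ∀ x ∈ K, ((q.out : K.fixingSubgroup) : Γ) x = x := fun q x hx =>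
      (IntermediateField.mem_fixingSubgroup_iff _ _).mp q.out.2 x hx
    by_cases hpl : placeAt ι' K = placeAt ι K
    · obtain ⟨τ, hτ⟩ := exists_localComp_eqOn_of_placeAt_eq ι hpl.symm
      obtain ⟨σ, hσ, hισ⟩ := exists_globalComp_eq_of_eqOn (K := K) (ι := localComp τ ι) (ι' := ι') hτ
      have hι' : ∀ x, ι' x = τ (ι (σ x)) := fun x => by rw [← hισ]; rfl
      set q₀ : K.fixingSubgroup ⧸ L.fixingSubgroup.subgroupOf K.fixingSubgroup :=
        QuotientGroup.mk (⟨σ, hσ⟩ : K.fixingSubgroup)⁻¹ with hq₀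
      have hiff : ∀ q : K.fixingSubgroup ⧸ L.fixingSubgroup.subgroupOf K.fixingSubgroup,
          q = q₀ ↔ σ * ((q.out : K.fixingSubgroup) : Γ) ∈ L.fixingSubgroup := by
        intro q
        rw [hq₀, eq_comm]
        conv_lhs => rw [← QuotientGroup.out_eq' q]
        rw [QuotientGroup.eq, inv_inv, Subgroup.mem_subgroupOf]
        rfl
      rw [finprod_eq_single _ q₀]
      · refine Units.ext ?_
        have h1 := (hiff q₀).mp rfl
        rw [single_apply_of_eqOn ι hy ι' τ hτ, hg,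
          single_apply_of_eqOn ι _ _ τ fun x hx => ?_]
        rw [globalComp_apply, hι']
        show τ (ι x) = τ (ι ((σ * ((q₀.out : K.fixingSubgroup) : Γ)) x))
        rw [(IntermediateField.mem_fixingSubgroup_iff _ _).mp h1 x hx]
      · intro q hq
        refine single_apply_of_placeAt_ne ι L _ y _ fun hcon => hq ((hiff q).mpr ?_)
        obtain ⟨τ', hτ'⟩ := exists_localComp_eqOn_of_placeAt_eq ι hcon.symm
        rw [IntermediateField.mem_fixingSubgroup_iff]
        intro x hx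
        have hfix : τ⁻¹ * τ' ∈ (localField ι K).fixingSubgroup := fix_of_localComp_eqOn fun z hz => by
          show τ.symm (τ' (ι z)) = ι z
          rw [hτ' z (hkL hz), globalComp_apply, hqK q z hz, ← hτ z hz, AlgEquiv.symm_apply_apply]
        have h2 : τ.symm (τ' (ι x)) = ι x :=
          (IntermediateField.mem_fixingSubgroup_iff _ _).mp hfix _
            (hsplit (apply_mem_localField hx))
        rw [hτ' x hx, globalComp_apply, hι', AlgEquiv.symm_apply_apply] at h2
        exact ι.toRingHom.injective h2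
    · rw [single_apply_of_placeAt_ne ι K ι' y hy hpl]
      refine finprod_eq_one_of_forall_eq_one fun q =>
        single_apply_of_placeAt_ne ι L _ y _ fun hcon => hpl ?_
      refine (placeAt_eq_of_eqOn (K := K) (ι := ι')
        (ι' := globalComp ι' ((q.out : K.fixingSubgroup) : Γ)) 1 fun x hx => ?_).symm.trans
          (placeAt_mono hkL hcon)
      rw [globalComp_apply, hqK q x hx]
      rfl
  · rw [single_apply_of_ne ι K ι' y hy hne]
    exact finprod_eq_one_of_forall_eq_one fun q => single_apply_of_ne ι L _ y _ hne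

/-- Integral roots of a monic polynomial congruent modulo the maximal ideal coincide at a simple
root. -/
lemma eq_of_norm_sub_lt_one {g : Polynomial ℤ} {x y : PadicAlgCl (ℓ : ℕ)}
    (hx : ‖x‖ ≤ 1) (hy : ‖y‖ ≤ 1) (hgx : Polynomial.aeval x g = 0)
    (hgy : Polynomial.aeval y g = 0) (hd : ‖Polynomial.aeval x g.derivative‖ = 1)
    (hxy : ‖y - x‖ < 1) : y = x := by
  let O := (PadicAlgCl.valued (ℓ : ℕ)).v.integer
  have hmem : ∀ z : PadicAlgCl (ℓ : ℕ), ‖z‖ ≤ 1 → z ∈ O := fun z hz => by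
    rw [Valuation.mem_integer_iff, PadicAlgCl.valuation_def]; exact_mod_cast hz
  have hO : ∀ z : O, ‖(z : PadicAlgCl (ℓ : ℕ))‖ ≤ 1 := fun z => by
    have h := z.2
    rw [Valuation.mem_integer_iff, PadicAlgCl.valuation_def] at h
    exact_mod_cast h
  obtain ⟨c, hc⟩ := Polynomial.binomExpansion (g.map (algebraMap ℤ O)) ⟨x, hmem x hx⟩
    (⟨y, hmem y hy⟩ - ⟨x, hmem x hx⟩)
  have h := congrArg (algebraMap O (PadicAlgCl (ℓ : ℕ))) hc
  simp only [add_sub_cancel, map_add, map_mul, map_pow, map_sub, Polynomial.derivative_map,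
    Polynomial.eval_map_algebraMap, ← Polynomial.aeval_algebraMap_apply] at h
  rw [show algebraMap O (PadicAlgCl (ℓ : ℕ)) ⟨x, hmem x hx⟩ = x from rfl,
    show algebraMap O (PadicAlgCl (ℓ : ℕ)) ⟨y, hmem y hy⟩ = y from rfl,
    show algebraMap O (PadicAlgCl (ℓ : ℕ)) c = (c : PadicAlgCl (ℓ : ℕ)) from rfl,
    hgx, hgy, zero_add, pow_two, ← mul_assoc, ← add_mul] at h
  by_contra hne
  have h2 := eq_neg_of_add_eq_zero_left
    ((mul_eq_zero.mp h.symm).resolve_right (sub_ne_zero.mpr hne))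
  rw [h2, norm_neg, norm_mul] at hd
  exact absurd hd (lt_of_le_of_lt (mul_le_of_le_one_left (norm_nonneg _) (hO c)) hxy).ne

omit [FiniteDimensional ℚ K] in
/-- Outside a finite set of primes the places of degree one have trivial local field. -/
theorem exists_finset_localField_eq_bot (L : IntermediateField ℚ Qb) [FiniteDimensional ℚ L] :
    ∃ A : Finset Nat.Primes, ∀ ℓ ∉ A, ∀ ι : Emb ℓ,
      Ideal.absNorm (placeAt ι L).asIdeal = (ℓ : ℕ) → localField ι L = ⊥ := by
  classical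
  obtain ⟨α, hL⟩ := exists_eq_adjoin_simple L
  obtain ⟨a, ha, hint⟩ := ((IsFractionRing.isAlgebraic_iff ℤ ℚ Qb).mpr
    (Algebra.IsAlgebraic.isAlgebraic α)).exists_integral_multiple
  set β : Qb := a • α with hβ
  have hβL : β ∈ L := zsmul_mem (hL ▸ mem_adjoin_simple_self ℚ α) a
  have hαβ : L = IntermediateField.adjoin ℚ {β} := by
    refine le_antisymm ?_ (adjoin_simple_le_iff.mpr hβL)
    rw [hL, adjoin_simple_le_iff]
    have hα : α = (algebraMap ℚ Qb (a : ℚ))⁻¹ * β := by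
      rw [hβ, zsmul_eq_mul, map_intCast, ← mul_assoc, inv_mul_cancel₀ (Int.cast_ne_zero.mpr ha),
        one_mul]
    rw [hα]
    exact mul_mem (inv_mem (IntermediateField.algebraMap_mem _ _)) (mem_adjoin_simple_self ℚ β)
  set g := minpoly ℤ β with hgdef
  have hsep : Polynomial.aeval β g.derivative ≠ 0 := by
    have h := (Algebra.IsSeparable.isSeparable ℚ β).aeval_derivative_ne_zero (minpoly.aeval ℚ β)
    rw [minpoly.isIntegrallyClosed_eq_field_fractions' ℚ hint, Polynomial.derivative_map,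
      Polynomial.aeval_map_algebraMap] at h
    exact h
  obtain ⟨A, hA⟩ := exists_primes_norm_eq_one (Units.mk0 _ hsep)
  refine ⟨A, fun ℓ hℓ ι hN => ?_⟩
  have hle : ‖ι β‖ ≤ 1 := norm_le_one_of_isIntegral (hint.map (ι.restrictScalars ℤ))
  have hroot : ∀ j : Emb ℓ, Polynomial.aeval (j β) g = 0 := fun j => by
    change Polynomial.aeval ((j.restrictScalars ℤ) β) g = 0
    rw [Polynomial.aeval_algHom_apply, hgdef, minpoly.aeval, map_zero]
  have hd : ‖Polynomial.aeval (ι β) g.derivative‖ = 1 := by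
    have h := hA ℓ hℓ ι
    rw [Units.val_mk0] at h
    change ‖(ι.restrictScalars ℤ) (Polynomial.aeval β g.derivative)‖ = 1 at h
    rwa [← Polynomial.aeval_algHom_apply] at h
  -- the residue field of the place is the prime field
  set b : 𝓞 L := ⟨⟨β, hβL⟩, (isIntegral_algHom_iff (L.val.restrictScalars ℤ)
    L.val.injective).mp hint⟩ with hb
  obtain ⟨n, hn⟩ : ∃ n : ℕ, b - (n : 𝓞 L) ∈ (placeAt ι L).asIdeal := by
    set W := (placeAt ι L).asIdeal with hW
    have : W.IsMaximal := (placeAt ι L).isMaximal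
    have : Finite (𝓞 L ⧸ W) := Ideal.finiteQuotientOfFreeOfNeBot W (placeAt ι L).ne_bot
    have := Fintype.ofFinite (𝓞 L ⧸ W)
    have : CharP (𝓞 L ⧸ W) (ℓ : ℕ) := by
      refine CharP.charP_iff_prime_eq_zero ℓ.2 |>.mpr ?_
      rw [← map_natCast (Ideal.Quotient.mk W), Ideal.Quotient.eq_zero_iff_mem]
      exact natCast_mem_primeIdeal ι L
    have hcard : Fintype.card (𝓞 L ⧸ W) = (ℓ : ℕ) := by
      rw [← Nat.card_eq_fintype_card, ← hN, Ideal.absNorm_apply, Submodule.cardQuot_apply]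
    have hsurj := (ZMod.ringEquivOfPrime (𝓞 L ⧸ W) ℓ.2 hcard).surjective
    obtain ⟨z, hz⟩ := hsurj (Ideal.Quotient.mk W b)
    refine ⟨z.val, Ideal.Quotient.eq.mp ?_⟩
    rw [map_natCast, ← hz]
    conv_lhs => rw [← ZMod.natCast_zmod_val z, map_natCast]
  have hn' : ‖ι β - (n : PadicAlgCl (ℓ : ℕ))‖ < 1 := by
    have h : ‖embInt ι L (b - (n : 𝓞 L))‖ < 1 := hn
    rwa [map_sub, map_natCast, embInt_apply] at h
  have hfix : ∀ τ : LocalGal ℓ, τ (ι β) = ι β := by
    intro τ
    refine eq_of_norm_sub_lt_one hle (by rw [norm_localGal]; exact hle) (hroot ι) ?_ hd ?_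
    · exact hroot (localComp τ ι)
    · have h : τ (ι β) - ι β = τ (ι β - n) - (ι β - n) := by rw [map_sub, map_natCast]; ring
      rw [h]
      refine lt_of_le_of_lt ?_ (max_lt (show ‖τ (ι β - n)‖ < 1 by rwa [norm_localGal])
        (show ‖-(ι β - (n : PadicAlgCl (ℓ : ℕ)))‖ < 1 by rwa [norm_neg]))
      rw [sub_eq_add_neg]
      exact IsUltrametricDist.norm_add_le_max _ _
  rw [hαβ, localField_adjoin_simple, adjoin_simple_eq_bot_iff,
    ← InfiniteGalois.fixedField_fixingSubgroup (⊥ : IntermediateField ℚ_[(ℓ : ℕ)] (PadicAlgCl (ℓ : ℕ)))]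
  exact fun τ => hfix τ.1

/-- A place with trivial local field has residue field of `ℓ` elements. -/
lemma absNorm_placeAt_of_eq_bot {ι : Emb ℓ} (h : localField ι K = ⊥) :
    Ideal.absNorm (placeAt ι K).asIdeal = (ℓ : ℕ) := by
  set W := (placeAt ι K).asIdeal with hW
  have : W.IsMaximal := (placeAt ι K).isMaximal
  have : CharP (𝓞 K ⧸ W) (ℓ : ℕ) := by
    refine CharP.charP_iff_prime_eq_zero ℓ.2 |>.mpr ?_
    rw [← map_natCast (Ideal.Quotient.mk W), Ideal.Quotient.eq_zero_iff_mem]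
    exact natCast_mem_primeIdeal ι K
  have hsurj : Function.Surjective (ZMod.castHom (dvd_refl (ℓ : ℕ)) (𝓞 K ⧸ W)) := by
    intro z
    obtain ⟨x, rfl⟩ := Ideal.Quotient.mk_surjective z
    obtain ⟨c, hc⟩ : ∃ c : ℚ_[(ℓ : ℕ)], algebraMap _ (PadicAlgCl (ℓ : ℕ)) c = embInt ι K x := by
      have hx := apply_mem_localField (ι := ι) (x : K).2
      rw [h, IntermediateField.mem_bot] at hx
      exact hx
    have hc1 : ‖c‖ ≤ 1 := by
      rw [← norm_algebraMap' (PadicAlgCl (ℓ : ℕ)) c, hc]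
      exact norm_embInt_le_one ι K x
    let z : ℤ_[(ℓ : ℕ)] := ⟨c, hc1⟩
    refine ⟨(z.zmodRepr : ZMod (ℓ : ℕ)), ?_⟩
    rw [map_natCast, ← map_natCast (Ideal.Quotient.mk W), Ideal.Quotient.eq]
    show ‖embInt ι K ((z.zmodRepr : 𝓞 K) - x)‖ < 1
    rw [map_sub, map_natCast, ← hc, ← map_natCast (algebraMap ℚ_[(ℓ : ℕ)] (PadicAlgCl (ℓ : ℕ))),
      ← map_sub, norm_algebraMap', norm_sub_rev]
    have h2 := z.sub_zmodRepr_mem
    rw [IsLocalRing.mem_maximalIdeal, PadicInt.mem_nonunits, PadicInt.norm_def] at h2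
    rw [PadicInt.coe_sub, PadicInt.coe_natCast] at h2
    exact h2
  rw [Ideal.absNorm_apply, Submodule.cardQuot_apply, ← Nat.card_congr (Equiv.ofBijective _
    ⟨(ZMod.castHom (dvd_refl (ℓ : ℕ)) (𝓞 K ⧸ W)).injective, hsurj⟩), Nat.card_zmod]

end Fermat.Agent.ClassField.Idele.Existence
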