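import Fermat.Agent.ClassField.Idele.Existence.Embeddings
import Fermat.Agent.ClassField.Idele.SecondIneq.Bound

/-!
# Two cyclic extensions with norms in one hyperplane coincide

The degree one primes split in either of two distinct cyclic extensions of degree `p` have density
`2/p - 1/p²`, more than the `1/p` available in the kernel of a nonzero character.
-/

set_option autoImplicit false

noncomputable section

open IntermediateField IsDedekindDomain Filter
open scoped NumberField Topology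

namespace Fermat.Agent.ClassField.Idele.Existence

open SecondIneq

local notation "Qb" => AlgebraicClosure ℚ
local notation "Γ" => (AlgebraicClosure ℚ ≃ₐ[ℚ] AlgebraicClosure ℚ)

variable {p : ℕ} [Fact p.Prime] {k L L' M : IntermediateField ℚ Qb}
  [FiniteDimensional ℚ k] {T : Finset Nat.Primes}

/-- The weight of a place. -/
def placeWt (k : IntermediateField ℚ Qb) [FiniteDimensional ℚ k] (s : ℝ)
    (v : HeightOneSpectrum (𝓞 k)) : ℝ :=
  (Ideal.absNorm v.asIdeal : ℝ) ^ (-s)

lemma placeWt_nonneg (s : ℝ) (v : HeightOneSpectrum (𝓞 k)) : 0 ≤ placeWt k s v :=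
  Real.rpow_nonneg (Nat.cast_nonneg _) _

lemma summable_placeWt {s : ℝ} (hs : 1 < s) : Summable (placeWt k s) :=
  (PrimeSum.summable_wt k hs).comp_injective (i := fun v : HeightOneSpectrum (𝓞 k) => v.asIdeal)
    fun _ _ h => HeightOneSpectrum.ext h

/-- Places outside `T` having trivial local field in `L`. -/
def splitSet (T : Finset Nat.Primes) (k L : IntermediateField ℚ Qb) [FiniteDimensional ℚ k] :
    Set (HeightOneSpectrum (𝓞 k)) :=
  {v | ∃ ℓ : Nat.Primes, ℓ ∉ T ∧ ∃ ι : Emb ℓ, placeAt ι k = v ∧ localField ι L = ⊥}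

lemma mem_of_normal (hkL : k ≤ L) (hN : (L.fixingSubgroup.subgroupOf k.fixingSubgroup).Normal)
    {σ : Γ} (hσ : σ ∈ k.fixingSubgroup) {x : Qb} (hx : x ∈ L) : σ x ∈ L := by
  refine mem_of_forall_fixingSubgroup L fun τ hτ => ?_
  have h := hN.conj_mem (⟨τ, fixingSubgroup_antitone hkL hτ⟩ : k.fixingSubgroup) hτ
    (⟨σ, hσ⟩ : k.fixingSubgroup)⁻¹
  rw [inv_inv, Subgroup.mem_subgroupOf] at h
  have h' : σ.symm (τ (σ x)) = x := (IntermediateField.mem_fixingSubgroup_iff _ _).mp h x hx
  exact (AlgEquiv.symm_apply_eq σ).mp h'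

lemma localField_globalComp_le (hkL : k ≤ L)
    (hN : (L.fixingSubgroup.subgroupOf k.fixingSubgroup).Normal) {ℓ : Nat.Primes} (ι : Emb ℓ)
    {σ : Γ} (hσ : σ ∈ k.fixingSubgroup) : localField (globalComp ι σ) L ≤ localField ι L := by
  refine IntermediateField.adjoin_le_iff.mpr ?_
  rintro _ ⟨x, hx, rfl⟩
  exact apply_mem_localField (mem_of_normal hkL hN hσ hx)

/-- The uniformizer of the place of an embedding, as a local unit. -/
def localUnif {ℓ : Nat.Primes} (ι : Emb ℓ) : (PadicAlgCl (ℓ : ℕ))ˣ :=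
  Units.mk0 (embInt ι k (unifK (placeAt ι k))) (norm_pos_iff.mp (norm_unifK_pos ι))

lemma localUnif_mem {ℓ : Nat.Primes} (ι : Emb ℓ) :
    (localUnif (k := k) ι : PadicAlgCl (ℓ : ℕ)) ∈ localField ι k :=
  apply_mem_localField (unifK (placeAt ι k) : k).2

/-- An idele character on the ideal of a place is its value at the uniformizer. -/
theorem map_idealIdele_placeAt {φ : IdeleGroup → ZMod p} (hφ : IsIdeleChar p k T φ)
    {ℓ : Nat.Primes} (hℓT : ℓ ∉ T) (ι : Emb ℓ) :
    φ (idealIdele (T : Set Nat.Primes) (placeAt ι k).asIdeal) =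
      φ (single ι k (localUnif ι) (localUnif_mem ι)) := by
  refine hφ.eq_of_norm_eq (idealIdele_mem _ _) (single_mem_idelesOf _ _ _ _)
    (fun r hr ι' => ?_) fun r hr ι' => ?_
  · rw [idealIdele_of_mem _ (Finset.mem_coe.mpr hr),
      single_apply_of_ne ι k ι' _ _ fun h => hℓT (h ▸ hr)]
  · rw [norm_idealIdele (placeAt ι k).ne_bot fun h => hr (Finset.mem_coe.mp h)]
    rcases eq_or_ne ℓ r with rfl | hne
    · by_cases hpl : placeAt ι' k = placeAt ι k
      · obtain ⟨τ, hτ⟩ := exists_localComp_eqOn_of_placeAt_eq ι hpl.symm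
        rw [single_apply_of_eqOn ι (localUnif_mem ι) ι' τ hτ, norm_localGal, localUnif,
          Units.val_mk0, ← hpl, idealAbs_placeAt_self]
        exact norm_eq_of_placeAt_eq ι' hpl (unifK (placeAt ι' k) : k).2
      · rw [single_apply_of_placeAt_ne ι k ι' _ _ hpl, Units.val_one, norm_one,
          idealAbs_of_ne ι' (Ne.symm hpl)]
    · rw [single_apply_of_ne ι k ι' _ _ hne, Units.val_one, norm_one, idealAbs_of_ne ι' ?_]
      exact fun h => hne (primes_eq_of_mem (h ▸ natCast_mem_placeAt ι k)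
        (natCast_mem_placeAt ι' k))

/-- Split places are killed by characters trivial on norms. -/
theorem splitSet_subset_killSet [FiniteDimensional ℚ L] (hkL : k ≤ L) {d : ℕ}
    (φ : Fin d → IdeleGroup → ZMod p) (hφ : ∀ i, IsIdeleChar p k T (φ i))
    (hnorm : ∀ g ∈ idelesOf L, ∀ i, φ i (relNorm k L g) = 0) :
    splitSet T k L ⊆ killSet (K := k) φ T := by
  rintro v ⟨ℓ, hℓT, ι, rfl, hbot⟩
  refine ⟨fun ℓ' hℓ' hmem => hℓT (primes_eq_of_mem (natCast_mem_placeAt ι k) hmem ▸ hℓ'),
    fun i => ?_⟩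
  have h := hnorm _ (single_mem_idelesOf ι L _ (localField_mono ι hkL (localUnif_mem ι))) i
  rw [relNorm_single ι hkL (hbot ▸ bot_le) (localUnif_mem ι)] at h
  exact (map_idealIdele_placeAt (hφ i) hℓT ι).trans h

/-- Ideals of prime norm `ℓ`. -/
def normFiber (L : IntermediateField ℚ Qb) [FiniteDimensional ℚ L] (ℓ : Nat.Primes) :
    Finset (Ideal (𝓞 L)) :=
  (Ideal.finite_setOfPred_absNorm_eq (S := 𝓞 L) (ℓ : ℕ)).toFinset

lemma mem_normFiber [FiniteDimensional ℚ L] {ℓ : Nat.Primes} {W : Ideal (𝓞 L)} :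
    W ∈ normFiber L ℓ ↔ Ideal.absNorm W = (ℓ : ℕ) :=
  Set.Finite.mem_toFinset _

lemma sum_normFiber [FiniteDimensional ℚ L] (s : ℝ) (F : Finset Nat.Primes)
    [DecidableEq (Ideal (𝓞 L))] :
    ∑ W ∈ F.biUnion (normFiber L), (Ideal.absNorm W : ℝ) ^ (-s) =
      ∑ ℓ ∈ F, (Density.idealCount L ℓ : ℝ) * (ℓ : ℝ) ^ (-s) := by
  rw [Finset.sum_biUnion]
  · refine Finset.sum_congr rfl fun ℓ _ => ?_
    rw [Finset.sum_congr rfl (fun W hW => by rw [mem_normFiber.mp hW] :
      ∀ W ∈ normFiber L ℓ, (Ideal.absNorm W : ℝ) ^ (-s) = (ℓ : ℝ) ^ (-s)),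
      Finset.sum_const, nsmul_eq_mul]
    congr 2
    rw [normFiber, ← Nat.card_eq_card_finite_toFinset]
    rfl
  · intro ℓ _ ℓ' _ hne
    rw [Function.onFun, Finset.disjoint_left]
    exact fun W h h' => hne (Subtype.ext ((mem_normFiber.mp h).symm.trans (mem_normFiber.mp h')))

/-- The split places have lower density at least the inverse of the degree. -/
theorem exists_lower_bound_split [FiniteDimensional ℚ L] (T : Finset Nat.Primes) (hkL : k ≤ L) :
    ∃ C : ℝ, ∀ᶠ s in 𝓝[>] (1 : ℝ), Real.log (1 / (s - 1)) ≤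
      (L.fixingSubgroup.relIndex k.fixingSubgroup : ℝ) *
        (∑' v : splitSet T k L, placeWt k s v) + C := by
  classical
  obtain ⟨C, hC⟩ := Density.exists_abs_tsum_idealCount_sub_log_le L
  obtain ⟨A, hA⟩ := exists_finset_localField_eq_bot L
  set B := T ∪ A with hB
  refine ⟨C + ∑ ℓ ∈ B, (Density.idealCount L ℓ : ℝ), ?_⟩
  filter_upwards [hC, self_mem_nhdsWithin] with s ⟨hsum, habs⟩ (hs : 1 < s)
  set m := L.fixingSubgroup.relIndex k.fixingSubgroup
  have hS : Summable fun v : splitSet T k L => placeWt k s v := (summable_placeWt hs).subtype _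
  have hbound : ∀ F : Finset Nat.Primes,
      ∑ ℓ ∈ F, (Density.idealCount L ℓ : ℝ) * (ℓ : ℝ) ^ (-s) ≤
      (m : ℝ) * (∑' v : splitSet T k L, placeWt k s v) +
        ∑ ℓ ∈ B, (Density.idealCount L ℓ : ℝ) := by
    intro F
    rw [← Finset.sum_sdiff (Finset.inter_subset_left : F ∩ B ⊆ F)]
    refine add_le_add ?_ ?_
    swap
    · refine le_trans (Finset.sum_le_sum fun ℓ _ => ?_)
        (Finset.sum_le_sum_of_subset_of_nonneg Finset.inter_subset_right
          fun _ _ _ => Nat.cast_nonneg _)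
      exact mul_le_of_le_one_right (Nat.cast_nonneg _)
        (Real.rpow_le_one_of_one_le_of_nonpos (Nat.one_le_cast.2 ℓ.2.one_lt.le) (by linarith))
    rw [← sum_normFiber]
    set Wset := (F \ (F ∩ B)).biUnion (normFiber L)
    have hW : ∀ W : Wset, ∃ (ℓ : Nat.Primes) (ι : Emb ℓ), ℓ ∉ T ∧
        (placeAt ι L).asIdeal = W.1 ∧ localField ι L = ⊥ ∧ Ideal.absNorm W.1 = (ℓ : ℕ) := by
      rintro ⟨W, hW⟩
      obtain ⟨ℓ, hℓ, h⟩ := Finset.mem_biUnion.mp hW
      rw [mem_normFiber] at h
      have hℓB : ℓ ∉ T ∧ ℓ ∉ A := by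
        obtain ⟨h1, h2⟩ := Finset.mem_sdiff.mp hℓ
        exact ⟨fun h' => h2 (Finset.mem_inter.mpr ⟨h1, Finset.mem_union_left _ h'⟩),
          fun h' => h2 (Finset.mem_inter.mpr ⟨h1, Finset.mem_union_right _ h'⟩)⟩
      have hW0 : W ≠ ⊥ := fun h0 => ℓ.2.ne_zero (by rw [← h, h0, Ideal.absNorm_bot])
      have hWp : W.IsPrime := Ideal.isPrime_of_irreducible_absNorm (h ▸ ℓ.2)
      obtain ⟨ι, hι⟩ := exists_placeAt_eq L ⟨W, hWp, hW0⟩ (ℓ := ℓ)
        (by rw [← h]; exact Ideal.absNorm_mem W)
      exact ⟨ℓ, ι, hℓB.1, congrArg HeightOneSpectrum.asIdeal hι,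
        hA ℓ hℓB.2 ι (by rw [hι]; exact h), h⟩
    choose lw iw hwT hwI hwbot hwN using hW
    let v : Wset → splitSet T k L := fun W =>
      ⟨placeAt (iw W) k, lw W, hwT W, iw W, rfl, hwbot W⟩
    have hvN : ∀ W, Ideal.absNorm (v W : HeightOneSpectrum (𝓞 k)).asIdeal = Ideal.absNorm W.1 := by
      intro W
      rw [hwN W]
      exact absNorm_placeAt_of_eq_bot (le_bot_iff.mp (hwbot W ▸ localField_mono _ hkL))
    calc ∑ W ∈ Wset, (Ideal.absNorm W : ℝ) ^ (-s)
        = ∑ W : Wset, placeWt k s (v W) := by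
          rw [← Finset.sum_coe_sort Wset]
          exact Finset.sum_congr rfl fun W _ => by rw [placeWt, hvN]
      _ = ∑ u ∈ (Finset.univ : Finset Wset).image v,
            ((Finset.univ.filter fun W => v W = u).card : ℝ) * placeWt k s u := by
          rw [← Finset.sum_fiberwise_of_maps_to (t := Finset.univ.image v) (g := v)
            (fun W hW => Finset.mem_image_of_mem v hW)]
          refine Finset.sum_congr rfl fun u _ => ?_
          rw [Finset.sum_congr rfl (fun W hW => by rw [(Finset.mem_filter.mp hW).2] :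
            ∀ W ∈ Finset.univ.filter (fun W => v W = u), placeWt k s (v W) = placeWt k s u),
            Finset.sum_const, nsmul_eq_mul]
      _ ≤ ∑ u ∈ (Finset.univ : Finset Wset).image v, (m : ℝ) * placeWt k s u := by
          refine Finset.sum_le_sum fun u hu =>
            mul_le_mul_of_nonneg_right ?_ (placeWt_nonneg _ _)
          obtain ⟨W₀, -, rfl⟩ := Finset.mem_image.mp hu
          have := Fintype.ofFinite (k.fixingSubgroup ⧸ L.fixingSubgroup.subgroupOf k.fixingSubgroup)
          have hsub : (Finset.univ.filter fun W => v W = v W₀).image Subtype.val ⊆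
              (Finset.univ : Finset (k.fixingSubgroup ⧸ L.fixingSubgroup.subgroupOf
                k.fixingSubgroup)).image fun q =>
                  (placeAt (globalComp (iw W₀) ((q.out : k.fixingSubgroup) : Γ)) L).asIdeal := by
            intro W hW
            obtain ⟨W', hW', rfl⟩ := Finset.mem_image.mp hW
            have he : placeAt (iw W') k = placeAt (iw W₀) k :=
              congrArg Subtype.val (Finset.mem_filter.mp hW').2
            have hl : lw W₀ = lw W' := primes_eq_of_mem (natCast_mem_placeAt (iw W₀) k)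
              (he ▸ natCast_mem_placeAt (iw W') k)
            rw [Finset.mem_image]
            rw [← hwI W']
            revert he
            generalize iw W' = j
            revert j
            rw [← hl]
            intro j he
            obtain ⟨τ, hτ⟩ := exists_localComp_eqOn_of_placeAt_eq (iw W₀) he.symm
            obtain ⟨σ, hσ, rfl⟩ :=
              exists_globalComp_eq_of_eqOn (K := k) (ι := localComp τ (iw W₀)) hτ
            refine ⟨QuotientGroup.mk ⟨σ, hσ⟩, Finset.mem_univ _, ?_⟩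
            obtain ⟨⟨u, hu⟩, hout⟩ := QuotientGroup.mk_out_eq_mul
              (L.fixingSubgroup.subgroupOf k.fixingSubgroup) (⟨σ, hσ⟩ : k.fixingSubgroup)
            refine congrArg HeightOneSpectrum.asIdeal (placeAt_eq_of_eqOn τ fun x hx => ?_).symm
            have hux : ((u : k.fixingSubgroup) : Γ) x = x :=
              (IntermediateField.mem_fixingSubgroup_iff _ _).mp (Subgroup.mem_subgroupOf.mp hu) x hx
            rw [hout, Subgroup.coe_mul, globalComp_apply]
            show τ (iw W₀ (σ (((u : k.fixingSubgroup) : Γ) x))) = τ (iw W₀ (σ x))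
            rw [hux]
          have hc := (Finset.card_le_card hsub).trans Finset.card_image_le
          rw [Finset.card_image_of_injective _ Subtype.val_injective, Finset.card_univ,
            ← Nat.card_eq_fintype_card] at hc
          exact_mod_cast hc
      _ = (m : ℝ) * ∑ u ∈ (Finset.univ : Finset Wset).image v, placeWt k s u :=
          (Finset.mul_sum ..).symm
      _ ≤ (m : ℝ) * ∑' u : splitSet T k L, placeWt k s u :=
          mul_le_mul_of_nonneg_left (hS.sum_le_tsum _ fun u _ => placeWt_nonneg _ _)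
            (Nat.cast_nonneg _)
  have h := hsum.tsum_le_of_sum_le hbound
  have h2 := (abs_le.mp habs).1
  linarith

/-- The split places of a Galois extension have upper density at most the inverse of the degree. -/
theorem exists_upper_bound_split [FiniteDimensional ℚ M] (T : Finset Nat.Primes) (hkM : k ≤ M)
    (hN : (M.fixingSubgroup.subgroupOf k.fixingSubgroup).Normal) :
    ∃ C : ℝ, ∀ᶠ s in 𝓝[>] (1 : ℝ),
      (M.fixingSubgroup.relIndex k.fixingSubgroup : ℝ) *
        (∑' v : splitSet T k M, placeWt k s v) ≤ Real.log (1 / (s - 1)) + C := by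
  classical
  obtain ⟨C, hC⟩ := Density.exists_abs_tsum_idealCount_sub_log_le M
  refine ⟨C, ?_⟩
  filter_upwards [hC, self_mem_nhdsWithin] with s ⟨hsum, habs⟩ (hs : 1 < s)
  set m := M.fixingSubgroup.relIndex k.fixingSubgroup with hm
  have hS : Summable fun v : splitSet T k M => placeWt k s v := (summable_placeWt hs).subtype _
  have := Fintype.ofFinite (k.fixingSubgroup ⧸ M.fixingSubgroup.subgroupOf k.fixingSubgroup)
  have hcard : Fintype.card (k.fixingSubgroup ⧸ M.fixingSubgroup.subgroupOf k.fixingSubgroup)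
      = m := by rw [← Nat.card_eq_fintype_card]; rfl
  have hrep : ∀ v : splitSet T k M, ∃ (ℓ : Nat.Primes) (ι : Emb ℓ), placeAt ι k = v.1 ∧
      localField ι M = ⊥ := fun ⟨v, ℓ, _, ι, h1, h2⟩ => ⟨ℓ, ι, h1, h2⟩
  choose lv iv hiv hbot using hrep
  have hb : ∀ v (q : k.fixingSubgroup ⧸ M.fixingSubgroup.subgroupOf k.fixingSubgroup),
      localField (globalComp (iv v) ((q.out : k.fixingSubgroup) : Γ)) M = ⊥ := fun v q =>
    le_bot_iff.mp (hbot v ▸ localField_globalComp_le hkM hN (iv v) q.out.2)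
  let Φ : splitSet T k M × (k.fixingSubgroup ⧸ M.fixingSubgroup.subgroupOf k.fixingSubgroup) →
      Ideal (𝓞 M) := fun x => (placeAt (globalComp (iv x.1) ((x.2.out : k.fixingSubgroup) : Γ)) M).asIdeal
  have hinj : Function.Injective Φ := by
    rintro ⟨v, q⟩ ⟨v', q'⟩ h
    have hp := HeightOneSpectrum.ext h
    have hl : lv v = lv v' := primes_eq_of_mem
      (natCast_mem_placeAt (globalComp (iv v) ((q.out : k.fixingSubgroup) : Γ)) M)
      (hp ▸ natCast_mem_placeAt (globalComp (iv v') ((q'.out : k.fixingSubgroup) : Γ)) M)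
    have hk : ∀ {ℓ : Nat.Primes} (ι : Emb ℓ)
        (q : k.fixingSubgroup ⧸ M.fixingSubgroup.subgroupOf k.fixingSubgroup),
        placeAt (globalComp ι ((q.out : k.fixingSubgroup) : Γ)) k = placeAt ι k := fun ι q =>
      placeAt_eq_of_eqOn 1 fun x hx => by
        rw [globalComp_apply, (IntermediateField.mem_fixingSubgroup_iff _ _).mp q.out.2 x hx]
        rfl
    have hvv : v = v' := by
      apply Subtype.ext
      rw [← hiv v, ← hiv v', ← hk (iv v) q, ← hk (iv v') q']
      revert hp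
      generalize globalComp (iv v') ((q'.out : k.fixingSubgroup) : Γ) = j
      revert j
      rw [← hl]
      exact fun j hp => placeAt_mono hkM hp
    subst hvv
    obtain ⟨τ, hτ⟩ := exists_localComp_eqOn_of_placeAt_eq
      (globalComp (iv v) ((q.out : k.fixingSubgroup) : Γ)) hp
    refine Prod.ext rfl ?_
    rw [← QuotientGroup.out_eq' q, ← QuotientGroup.out_eq' q', QuotientGroup.eq,
      Subgroup.mem_subgroupOf, IntermediateField.mem_fixingSubgroup_iff]
    intro x hx
    have hx' := apply_mem_localField (ι := globalComp (iv v) ((q.out : k.fixingSubgroup) : Γ)) hx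
    rw [hb v q, IntermediateField.mem_bot] at hx'
    obtain ⟨c, hc⟩ := hx'
    have h1 := hτ x hx
    rw [← hc, τ.commutes, hc] at h1
    have h2 : ((q.out : k.fixingSubgroup) : Γ) x = ((q'.out : k.fixingSubgroup) : Γ) x :=
      (iv v).toRingHom.injective h1
    show ((q.out : k.fixingSubgroup) : Γ).symm (((q'.out : k.fixingSubgroup) : Γ) x) = x
    rw [← h2, AlgEquiv.symm_apply_apply]
  have hΦN : ∀ x, Ideal.absNorm (Φ x) = Ideal.absNorm (x.1.1 : HeightOneSpectrum (𝓞 k)).asIdeal := by
    rintro ⟨v, q⟩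
    rw [← hiv v, absNorm_placeAt_of_eq_bot (hb v q),
      absNorm_placeAt_of_eq_bot (le_bot_iff.mp (hbot v ▸ localField_mono _ hkM))]
  have hbound : ∀ V : Finset (splitSet T k M), (m : ℝ) * ∑ v ∈ V, placeWt k s v ≤
      ∑' ℓ : Nat.Primes, (Density.idealCount M ℓ : ℝ) * (ℓ : ℝ) ^ (-s) := by
    intro V
    refine le_trans ?_ (hsum.sum_le_tsum (V.image lv)
      fun ℓ _ => mul_nonneg (Nat.cast_nonneg _) (Real.rpow_nonneg (Nat.cast_nonneg _) _))
    rw [← sum_normFiber]
    calc (m : ℝ) * ∑ v ∈ V, placeWt k s v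
        = ∑ x ∈ V ×ˢ Finset.univ, (Ideal.absNorm (Φ x) : ℝ) ^ (-s) := by
          rw [Finset.sum_product, Finset.mul_sum]
          refine Finset.sum_congr rfl fun v _ => ?_
          simp only [hΦN]
          rw [Finset.sum_const, Finset.card_univ, hcard, nsmul_eq_mul, placeWt]
      _ = ∑ W ∈ (V ×ˢ Finset.univ).image Φ, (Ideal.absNorm W : ℝ) ^ (-s) :=
          (Finset.sum_image (f := fun W => (Ideal.absNorm W : ℝ) ^ (-s)) fun a _ b _ h => hinj h).symm
      _ ≤ _ := by
          refine Finset.sum_le_sum_of_subset_of_nonneg ?_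
            fun _ _ _ => Real.rpow_nonneg (Nat.cast_nonneg _) _
          intro W hW
          obtain ⟨⟨v, q⟩, hx, rfl⟩ := Finset.mem_image.mp hW
          exact Finset.mem_biUnion.mpr ⟨lv v, Finset.mem_image_of_mem _ (Finset.mem_product.mp hx).1,
            mem_normFiber.mpr (absNorm_placeAt_of_eq_bot (hb v q))⟩
  have hm0 : (0 : ℝ) < m := by
    rw [← hcard]
    exact_mod_cast Fintype.card_pos
  have h := hS.tsum_le_of_sum_le (a₂ := (∑' ℓ : Nat.Primes,
      (Density.idealCount M ℓ : ℝ) * (ℓ : ℝ) ^ (-s)) / m) fun V => by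
    rw [le_div_iff₀ hm0, mul_comm]
    exact hbound V
  rw [le_div_iff₀ hm0, mul_comm] at h
  linarith [(abs_le.mp habs).2]

omit [Fact p.Prime] in
/-- A place split in both extensions is split in the compositum. -/
lemma splitSet_inter_subset (h : IsPrimeCyclic p k L') :
    splitSet T k L ∩ splitSet T k L' ⊆ splitSet T k (L ⊔ L') := by
  rintro v ⟨⟨ℓ, hℓ, ι, hι, hb⟩, ℓ', -, ι', hι', hb'⟩
  obtain rfl : ℓ = ℓ' := primes_eq_of_mem (hι ▸ natCast_mem_placeAt ι k)
    (hι' ▸ natCast_mem_placeAt ι' k)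
  refine ⟨ℓ, hℓ, ι, hι, ?_⟩
  obtain ⟨τ, hτ⟩ := exists_localComp_eqOn_of_placeAt_eq ι (hι.trans hι'.symm)
  obtain ⟨σ, hσ, hσ'⟩ := exists_globalComp_eq_of_eqOn (K := k) (ι := localComp τ ι) (ι' := ι') hτ
  have key : ∀ x ∈ L', ι x ∈ (⊥ : IntermediateField ℚ_[(ℓ : ℕ)] (PadicAlgCl (ℓ : ℕ))) := by
    intro x hx
    have hy := apply_mem_localField (ι := ι') (mem_of_normal h.le h.normal (inv_mem hσ) hx)
    rw [hb', ← hσ', globalComp_apply, localComp_apply, AlgEquiv.aut_inv,
      AlgEquiv.apply_symm_apply, IntermediateField.mem_bot] at hy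
    obtain ⟨c, hc⟩ := hy
    rw [IntermediateField.mem_bot]
    exact ⟨c, τ.injective (by rw [τ.commutes, hc])⟩
  let B : IntermediateField ℚ Qb :=
    ((⊥ : IntermediateField ℚ_[(ℓ : ℕ)] (PadicAlgCl (ℓ : ℕ))).restrictScalars ℚ).comap ι
  have hle : L ⊔ L' ≤ B := sup_le (fun x hx => by
    show ι x ∈ (⊥ : IntermediateField ℚ_[(ℓ : ℕ)] (PadicAlgCl (ℓ : ℕ)))
    rw [← hb]
    exact apply_mem_localField hx) key
  refine le_bot_iff.mp (IntermediateField.adjoin_le_iff.mpr ?_)
  rintro _ ⟨x, hx, rfl⟩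
  exact hle hx

/-- Two cyclic extensions whose norms are killed by one nonzero character coincide. -/
theorem eq_of_char_norm_eq_zero (hp : p ≠ 2) {ζ : Qb} (hζ : IsPrimitiveRoot ζ p) (hζk : ζ ∈ k)
    (hT : T.Nonempty) (h : IsPrimeCyclic p k L) (h' : IsPrimeCyclic p k L')
    {φ : IdeleGroup → ZMod p} (hφ : IsIdeleChar p k T φ) (hne : ∃ f ∈ idelesOf k, φ f ≠ 0)
    (hN : ∀ g ∈ idelesOf L, φ (relNorm k L g) = 0)
    (hN' : ∀ g ∈ idelesOf L', φ (relNorm k L' g) = 0) : L = L' := by
  classical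
  by_contra hLL
  have := h.finite
  have := h'.finite
  obtain ⟨f₀, hf₀, hf₀ne⟩ := hne
  have hpow : ∀ n : ℕ, φ (f₀ ^ n) = n * φ f₀ := by
    intro n
    induction n with
    | zero => rw [pow_zero, hφ.map_one']; simp
    | succ n ih => rw [pow_succ, hφ.map_mul' _ (pow_mem hf₀ n) _ hf₀, ih]; push_cast; ring
  obtain ⟨C₃, hC₃⟩ := mul_tsum_le_log (K := k) hp hζ hζk hT (fun _ : Fin 1 => φ) (fun _ => hφ)
    fun c => ⟨f₀ ^ ((c 0 / φ f₀).val), pow_mem hf₀ _, fun i => by
      rw [hpow, ZMod.natCast_zmod_val, div_mul_cancel₀ _ hf₀ne, Subsingleton.elim i 0]⟩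
  obtain ⟨C₁, hC₁⟩ := exists_lower_bound_split (L := L) T h.le
  obtain ⟨C₂, hC₂⟩ := exists_lower_bound_split (L := L') T h'.le
  have hfix : (L ⊔ L').fixingSubgroup = L.fixingSubgroup ⊓ L'.fixingSubgroup :=
    IntermediateField.fixingSubgroup_sup
  have hNM : ((L ⊔ L').fixingSubgroup.subgroupOf k.fixingSubgroup).Normal := by
    rw [hfix, Subgroup.subgroupOf, Subgroup.comap_inf]
    have : (Subgroup.comap k.fixingSubgroup.subtype L.fixingSubgroup).Normal := h.normal
    have : (Subgroup.comap k.fixingSubgroup.subtype L'.fixingSubgroup).Normal := h'.normal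
    exact Subgroup.normal_inf_normal _ _
  have hi : L.fixingSubgroup.relIndex k.fixingSubgroup = p := h.index_eq
  have hi' : L'.fixingSubgroup.relIndex k.fixingSubgroup = p := h'.index_eq
  have hM : (L ⊔ L').fixingSubgroup.relIndex k.fixingSubgroup = p * p := by
    have hLk := fixingSubgroup_antitone h.le
    have hmul := Subgroup.relIndex_mul_relIndex (L ⊔ L').fixingSubgroup L.fixingSubgroup
      k.fixingSubgroup (fixingSubgroup_antitone le_sup_left) hLk
    rw [← hmul, hi]
    congr 1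
    rw [hfix, Subgroup.inf_relIndex_left]
    have hd : L'.fixingSubgroup.relIndex L.fixingSubgroup ∣ p := by
      rw [← hi']
      have := h'.normal
      have h3 := Subgroup.relIndex_dvd_index_of_normal
        (L'.fixingSubgroup.subgroupOf k.fixingSubgroup) (L.fixingSubgroup.subgroupOf k.fixingSubgroup)
      rwa [Subgroup.relIndex_subgroupOf hLk] at h3
    refine ((Nat.dvd_prime Fact.out).mp hd).resolve_left fun h1 => hLL ?_
    rw [Subgroup.relIndex_eq_one] at h1
    have h2 := Subgroup.relIndex_mul_relIndex L.fixingSubgroup L'.fixingSubgroup k.fixingSubgroup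
      h1 (fixingSubgroup_antitone h'.le)
    rw [hi, hi'] at h2
    have h4 := (mul_eq_right₀ (Fact.out : p.Prime).ne_zero).mp h2
    rw [Subgroup.relIndex_eq_one] at h4
    rw [← InfiniteGalois.fixedField_fixingSubgroup L, le_antisymm h1 h4,
      InfiniteGalois.fixedField_fixingSubgroup]
  have : FiniteDimensional ℚ (L ⊔ L' : IntermediateField ℚ Qb) :=
    IntermediateField.finiteDimensional_sup L L'
  obtain ⟨C₄, hC₄⟩ := exists_upper_bound_split (M := L ⊔ L') T (h.le.trans le_sup_left) hNM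
  have htends : Tendsto (fun s : ℝ => Real.log (1 / (s - 1))) (𝓝[>] 1) atTop := by
    refine Real.tendsto_log_atTop.comp ?_
    simp only [one_div]
    refine tendsto_inv_nhdsGT_zero.comp ?_
    rw [tendsto_nhdsWithin_iff]
    refine ⟨?_, eventually_nhdsWithin_of_forall fun s hs => by
      simp only [Set.mem_Ioi] at hs ⊢; linarith⟩
    exact (((continuous_id.sub continuous_const).tendsto' (1 : ℝ) 0 (by simp))).mono_left
      nhdsWithin_le_nhds
  have hev := (htends.eventually_gt_atTop (2 * (|C₁| + |C₂| + |C₃| + |C₄|))).and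
    ((hC₁.and hC₂).and (hC₄.and (Ioc_mem_nhdsGT (show (1 : ℝ) < 2 by norm_num))))
  obtain ⟨s, hlog, ⟨h1, h2⟩, h4, hs⟩ := hev.exists
  have h3 := hC₃ s hs
  rw [hi] at h1
  rw [hi'] at h2
  rw [hM, Nat.cast_mul] at h4
  rw [pow_one] at h3
  set w := placeWt k s
  have hw : Summable w := summable_placeWt hs.1
  have hA : ∀ X : Set (HeightOneSpectrum (𝓞 k)), ∑' v : X, w v = ∑' v, X.indicator w v :=
    fun X => tsum_subtype X w
  have hsub := splitSet_subset_killSet (k := k) (L := L) h.le (fun _ : Fin 1 => φ) (fun _ => hφ)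
    fun g hg _ => hN g hg
  have hsub' := splitSet_subset_killSet (k := k) (L := L') h'.le (fun _ : Fin 1 => φ) (fun _ => hφ)
    fun g hg _ => hN' g hg
  have hineq : (∑' v : splitSet T k L, w v) + ∑' v : splitSet T k L', w v ≤
      (∑' v : killSet (K := k) (fun _ : Fin 1 => φ) T, w v) +
        ∑' v : splitSet T k (L ⊔ L'), w v := by
    rw [hA, hA, hA, hA, ← (hw.indicator _).tsum_add (hw.indicator _),
      ← (hw.indicator _).tsum_add (hw.indicator _)]
    refine ((hw.indicator _).add (hw.indicator _)).tsum_le_tsum (fun v => ?_)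
      ((hw.indicator _).add (hw.indicator _))
    have h0 : 0 ≤ w v := placeWt_nonneg s v
    by_cases ha : v ∈ splitSet T k L <;> by_cases hb : v ∈ splitSet T k L'
    · rw [Set.indicator_of_mem ha, Set.indicator_of_mem hb, Set.indicator_of_mem (hsub ha),
        Set.indicator_of_mem (splitSet_inter_subset h' ⟨ha, hb⟩)]
    · rw [Set.indicator_of_mem ha, Set.indicator_of_notMem hb, Set.indicator_of_mem (hsub ha)]
      exact add_le_add_right (Set.indicator_nonneg (fun _ _ => placeWt_nonneg _ _) v) _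
    · rw [Set.indicator_of_notMem ha, Set.indicator_of_mem hb, Set.indicator_of_mem (hsub' hb),
        zero_add]
      exact le_add_of_nonneg_right (Set.indicator_nonneg (fun _ _ => placeWt_nonneg _ _) v)
    · rw [Set.indicator_of_notMem ha, Set.indicator_of_notMem hb, zero_add]
      exact add_nonneg (Set.indicator_nonneg (fun _ _ => placeWt_nonneg _ _) v)
        (Set.indicator_nonneg (fun _ _ => placeWt_nonneg _ _) v)
  have hp2 : (2 : ℝ) ≤ p := by exact_mod_cast (Fact.out : p.Prime).two_le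
  set D := ∑' v : splitSet T k (L ⊔ L'), w v
  have hD : 0 ≤ D := tsum_nonneg fun v => placeWt_nonneg _ _
  have hD2 : 2 * ((p : ℝ) * D) ≤ (p : ℝ) * (p : ℝ) * D := by
    rw [mul_assoc (p : ℝ)]
    exact mul_le_mul_of_nonneg_right hp2 (mul_nonneg (Nat.cast_nonneg _) hD)
  have hmul := mul_le_mul_of_nonneg_left hineq (Nat.cast_nonneg p)
  rw [mul_add, mul_add] at hmul
  change (p : ℝ) * (∑' v : killSet (K := k) (fun _ : Fin 1 => φ) T, w v) ≤ _ at h3
  linarith [abs_nonneg C₄, le_abs_self C₁, le_abs_self C₂, le_abs_self C₃, le_abs_self C₄]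

end Fermat.Agent.ClassField.Idele.Existence
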