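import Fermat.Agent.ClassField.Idele.Existence.Chars
import Fermat.Agent.ClassField.Idele.Existence.Injective

/-!
# Generating places avoiding a finite set of primes
-/

set_option autoImplicit false

noncomputable section

open IntermediateField IsDedekindDomain Filter
open scoped NumberField Topology

namespace Fermat.Agent.ClassField.Idele.Existence

open SecondIneq

local notation "Qb" => AlgebraicClosure ℚ

variable {p : ℕ} [Fact p.Prime] {K : IntermediateField ℚ Qb} [FiniteDimensional ℚ K]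

/-- A nonzero character cannot kill all but finitely many places. -/
theorem char_eq_zero_of_forall_single (hp : p ≠ 2) {ζ : Qb} (hζ : IsPrimitiveRoot ζ p) (hζK : ζ ∈ K)
    {T : Finset Nat.Primes} (hT : T.Nonempty) {φ : IdeleGroup → ZMod p} (hφ : IsIdeleChar p K T φ)
    (h : ∀ ℓ ∉ T, ∀ ι : Emb ℓ, φ (single ι K (localUnif ι) (localUnif_mem ι)) = 0)
    {f₀ : IdeleGroup} (hf₀ : f₀ ∈ idelesOf K) : φ f₀ = 0 := by
  classical
  by_contra hf₀ne
  have hpow : ∀ n : ℕ, φ (f₀ ^ n) = n * φ f₀ := by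
    intro n
    induction n with
    | zero => rw [pow_zero, hφ.map_one']; simp
    | succ n ih => rw [pow_succ, hφ.map_mul' _ (pow_mem hf₀ n) _ hf₀, ih]; push_cast; ring
  obtain ⟨C₃, hC₃⟩ := mul_tsum_le_log (K := K) hp hζ hζK hT (fun _ : Fin 1 => φ) (fun _ => hφ)
    fun c => ⟨f₀ ^ ((c 0 / φ f₀).val), pow_mem hf₀ _, fun i => by
      rw [hpow, ZMod.natCast_zmod_val, div_mul_cancel₀ _ hf₀ne, Subsingleton.elim i 0]⟩
  obtain ⟨C₁, hC₁⟩ := exists_lower_bound_split (L := K) T (le_refl K)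
  have htends : Tendsto (fun s : ℝ => Real.log (1 / (s - 1))) (𝓝[>] 1) atTop := by
    refine Real.tendsto_log_atTop.comp ?_
    simp only [one_div]
    refine tendsto_inv_nhdsGT_zero.comp ?_
    rw [tendsto_nhdsWithin_iff]
    refine ⟨?_, eventually_nhdsWithin_of_forall fun s hs => by
      simp only [Set.mem_Ioi] at hs ⊢; linarith⟩
    exact (((continuous_id.sub continuous_const).tendsto' (1 : ℝ) 0 (by simp))).mono_left
      nhdsWithin_le_nhds
  obtain ⟨s, hlog, h1, hs⟩ := ((htends.eventually_gt_atTop (2 * |C₁| + |C₃|)).and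
    (hC₁.and (Ioc_mem_nhdsGT (show (1 : ℝ) < 2 by norm_num)))).exists
  have h3 := hC₃ s hs
  rw [pow_one] at h3
  rw [Subgroup.relIndex_self, Nat.cast_one, one_mul] at h1
  set w := placeWt K s
  have hw : Summable w := summable_placeWt hs.1
  have hle : ∑' v : splitSet T K K, w v ≤ ∑' v : killSet (K := K) (fun _ : Fin 1 => φ) T, w v := by
    rw [tsum_subtype (splitSet T K K) w, tsum_subtype (killSet (K := K) (fun _ : Fin 1 => φ) T) w]
    refine (hw.indicator _).tsum_le_tsum (fun v => ?_) (hw.indicator _)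
    refine Set.indicator_le_indicator_of_subset ?_ (fun v => placeWt_nonneg s v) v
    rintro v ⟨ℓ, hℓT, ι, rfl, -⟩
    exact ⟨fun ℓ' hℓ' hmem => hℓT (primes_eq_of_mem (natCast_mem_placeAt ι K) hmem ▸ hℓ'),
      fun _ => (map_idealIdele_placeAt hφ hℓT ι).trans (h ℓ hℓT ι)⟩
  have hp2 : (2 : ℝ) ≤ p := by exact_mod_cast (Fact.out : p.Prime).two_le
  have hA : 0 ≤ ∑' v : splitSet T K K, w v := tsum_nonneg fun v => placeWt_nonneg _ _
  have h5 : 2 * ∑' v : splitSet T K K, w v ≤
      (p : ℝ) * ∑' v : killSet (K := K) (fun _ : Fin 1 => φ) T, w v :=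
    mul_le_mul hp2 hle hA (Nat.cast_nonneg _)
  change (p : ℝ) * (∑' v : killSet (K := K) (fun _ : Fin 1 => φ) T, w v) ≤ _ at h3
  linarith [le_abs_self C₁, le_abs_self C₃]

/-- Every place contains a rational prime. -/
lemma exists_prime_mem (v : HeightOneSpectrum (𝓞 K)) :
    ∃ ℓ : Nat.Primes, ((ℓ : ℕ) : 𝓞 K) ∈ v.asIdeal := by
  suffices h : ∀ n : ℕ, n ≠ 0 → (n : 𝓞 K) ∈ v.asIdeal →
      ∃ ℓ : Nat.Primes, ((ℓ : ℕ) : 𝓞 K) ∈ v.asIdeal from
    h _ (fun h0 => v.ne_bot (Ideal.absNorm_eq_zero_iff.mp h0)) (Ideal.absNorm_mem _)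
  intro n
  induction n using induction_on_primes with
  | zero => exact fun h => absurd rfl h
  | one => exact fun _ h => absurd ((Ideal.eq_top_iff_one _).mpr (by rwa [Nat.cast_one] at h)) v.isPrime.ne_top
  | prime_mul q a hq ih =>
    intro hne h
    rw [Nat.cast_mul] at h
    rcases v.isPrime.mem_or_mem h with h | h
    · exact ⟨⟨q, hq⟩, h⟩
    · exact ih (fun h0 => hne (by rw [h0, mul_zero])) h

lemma norm_apply_eq_evalAt {S : Finset Nat.Primes} {f : idelesOf K} {ℓ : Nat.Primes} (ι : Emb ℓ)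
    (v : Place S K) (hv : v.1 = placeAt ι K) :
    ‖((f : IdeleGroup) : Raw) ℓ ι |>.val‖ =
      ‖((evalAt v f : localField (repEmb v) K) : PadicAlgCl (repPrime v : ℕ))‖ := by
  have e := repPrime_eq hv
  subst e
  obtain ⟨τ, hτ⟩ := exists_localComp_eqOn_of_placeAt_eq (repEmb v) ((placeAt_repEmb v).trans hv)
  rw [coe_evalAt, apply_eq_of_eqOn f.2 (ι := localComp τ (repEmb v)) (ι' := ι) hτ,
    (f : IdeleGroup).2.1 _ τ (repEmb v), norm_localGal]

/-- Generating places can avoid any finite set of primes. -/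
theorem exists_generates_disjoint (hp : p ≠ 2) {ζ : Qb} (hζ : IsPrimitiveRoot ζ p) (hζK : ζ ∈ K)
    (A : Finset Nat.Primes) : ∃ T : Finset Nat.Primes, Disjoint T A ∧ Generates p K T := by
  classical
  set P : Finset Nat.Primes → Subgroup IdeleGroup := fun T =>
    trivPart p K ∅ ⊔ (idelesOf K ⊓ supportedIn (T : Set Nat.Primes)) with hPdef
  have hPmono : ∀ {T T'}, T ⊆ T' → P T ≤ P T' := fun h =>
    sup_le_sup_left (inf_le_inf_left _ (supportedIn_mono (Finset.coe_subset.mpr h))) _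
  let H : Subgroup IdeleGroup :=
    { carrier := {f | ∃ T, Disjoint T A ∧ f ∈ P T}
      one_mem' := ⟨∅, Finset.disjoint_empty_left _, one_mem _⟩
      mul_mem' := fun {a b} ⟨T, hT, ha⟩ ⟨T', hT', hb⟩ => ⟨T ∪ T', Finset.disjoint_union_left.mpr
        ⟨hT, hT'⟩, mul_mem (hPmono Finset.subset_union_left ha) (hPmono Finset.subset_union_right hb)⟩
      inv_mem' := fun {a} ⟨T, hT, ha⟩ => ⟨T, hT, inv_mem ha⟩ }
  have hall : ∀ f ∈ idelesOf K, f ∈ H := by
    intro f hf
    by_contra hfH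
    set W : AddSubgroup (CharSpace p K ∅) :=
      (H.subgroupOf (idelesOf K)).map (QuotientGroup.mk' _) |>.toAddSubgroup with hW
    have hfW : toCharSpace (⟨f, hf⟩ : idelesOf K) ∉ W.toZModSubmodule p := by
      rintro ⟨g, hg, hgf⟩
      rw [QuotientGroup.mk'_apply] at hgf
      have h' : (toCharSpace (g⁻¹ * ⟨f, hf⟩) : CharSpace p K ∅) = 0 := by
        apply Additive.toMul.injective
        show (QuotientGroup.mk (g⁻¹ * ⟨f, hf⟩) : _ ⧸ _) = 1
        rw [QuotientGroup.mk_mul, QuotientGroup.mk_inv, inv_mul_eq_one]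
        exact hgf
      rw [toCharSpace_eq_zero] at h'
      have h'' : (g : IdeleGroup) * ((g : IdeleGroup)⁻¹ * f) ∈ H :=
        mul_mem (Subgroup.mem_subgroupOf.mp hg) ⟨∅, Finset.disjoint_empty_left _, Subgroup.mem_sup_left h'⟩
      rw [mul_inv_cancel_left] at h''
      exact hfH h''
    obtain ⟨ψ, hψf, hψW⟩ := Submodule.exists_dual_map_eq_bot_of_notMem hfW inferInstance
    have hφ := isIdeleChar_mono (Finset.empty_subset (insert (⟨p, Fact.out⟩ : Nat.Primes) A))
      (isIdeleChar_dualChar ψ)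
    have h0 := char_eq_zero_of_forall_single hp hζ hζK ⟨_, Finset.mem_insert_self _ _⟩ hφ
      (fun ℓ hℓ ι => ?_) hf
    · rw [show f = ((⟨f, hf⟩ : idelesOf K) : IdeleGroup) from rfl, dualChar_apply] at h0
      exact hψf h0
    have hs := single_mem_idelesOf ι K (localUnif ι) (localUnif_mem ι)
    rw [show single ι K (localUnif ι) (localUnif_mem ι) =
      ((⟨_, hs⟩ : idelesOf K) : IdeleGroup) from rfl, dualChar_apply]
    have hmem : toCharSpace (⟨_, hs⟩ : idelesOf K) ∈ W.toZModSubmodule p :=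
      ⟨⟨_, hs⟩, Subgroup.mem_subgroupOf.mpr ⟨{ℓ}, Finset.disjoint_singleton_left.mpr
        fun h => hℓ (Finset.mem_insert_of_mem h), Subgroup.mem_sup_right ⟨hs, fun r hr ι' =>
          single_apply_of_ne ι K ι' _ (localUnif_mem ι) fun h => hr (by simp [h])⟩⟩, rfl⟩
    exact (Submodule.eq_bot_iff _).mp hψW _ (Submodule.mem_map_of_mem hmem)
  -- reduce to finitely many uniformizers
  obtain ⟨T₀, hT₀fin, hT₀⟩ := exists_finite_generating K
  choose lp hlp using exists_prime_mem (K := K)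
  set S₀ := hT₀fin.toFinset.image lp with hS₀
  have hu : ∀ v : Place S₀ K, ∃ π : LocalUnits v,
      localToUnit v π = localUnif (k := K) (repEmb v) := fun v =>
    ⟨Units.mk0 ⟨_, localUnif_mem (repEmb v)⟩ fun h => Units.ne_zero _ (congrArg Subtype.val h),
      Units.ext rfl⟩
  choose π hπ using hu
  choose Tv hTv hπT using fun v : Place S₀ K =>
    hall (singleHom v (π v)) (single_mem_idelesOf _ _ _ (localToUnit_mem v (π v)))
  refine ⟨Finset.univ.biUnion Tv, (Finset.disjoint_biUnion_left _ _ _).mpr fun v _ => hTv v,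
    fun f hf => ?_⟩
  set P' := P (Finset.univ.biUnion Tv)
  show f ∈ P'
  obtain ⟨x, hx0, hx⟩ := exists_principal_norm_eq_one hT₀ hf
  set xu : Qbˣ := Units.mk0 (x : Qb) fun h => hx0 (Subtype.ext h) with hxu
  have hprin : principal xu ∈ trivPart p K ∅ := principal_mem_trivPart x.2
  suffices h : principal xu * f ∈ P' by
    have h' := mul_mem (inv_mem (Subgroup.mem_sup_left (T := idelesOf K ⊓ supportedIn
      ((Finset.univ.biUnion Tv : Finset Nat.Primes) : Set Nat.Primes)) hprin)) h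
    rwa [inv_mul_cancel_left] at h'
  set f₁ : idelesOf K := ⟨principal xu * f, mul_mem (trivPart_le hprin) hf⟩ with hf₁
  have hn : ∀ v : Place S₀ K, ∃ n : ℤ,
      ‖((evalAt v f₁ : localField (repEmb v) K) : PadicAlgCl (repPrime v : ℕ))‖ =
        ‖embInt (repEmb v) K (unifK (placeAt (repEmb v) K))‖ ^ n := fun v => by
    rw [coe_evalAt]; exact exists_norm_apply_eq_zpow (repEmb v) f₁.2
  choose n hn using hn
  set g : IdeleGroup := ofLocal fun v : Place S₀ K => π v ^ n v with hg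
  have hgP : g ∈ P' := by
    rw [hg, ofLocal_apply]
    refine Subgroup.prod_mem _ fun v _ => ?_
    rw [map_zpow]
    exact zpow_mem (hPmono (Finset.subset_biUnion_of_mem Tv (Finset.mem_univ v)) (hπT v)) _
  suffices hu : (f₁ : IdeleGroup) * g⁻¹ ∈ trivPart p K ∅ by
    have h' := mul_mem (Subgroup.mem_sup_left (T := idelesOf K ⊓ supportedIn
      ((Finset.univ.biUnion Tv : Finset Nat.Primes) : Set Nat.Primes)) hu) hgP
    rwa [inv_mul_cancel_right] at h'
  refine unit_mem_trivPart (mul_mem f₁.2 (inv_mem (ofLocal_mem _).1))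
    ⟨fun ℓ hℓ => absurd hℓ (by simp), fun ℓ _ ι => ?_⟩
  rw [Subgroup.coe_mul, Raw.mul_apply, Subgroup.coe_inv, Units.val_mul, norm_mul,
    show (g : Raw)⁻¹ ℓ ι = ((g : Raw) ℓ ι)⁻¹ from rfl, Units.val_inv_eq_inv_val, norm_inv,
    ← div_eq_mul_inv]
  by_cases hℓ : ℓ ∈ S₀
  · obtain ⟨v, hv⟩ : ∃ v : Place S₀ K, v.1 = placeAt ι K :=
      ⟨⟨_, placeAt_mem_placesOver hℓ ι⟩, rfl⟩
    rw [norm_apply_eq_evalAt ι v hv, norm_apply_eq_evalAt (f := ⟨g, (ofLocal_mem _).1⟩) ι v hv,
      hn, evalAt_ofLocal]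
    have hval : ((π v ^ n v : LocalUnits v) : localField (repEmb v) K).val =
        embInt (repEmb v) K (unifK (placeAt (repEmb v) K)) ^ n v := by
      show (localToUnit v (π v ^ n v) : PadicAlgCl (repPrime v : ℕ)) = _
      rw [map_zpow, hπ, Units.val_zpow_eq_zpow_val, localUnif, Units.val_mk0]
    rw [hval, norm_zpow, div_self (zpow_ne_zero _ (norm_unifK_pos _).ne')]
  · have hnot : placeAt ι K ∉ T₀ := fun h => hℓ (Finset.mem_image.mpr
      ⟨_, hT₀fin.mem_toFinset.mpr h, primes_eq_of_mem (hlp _) (natCast_mem_placeAt ι K)⟩)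
    rw [(ofLocal_mem _).2 ℓ (fun h => hℓ (Finset.mem_coe.mp h)) ι, Units.val_one, norm_one, div_one]
    exact hx ℓ ι hnot

end Fermat.Agent.ClassField.Idele.Existence
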