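import Fermat.Agent.ClassField.PadicFields
import Mathlib.GroupTheory.Index
import Mathlib.RingTheory.IntegralDomain

/-!
# The index of the `p`-th powers in a finite extension of `ℚ_q`
-/

set_option autoImplicit false

noncomputable section

namespace Fermat.Agent.ClassField.Idele.Existence

open Fermat.Agent.ClassField.PadicFields

variable {q : ℕ} [Fact q.Prime] {F : IntermediateField ℚ_[q] (PadicAlgCl q)}

lemma norm_natCast_le_one' (n : ℕ) : ‖(n : F)‖ ≤ 1 := IsUltrametricDist.norm_natCast_le_one F n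

lemma norm_one_add_pow_sub_le (z : F) (hz : ‖z‖ ≤ 1) :
    ∀ n : ℕ, ‖(1 + z) ^ n - 1 - (n : F) * z‖ ≤ ‖z‖ ^ 2 := by
  intro n
  induction n with
  | zero => simp
  | succ n ih =>
    have h1 : ‖1 + z‖ ≤ 1 :=
      (IsUltrametricDist.norm_add_le_max _ _).trans (max_le norm_one.le hz)
    have : (1 + z) ^ (n + 1) - 1 - ((n + 1 : ℕ) : F) * z =
        ((1 + z) ^ n - 1 - (n : F) * z) * (1 + z) + (n : F) * z ^ 2 := by
      push_cast; ring
    rw [this]
    refine (IsUltrametricDist.norm_add_le_max _ _).trans (max_le ?_ ?_)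
    · rw [norm_mul]
      exact (mul_le_of_le_one_right (norm_nonneg _) h1).trans ih
    · rw [norm_mul, norm_pow]
      exact mul_le_of_le_one_left (pow_nonneg (norm_nonneg _) _) (norm_natCast_le_one' n)

lemma norm_eq_one_of_norm_sub_one_lt {x : F} (h : ‖x - 1‖ < 1) : ‖x‖ = 1 := by
  have := IsUltrametricDist.norm_add_eq_max_of_norm_ne_norm (x := x - 1) (y := (1 : F))
    (by rw [norm_one]; exact h.ne)
  rwa [sub_add_cancel, norm_one, max_eq_right h.le] at this

/-- The units congruent to one up to `r`. -/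
def oneBall (r : ℝ) (hr0 : 0 ≤ r) (hr : r < 1) : Subgroup Fˣ where
  carrier := {u | ‖(u : F) - 1‖ ≤ r}
  one_mem' := by simpa using hr0
  mul_mem' := by
    intro u v hu hv
    have h1 : ((u * v : Fˣ) : F) - 1 = (u : F) * ((v : F) - 1) + ((u : F) - 1) := by
      rw [Units.val_mul]; ring
    show ‖((u * v : Fˣ) : F) - 1‖ ≤ r
    rw [h1]
    refine (IsUltrametricDist.norm_add_le_max _ _).trans (max_le ?_ hu)
    rw [norm_mul, norm_eq_one_of_norm_sub_one_lt (lt_of_le_of_lt hu hr), one_mul]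
    exact hv
  inv_mem' := by
    intro u hu
    have h1 : ((u⁻¹ : Fˣ) : F) - 1 = -(((u⁻¹ : Fˣ) : F) * ((u : F) - 1)) := by
      rw [mul_sub, Units.inv_mul]; ring
    show ‖((u⁻¹ : Fˣ) : F) - 1‖ ≤ r
    rw [h1, norm_neg, norm_mul, Units.val_inv_eq_inv_val, norm_inv,
      norm_eq_one_of_norm_sub_one_lt (lt_of_le_of_lt hu hr), inv_one, one_mul]
    exact hu

lemma mem_oneBall {r : ℝ} {hr0 : 0 ≤ r} {hr : r < 1} {u : Fˣ} :
    u ∈ oneBall r hr0 hr ↔ ‖(u : F) - 1‖ ≤ r := Iff.rfl

/-- The unit group as a subgroup. -/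
def unitBall : Subgroup Fˣ where
  carrier := {u | ‖(u : F)‖ = 1}
  one_mem' := by simp
  mul_mem' := fun {u v} hu hv => by
    show ‖((u * v : Fˣ) : F)‖ = 1
    rw [Units.val_mul, norm_mul, hu, hv, one_mul]
  inv_mem' := fun {u} hu => by
    show ‖((u⁻¹ : Fˣ) : F)‖ = 1
    rw [Units.val_inv_eq_inv_val, norm_inv, hu, inv_one]

lemma relIndex_oneBall {r r' : ℝ} (hr0 : 0 ≤ r) (hr : r < 1) (hr'0 : 0 ≤ r') (hle : r' ≤ r)
    (hsq : r * r ≤ r') :
    (oneBall (F := F) r' hr'0 (hle.trans_lt hr)).relIndex (oneBall r hr0 hr) =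
      (ball F r' hr'0).relIndex (ball F r hr0) := by
  let B := oneBall (F := F) r hr0 hr
  let Q := (ball F r hr0) ⧸ (ball F r' hr'0).addSubgroupOf (ball F r hr0)
  let f : B →* Multiplicative Q :=
    { toFun := fun u => Multiplicative.ofAdd
        (QuotientAddGroup.mk (⟨((u : Fˣ) : F) - 1, u.2⟩ : ball F r hr0))
      map_one' := by
        have h : (⟨(((1 : B) : Fˣ) : F) - 1, (1 : B).2⟩ : ball F r hr0) = 0 := Subtype.ext (by simp)
        simp only [h]; rfl
      map_mul' := fun u v => by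
        rw [← ofAdd_add, ← QuotientAddGroup.mk_add]
        congr 1
        rw [QuotientAddGroup.eq, AddSubgroup.mem_addSubgroupOf]
        show ‖-((((u * v : B) : Fˣ) : F) - 1) + ((((u : Fˣ) : F) - 1) + (((v : Fˣ) : F) - 1))‖ ≤ r'
        have : -((((u * v : B) : Fˣ) : F) - 1) + ((((u : Fˣ) : F) - 1) + (((v : Fˣ) : F) - 1)) =
            -((((u : Fˣ) : F) - 1) * (((v : Fˣ) : F) - 1)) := by
          push_cast; ring
        rw [this, norm_neg, norm_mul]
        exact (mul_le_mul u.2 v.2 (norm_nonneg _) hr0).trans hsq }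
  have hsurj : Function.Surjective f := by
    intro y
    obtain ⟨⟨x, hx⟩, hxy⟩ := QuotientAddGroup.mk_surjective (Multiplicative.toAdd y)
    have h0 : (1 + x : F) ≠ 0 := fun h => by
      have h1 : ‖x‖ = 1 := by rw [eq_neg_of_add_eq_zero_right h, norm_neg, norm_one]
      have : ‖x‖ ≤ r := hx
      linarith
    refine ⟨⟨Units.mk0 _ h0, ?_⟩, ?_⟩
    · show ‖(1 + x : F) - 1‖ ≤ r
      rw [add_sub_cancel_left]; exact hx
    · apply Multiplicative.toAdd.injective
      rw [← hxy]
      show (QuotientAddGroup.mk _ : Q) = QuotientAddGroup.mk _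
      congr 1
      exact Subtype.ext (add_sub_cancel_left (1 : F) x)
  have hker : f.ker = (oneBall r' hr'0 (hle.trans_lt hr)).subgroupOf B := by
    ext u
    rw [MonoidHom.mem_ker, Subgroup.mem_subgroupOf]
    show (QuotientAddGroup.mk _ : Q) = 0 ↔ _
    rw [QuotientAddGroup.eq_zero_iff, AddSubgroup.mem_addSubgroupOf]
    exact Iff.rfl
  rw [Subgroup.relIndex, ← hker, Subgroup.index_ker, MonoidHom.range_eq_top.mpr hsurj,
    Subgroup.card_top]
  rfl

variable [FiniteDimensional ℚ_[q] F]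

lemma isCompact_oneBall {r : ℝ} (hr0 : 0 ≤ r) (hr : r < 1) :
    IsCompact ((fun u : Fˣ => (u : F)) '' (oneBall (F := F) r hr0 hr : Set Fˣ)) := by
  have : (fun u : Fˣ => (u : F)) '' (oneBall (F := F) r hr0 hr : Set Fˣ) =
      Metric.closedBall (1 : F) r := by
    ext x
    constructor
    · rintro ⟨u, hu, rfl⟩
      rw [Metric.mem_closedBall, dist_eq_norm]
      exact hu
    · intro hx
      rw [Metric.mem_closedBall, dist_eq_norm] at hx
      have h1 := norm_eq_one_of_norm_sub_one_lt (lt_of_le_of_lt hx hr)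
      exact ⟨Units.mk0 x (norm_ne_zero_iff.mp (h1.trans_ne one_ne_zero)), hx, rfl⟩
  rw [this]
  exact isCompact_closedBall _ _

/-- `x ↦ x ^ p` maps the ball of radius `r` onto the ball of radius `|p| r`. -/
lemma exists_pow_eq {p : ℕ} {r : ℝ} (hr0 : 0 < r) (hr : r < 1) (hrp : r < ‖(p : F)‖)
    {c : Fˣ} (hc : ‖(c : F) - 1‖ ≤ ‖(p : F)‖ * r) :
    ∃ x ∈ oneBall (F := F) r hr0.le hr, x ^ p = c := by
  set P := ‖(p : F)‖ with hP
  have hP0 : 0 < P := lt_trans hr0 hrp
  set θ := r / P with hθ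
  have hθ1 : θ < 1 := (div_lt_one hP0).mpr hrp
  have hθ0 : 0 ≤ θ := (div_pos hr0 hP0).le
  have happ : ∀ n : ℕ, ∃ x ∈ oneBall (F := F) r hr0.le hr,
      ‖(c : F) / (x : F) ^ p - 1‖ ≤ P * r * θ ^ n := by
    intro n
    induction n with
    | zero => exact ⟨1, one_mem _, by simpa using hc⟩
    | succ n ih =>
      obtain ⟨x, hx, hy⟩ := ih
      set y := (c : F) / (x : F) ^ p - 1 with hydef
      have hyP : ‖y‖ ≤ P * r :=
        hy.trans (mul_le_of_le_one_right (by positivity) (pow_le_one₀ hθ0 hθ1.le))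
      set z := y / (p : F) with hzdef
      have hz : ‖z‖ ≤ r := by
        rw [hzdef, norm_div, ← hP, div_le_iff₀ hP0, mul_comm]; exact hyP
      have hz1 : ‖(1 + z) - 1‖ < 1 := by rw [add_sub_cancel_left]; linarith
      have hz0 : (1 + z : F) ≠ 0 :=
        norm_ne_zero_iff.mp ((norm_eq_one_of_norm_sub_one_lt hz1).trans_ne one_ne_zero)
      have hmem : Units.mk0 _ hz0 ∈ oneBall (F := F) r hr0.le hr := by
        rw [mem_oneBall, Units.val_mk0, add_sub_cancel_left]; exact hz
      refine ⟨x * Units.mk0 _ hz0, mul_mem hx hmem, ?_⟩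
      have hpz : ‖(1 + z) ^ p - 1 - y‖ ≤ ‖z‖ ^ 2 := by
        have h := norm_one_add_pow_sub_le z (by linarith) p
        have hpz' : (p : F) * z = y := mul_div_cancel₀ _ (norm_pos_iff.mp hP0)
        rwa [hpz'] at h
      have hxne : (x : F) ^ p ≠ 0 := pow_ne_zero _ x.ne_zero
      have hzp : ‖(1 + z) ^ p‖ = 1 := by
        rw [norm_pow, norm_eq_one_of_norm_sub_one_lt hz1, one_pow]
      have heq : (c : F) / ((x : F) * (1 + z)) ^ p - 1 =
          -(((1 + z) ^ p - 1 - y) / (1 + z) ^ p) := by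
        rw [hydef, mul_pow]
        field_simp
        ring
      rw [Units.val_mul, Units.val_mk0, heq, norm_neg, norm_div, hzp, div_one]
      refine hpz.trans ?_
      calc ‖z‖ ^ 2 = ‖z‖ * ‖z‖ := sq _
        _ ≤ r * (P * r * θ ^ n / P) := by
          refine mul_le_mul hz ?_ (norm_nonneg _) hr0.le
          rw [hzdef, norm_div, ← hP]
          exact div_le_div_of_nonneg_right hy hP0.le
        _ = P * r * θ ^ (n + 1) := by rw [pow_succ, hθ]; field_simp
  -- the image is closed
  have hcl : IsClosed ((fun x : F => x ^ p) ''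
      ((fun u : Fˣ => (u : F)) '' (oneBall (F := F) r hr0.le hr : Set Fˣ))) :=
    ((isCompact_oneBall hr0.le hr).image (continuous_pow p)).isClosed
  have hmemcl : (c : F) ∈ closure ((fun x : F => x ^ p) ''
      ((fun u : Fˣ => (u : F)) '' (oneBall (F := F) r hr0.le hr : Set Fˣ))) := by
    rw [Metric.mem_closure_iff]
    intro ε hε
    obtain ⟨n, hn⟩ := ((tendsto_pow_atTop_nhds_zero_of_lt_one hθ0 hθ1).const_mul
      (P * r)).eventually (gt_mem_nhds (show P * r * 0 < ε by simpa using hε)) |>.exists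
    obtain ⟨x, hx, hy⟩ := happ n
    refine ⟨(x : F) ^ p, ⟨_, ⟨x, hx, rfl⟩, rfl⟩, ?_⟩
    have hxne : (x : F) ^ p ≠ 0 := pow_ne_zero _ x.ne_zero
    have hxn : ‖(x : F) ^ p‖ = 1 := by
      rw [norm_pow, norm_eq_one_of_norm_sub_one_lt (lt_of_le_of_lt hx hr), one_pow]
    rw [dist_eq_norm]
    have : (c : F) - (x : F) ^ p = ((c : F) / (x : F) ^ p - 1) * (x : F) ^ p := by field_simp
    rw [this, norm_mul, hxn, mul_one]
    exact lt_of_le_of_lt hy hn
  rw [hcl.closure_eq] at hmemcl
  obtain ⟨_, ⟨x, hx, rfl⟩, hxc⟩ := hmemcl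
  exact ⟨x, hx, Units.ext (by simpa using hxc)⟩

/-- Units of `F` modulo a small ball are finite. -/
lemma relIndex_oneBall_unitBall_ne_zero {r : ℝ} (hr0 : 0 < r) (hr : r < 1) :
    (oneBall (F := F) r hr0.le hr).relIndex unitBall ≠ 0 := by
  let O : AddSubgroup F := ball F 1 zero_le_one
  let R : AddSubgroup F := ball F r hr0.le
  have hOc : IsCompact (O : Set F) := by
    have : (O : Set F) = Metric.closedBall 0 1 := by ext x; simp [O, ball]
    rw [this]; exact isCompact_closedBall _ _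
  have hRo : IsOpen (R : Set F) := by
    have : (R : Set F) = Metric.closedBall 0 r := by ext x; simp [R, ball]
    rw [this]; exact (IsUltrametricDist.isClopen_closedBall _ hr0.ne').isOpen
  have hfin : Finite (O ⧸ R.addSubgroupOf O) := by
    have h := relIndex_ne_zero_of_isCompact F hOc hRo
    rw [AddSubgroup.relIndex] at h
    have : (R.addSubgroupOf O).FiniteIndex := ⟨h⟩
    exact AddSubgroup.finite_quotient_of_finiteIndex
  let g : (unitBall (F := F)) ⧸ (oneBall r hr0.le hr).subgroupOf unitBall → O ⧸ R.addSubgroupOf O :=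
    fun u => QuotientAddGroup.mk (⟨((u.out : Fˣ) : F), le_of_eq u.out.2⟩ : O)
  have hg : Function.Injective g := by
    intro u v huv
    rw [← QuotientGroup.out_eq' u, ← QuotientGroup.out_eq' v, QuotientGroup.eq,
      Subgroup.mem_subgroupOf, mem_oneBall]
    have h := QuotientAddGroup.eq.mp huv
    rw [AddSubgroup.mem_addSubgroupOf] at h
    have h' : ‖-((u.out : Fˣ) : F) + ((v.out : Fˣ) : F)‖ ≤ r := h
    have hu : ‖((u.out : Fˣ) : F)‖ = 1 := u.out.2
    have : ((((u.out)⁻¹ * v.out : unitBall (F := F)) : Fˣ) : F) - 1 =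
        ((u.out : Fˣ) : F)⁻¹ * (-((u.out : Fˣ) : F) + ((v.out : Fˣ) : F)) := by
      push_cast
      field_simp
      ring
    rw [this, norm_mul, norm_inv, hu, inv_one, one_mul]
    exact h'
  have := Finite.of_injective g hg
  rw [Subgroup.relIndex]
  exact Subgroup.index_ne_zero_of_finite

open scoped Classical in
/-- The exponent of the correction at the residue characteristic. -/
def powExp (p : ℕ) (F : IntermediateField ℚ_[q] (PadicAlgCl q)) : ℕ :=
  if p = q then Module.finrank ℚ_[q] F else 0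

/-- Bound for the index of the `p`-th powers. -/
theorem index_pow_le {p : ℕ} (hp : p.Prime) :
    ((powMonoidHom p : Fˣ →* Fˣ)).range.index ≠ 0 ∧
      ((powMonoidHom p : Fˣ →* Fˣ)).range.index ≤ p ^ 2 * p ^ powExp p F := by
  classical
  have : Fact p.Prime := ⟨hp⟩
  set π := ‖uniformizer F‖ with hπ
  have hπ0 : 0 < π := norm_uniformizer_pos F
  have hπ1 : π < 1 := norm_uniformizer_lt_one F
  set e := if p = q then ramIdx F else 0 with he
  have hPe : ‖(p : F)‖ = π ^ e := by
    rw [he]; split_ifs with h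
    · subst h; exact norm_q_eq F
    · rw [pow_zero, ← map_natCast (algebraMap ℚ_[q] F)]
      refine (norm_algebraMap' F (p : ℚ_[q])).trans (Padic.norm_natCast_eq_one_iff.mpr ?_)
      exact (Nat.coprime_primes (Fact.out : q.Prime) hp).mpr (Ne.symm h)
  set N := e + 1 with hN
  have hr0 : (0 : ℝ) < π ^ N := pow_pos hπ0 _
  have hr : π ^ N < 1 := pow_lt_one₀ hπ0.le hπ1 (Nat.succ_ne_zero _)
  have hrp : π ^ N < ‖(p : F)‖ := by
    rw [hPe]; exact pow_lt_pow_right_of_lt_one₀ hπ0 hπ1 (Nat.lt_succ_self e)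
  have hle : π ^ (N + e) ≤ π ^ N := pow_le_pow_of_le_one hπ0.le hπ1.le (Nat.le_add_right _ _)
  set B := oneBall (F := F) (π ^ N) hr0.le hr with hB
  set B' := oneBall (F := F) (π ^ (N + e)) (pow_nonneg hπ0.le _) (hle.trans_lt hr) with hB'
  set f : Fˣ →* Fˣ := powMonoidHom p with hf
  set U := unitBall (F := F) with hU
  -- `B.map f = B'`
  have hBmap : B.map f = B' := by
    apply le_antisymm
    · rintro _ ⟨x, hx, rfl⟩
      show ‖((x ^ p : Fˣ) : F) - 1‖ ≤ π ^ (N + e)
      have h := norm_one_add_pow_sub_le ((x : F) - 1) (le_trans hx hr.le) p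
      rw [add_sub_cancel] at h
      have : ((x ^ p : Fˣ) : F) - 1 =
          ((x : F) ^ p - 1 - (p : F) * ((x : F) - 1)) + (p : F) * ((x : F) - 1) := by
        push_cast; ring
      rw [this]
      refine (IsUltrametricDist.norm_add_le_max _ _).trans (max_le (h.trans ?_) ?_)
      · refine (pow_le_pow_left₀ (norm_nonneg _) hx 2).trans ?_
        rw [← pow_mul]
        exact pow_le_pow_of_le_one hπ0.le hπ1.le (by omega)
      · rw [norm_mul, hPe, pow_add, mul_comm (π ^ N)]
        exact mul_le_mul_of_nonneg_left hx (pow_nonneg hπ0.le _)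
    · intro c hc
      obtain ⟨x, hx, hxc⟩ := exists_pow_eq (p := p) hr0 hr hrp (c := c) (by
        rw [hPe, ← pow_add, add_comm]; exact hc)
      exact ⟨x, hx, hxc⟩
  have hrel : B'.relIndex B = p ^ powExp p F := by
    rw [hB', hB, relIndex_oneBall hr0.le hr (pow_nonneg hπ0.le _) hle
      (by rw [← pow_add]; exact pow_le_pow_of_le_one hπ0.le hπ1.le (by omega))]
    have h := AddSubgroup.relIndex_mul_relIndex (ball F (π ^ (N + e)) (pow_nonneg hπ0.le _))
      (ball F (π ^ N) hr0.le) (ball F 1 zero_le_one) (fun x hx => le_trans hx hle)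
      (fun x hx => le_trans hx hr.le)
    rw [relIndex_ball_pow, relIndex_ball_pow, pow_add (residueCard F) N e,
      mul_comm (residueCard F ^ N)] at h
    have hQ : residueCard F ≠ 0 := by
      rw [residueCard_eq]; exact pow_ne_zero _ (Fact.out : q.Prime).ne_zero
    rw [mul_right_cancel₀ (pow_ne_zero _ hQ) h, he, powExp]
    split_ifs with h
    · subst h; exact residueCard_pow_ramIdx F
    · rfl
  -- kernel
  have hkerfin : Finite f.ker ∧ Nat.card f.ker ≤ p := by
    have h : f.ker = rootsOfUnity p F := by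
      ext x; simp [hf, rootsOfUnity]
    rw [h]
    exact ⟨inferInstance, card_rootsOfUnity F p⟩
  -- the unit group
  have : Finite f.ker := hkerfin.1
  have hBU : B ≤ U := fun x hx => norm_eq_one_of_norm_sub_one_lt (lt_of_le_of_lt hx hr)
  have hfin1 : B.relIndex U ≠ 0 := relIndex_oneBall_unitBall_ne_zero hr0 hr
  have hB'B : B' ≤ B := fun x hx => le_trans hx hle
  have hB'fU : B' ≤ U.map f := hBmap ▸ Subgroup.map_mono hBU
  have hfUU : U.map f ≤ U := by
    rintro _ ⟨x, hx, rfl⟩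
    exact U.pow_mem hx p
  have key : (U.map f).relIndex U ≠ 0 ∧ (U.map f).relIndex U ≤ p * p ^ powExp p F := by
    have h2 : B'.relIndex (U.map f) * (U.map f).relIndex U = B'.relIndex B * B.relIndex U := by
      rw [Subgroup.relIndex_mul_relIndex _ _ _ hB'fU hfUU,
        Subgroup.relIndex_mul_relIndex _ _ _ hB'B hBU]
    have hBne : B'.relIndex B * B.relIndex U ≠ 0 := by
      rw [hrel]; exact mul_ne_zero (pow_ne_zero _ hp.ne_zero) hfin1
    have hne1 : (U.map f).relIndex U ≠ 0 := fun h => hBne (by rw [← h2, h, mul_zero])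
    have hne2 : B'.relIndex (U.map f) ≠ 0 := fun h => hBne (by rw [← h2, h, zero_mul])
    refine ⟨hne1, ?_⟩
    -- `[U : B] ≤ #ker * [f U : f B]`
    have h3 : B.relIndex U ≤ p * B'.relIndex (U.map f) := by
      have h4 : B.relIndex U = (B ⊔ f.ker ⊓ U).relIndex U * B.relIndex (B ⊔ f.ker ⊓ U) := by
        rw [mul_comm, Subgroup.relIndex_mul_relIndex _ _ _ le_sup_left (sup_le hBU inf_le_right)]
      have h5 : (B ⊔ f.ker ⊓ U).relIndex U ≤ B'.relIndex (U.map f) := by
        rw [← hBmap, Subgroup.relIndex_map_map]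
        have e1 : (B ⊔ f.ker).relIndex (U ⊔ f.ker) = (B ⊔ f.ker).relIndex U := by
          conv_rhs => rw [← Subgroup.relIndex_sup_right]
          congr 1
          apply le_antisymm
          · exact sup_le le_sup_left (le_sup_right.trans le_sup_right)
          · exact sup_le le_sup_left (sup_le (hBU.trans le_sup_left) le_sup_right)
        refine le_of_eq ?_
        rw [e1, ← Subgroup.inf_relIndex_right (B ⊔ f.ker) U]
        congr 1
        ext x
        simp only [Subgroup.mem_inf, Subgroup.mem_sup]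
        constructor
        · intro h
          obtain ⟨b, hb, k, hk, rfl⟩ := h
          exact ⟨⟨b, hb, k, hk.1, rfl⟩, U.mul_mem (hBU hb) hk.2⟩
        · intro h
          obtain ⟨⟨b, hb, k, hk, rfl⟩, hx⟩ := h
          refine ⟨b, hb, k, ⟨hk, ?_⟩, rfl⟩
          have h' := U.mul_mem (U.inv_mem (hBU hb)) hx
          rwa [inv_mul_cancel_left] at h'
      have h6 : B.relIndex (B ⊔ f.ker ⊓ U) ≤ p := by
        rw [sup_comm, Subgroup.relIndex_sup_right]
        have : Finite (f.ker ⊓ U : Subgroup Fˣ) :=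
          Finite.of_injective _ (Subgroup.inclusion_injective (inf_le_left : f.ker ⊓ U ≤ f.ker))
        refine le_trans (Nat.le_of_dvd Nat.card_pos (Subgroup.index_dvd_card _)) ?_
        exact le_trans (Nat.card_le_card_of_injective _
          (Subgroup.inclusion_injective (inf_le_left : f.ker ⊓ U ≤ f.ker))) hkerfin.2
      rw [h4, mul_comm p]
      exact Nat.mul_le_mul h5 h6
    have h7 : (U.map f).relIndex U * B'.relIndex (U.map f) ≤
        p * p ^ powExp p F * B'.relIndex (U.map f) := by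
      rw [mul_comm _ (B'.relIndex _), h2, hrel, mul_comm p (p ^ _), mul_assoc]
      exact Nat.mul_le_mul_left _ h3
    exact Nat.le_of_mul_le_mul_right h7 (Nat.pos_of_ne_zero hne2)
  -- all of `Fˣ`
  have hu0 : uniformizer F ≠ 0 := uniformizer_ne_zero F
  let ϖ : Fˣ := Units.mk0 _ hu0
  let T := (U : Subgroup Fˣ) ⧸ (U.map f).subgroupOf U
  have : ((U.map f).subgroupOf U).FiniteIndex := ⟨key.1⟩
  have : Finite T := Subgroup.finite_quotient_of_finiteIndex
  let Φ : T × Fin p → Fˣ ⧸ f.range := fun x =>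
    QuotientGroup.mk ((x.1.out : Fˣ) * ϖ ^ (x.2 : ℕ))
  have hΦ : Function.Surjective Φ := by
    intro x
    obtain ⟨x, rfl⟩ := QuotientGroup.mk_surjective x
    obtain ⟨i, hi⟩ := exists_norm_eq_zpow F x.ne_zero
    obtain ⟨a, b, hb, rfl⟩ : ∃ (a : ℤ) (b : ℕ), b < p ∧ i = (p : ℤ) * a + b := by
      have hp0 : (0 : ℤ) < p := Int.natCast_pos.mpr hp.pos
      refine ⟨i / p, (i % p).toNat, ?_, ?_⟩
      · have := Int.emod_lt_of_pos i hp0
        omega
      · rw [Int.toNat_of_nonneg (Int.emod_nonneg i hp0.ne'), Int.mul_ediv_add_emod]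
    have hu : x * (ϖ ^ ((p : ℤ) * a + b))⁻¹ ∈ U := by
      show ‖((x * (ϖ ^ ((p : ℤ) * a + b))⁻¹ : Fˣ) : F)‖ = 1
      rw [Units.val_mul, Units.val_inv_eq_inv_val, norm_mul, norm_inv, Units.val_zpow_eq_zpow_val,
        norm_zpow, hi]
      exact mul_inv_cancel₀ (zpow_ne_zero _ hπ0.ne')
    refine ⟨⟨QuotientGroup.mk ⟨_, hu⟩, ⟨b, hb⟩⟩, ?_⟩
    simp only [Φ]
    rw [QuotientGroup.eq]
    have hout : ((⟨_, hu⟩ : U))⁻¹ * (QuotientGroup.mk (⟨_, hu⟩ : U) : T).out ∈
        (U.map f).subgroupOf U := QuotientGroup.eq.mp (QuotientGroup.out_eq' _).symm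
    rw [Subgroup.mem_subgroupOf] at hout
    obtain ⟨w, -, hw⟩ := hout
    set o := ((QuotientGroup.mk (⟨_, hu⟩ : U) : T).out : Fˣ) with ho
    have ho' : o = x * (ϖ ^ ((p : ℤ) * a + b))⁻¹ * w ^ p := by
      have hw' : (x * (ϖ ^ ((p : ℤ) * a + b))⁻¹)⁻¹ * o = w ^ p := hw.symm
      rw [← hw', mul_inv_cancel_left]
    refine ⟨ϖ ^ a * w⁻¹, ?_⟩
    show (ϖ ^ a * w⁻¹) ^ p = _
    rw [ho', mul_pow, ← zpow_natCast (ϖ ^ a), ← zpow_mul, zpow_add, zpow_natCast, mul_inv_rev,
      mul_comm a]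
    simp only [mul_inv_rev, inv_inv, inv_pow]
    simp [mul_comm, mul_left_comm, mul_assoc]
  have hfinG : Finite (Fˣ ⧸ f.range) := Finite.of_surjective Φ hΦ
  refine ⟨Subgroup.index_ne_zero_of_finite, ?_⟩
  refine (Nat.card_le_card_of_surjective Φ hΦ).trans ?_
  rw [Nat.card_prod, Nat.card_fin]
  calc Nat.card T * p ≤ p * p ^ powExp p F * p := Nat.mul_le_mul_right p key.2
    _ = p ^ 2 * p ^ powExp p F := by ring

end Fermat.Agent.ClassField.Idele.Existence
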