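import Mathlib

/-!
# Lines and hyperplanes: an injective assignment is onto by counting
-/

set_option autoImplicit false

noncomputable section

namespace Fermat.Agent.ClassField.Idele.Existence

open Module

variable {p : ℕ} [Fact p.Prime] {A B : Type*} [AddCommGroup A] [Module (ZMod p) A]
  [AddCommGroup B] [Module (ZMod p) B]

lemma card_dual (B : Type*) [AddCommGroup B] [Module (ZMod p) B] [Finite B] :
    Nat.card (Dual (ZMod p) B) = Nat.card B := by
  have : Module.Finite (ZMod p) B := Module.Finite.of_finite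
  rw [Nat.card_congr ((Module.finBasis (ZMod p) B).toDualEquiv).toEquiv]

/-- Two linear forms with the same kernel are proportional. -/
lemma eq_smul_of_ker_eq {ψ φ : Dual (ZMod p) B} (hψ : ψ ≠ 0)
    (h : LinearMap.ker ψ = LinearMap.ker φ) : ∃ c : ZMod p, φ = c • ψ := by
  obtain ⟨x, hx⟩ : ∃ x, ψ x ≠ 0 := by
    by_contra! hcon
    exact hψ (LinearMap.ext hcon)
  refine ⟨φ x * (ψ x)⁻¹, LinearMap.ext fun y => ?_⟩
  have hy : y - (ψ y * (ψ x)⁻¹) • x ∈ LinearMap.ker φ := by
    rw [← h, LinearMap.mem_ker, map_sub, map_smul, smul_eq_mul, mul_assoc, inv_mul_cancel₀ hx,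
      mul_one, sub_self]
  rw [LinearMap.mem_ker, map_sub, map_smul, sub_eq_zero, smul_eq_mul] at hy
  rw [hy, LinearMap.smul_apply, smul_eq_mul]
  ring

/-- If `#B ≤ #A` and `a ↦ N a` (for `a ≠ 0`) gives hyperplanes of `B`, depending on the line of `a`
and determining it, then every hyperplane is of that form. -/
theorem exists_eq_of_injective_on_lines [Finite A] [Finite B] (hcard : Nat.card B ≤ Nat.card A)
    (N : A → Submodule (ZMod p) B)
    (hN : ∀ a, a ≠ 0 → ∃ ψ : Dual (ZMod p) B, ψ ≠ 0 ∧ LinearMap.ker ψ = N a)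
    (hinj : ∀ a a', a ≠ 0 → a' ≠ 0 → N a = N a' → ∃ c : ZMod p, a' = c • a)
    (ψ : Dual (ZMod p) B) (hψ : ψ ≠ 0) :
    ∃ a, a ≠ 0 ∧ N a = LinearMap.ker ψ := by
  classical
  by_contra! hcon
  -- an injection of `A` in the dual of `B` missing `ψ`
  choose f hf0 hfker using hN
  -- a chosen representative of each kernel
  let rep : Submodule (ZMod p) B → A := fun W =>
    if h : ∃ a, a ≠ 0 ∧ N a = W then h.choose else 0
  have hrep : ∀ a, a ≠ 0 → rep (N a) ≠ 0 ∧ N (rep (N a)) = N a := fun a ha => by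
    have h : ∃ b, b ≠ 0 ∧ N b = N a := ⟨a, ha, rfl⟩
    simp only [rep, dif_pos h]
    exact h.choose_spec
  have hco : ∀ a, a ≠ 0 → ∃ c : ZMod p, a = c • rep (N a) := fun a ha =>
    hinj _ a (hrep a ha).1 ha (hrep a ha).2
  choose c hc using hco
  let Φ : A → Dual (ZMod p) B := fun a =>
    if ha : a = 0 then 0 else c a ha • f (rep (N a)) (hrep a ha).1
  have hΦ0 : ∀ a (ha : a ≠ 0), Φ a ≠ 0 ∧ LinearMap.ker (Φ a) = N a := by
    intro a ha
    have hc0 : c a ha ≠ 0 := fun h => ha (by rw [hc a ha, h, zero_smul])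
    simp only [Φ, dif_neg ha]
    refine ⟨smul_ne_zero hc0 (hf0 _ _), ?_⟩
    rw [LinearMap.ker_smul _ _ hc0, hfker, (hrep a ha).2]
  have hinjΦ : Function.Injective Φ := by
    intro a a' h
    by_cases ha : a = 0
    · by_cases ha' : a' = 0
      · rw [ha, ha']
      · exact absurd (by rw [← h]; simp [Φ, ha]) (hΦ0 a' ha').1
    · by_cases ha' : a' = 0
      · exact absurd (by rw [h]; simp [Φ, ha']) (hΦ0 a ha).1
      · have hNN : N a = N a' := by rw [← (hΦ0 a ha).2, ← (hΦ0 a' ha').2, h]
        simp only [Φ, dif_neg ha, dif_neg ha'] at h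
        have hr : rep (N a) = rep (N a') := by rw [hNN]
        have hff : f (rep (N a)) (hrep a ha).1 = f (rep (N a')) (hrep a' ha').1 := by
          congr 1
        rw [← hff] at h
        have hcc := smul_left_injective (ZMod p) (hf0 _ (hrep a ha).1) h
        rw [hc a ha, hc a' ha', hcc, hr]
  have hnot : ψ ∉ Set.range Φ := by
    rintro ⟨a, rfl⟩
    by_cases ha : a = 0
    · exact hψ (by simp [Φ, ha])
    · exact hcon a ha (hΦ0 a ha).2.symm
  have : Finite (Dual (ZMod p) B) := Module.finite_of_finite (ZMod p)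
  have h1 : Nat.card A < Nat.card (Dual (ZMod p) B) := by
    rw [← Nat.card_range_of_injective hinjΦ, Nat.card_coe_set_eq]
    exact lt_of_lt_of_eq (Set.ncard_lt_ncard ⟨Set.subset_univ _, fun h => hnot (h (Set.mem_univ ψ))⟩)
      (Set.ncard_univ _)
  rw [card_dual] at h1
  omega

/-- A lower bound for `#(M / p M)`. -/
theorem pow_succ_le_card_quotient {M : Type*} [AddCommGroup M] [Module.Finite ℤ M] {r : ℕ}
    (hr : r ≤ finrank ℤ M) {x : M} (hx0 : x ≠ 0) (hx : (p : ℤ) • x = 0) :
    p ^ (r + 1) ≤ Nat.card (M ⧸ LinearMap.range (LinearMap.lsmul ℤ M (p : ℤ))) := by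
  classical
  set R := LinearMap.range (LinearMap.lsmul ℤ M (p : ℤ)) with hR
  set t := Submodule.torsion ℤ M with ht
  have hp : (p : ℤ) ≠ 0 := Int.natCast_ne_zero.mpr (Fact.out : p.Prime).ne_zero
  have hmemt : ∀ m : M, (p : ℤ) • m ∈ t → m ∈ t := by
    intro m hm
    obtain ⟨⟨a, ha⟩, ha'⟩ := (Submodule.mem_torsion_iff _).mp hm
    refine (Submodule.mem_torsion_iff _).mpr ⟨⟨a * (p : ℤ), mem_nonZeroDivisors_of_ne_zero
      (mul_ne_zero (nonZeroDivisors.ne_zero ha) hp)⟩, ?_⟩
    show (a * (p : ℤ)) • m = 0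
    rw [mul_smul]
    exact ha'
  -- the torsion part
  have htfin : Finite t := by
    have := Module.Finite.iff_fg.mpr (IsNoetherian.noetherian t)
    exact Module.finite_of_fg_torsion t (Submodule.torsion_isTorsion)
  set Rt := LinearMap.range (LinearMap.lsmul ℤ t (p : ℤ)) with hRt
  have hxt : x ∈ t := hmemt x (by rw [hx]; exact zero_mem _)
  have htcard : p ≤ Nat.card (t ⧸ Rt) := by
    have hdvd : p ∣ Nat.card (t ⧸ Rt) := by
      set K := LinearMap.ker (LinearMap.lsmul ℤ t (p : ℤ))
      have h1 := Submodule.card_eq_card_quotient_mul_card Rt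
      have h2 := Submodule.card_eq_card_quotient_mul_card K
      have h3 : Nat.card Rt = Nat.card (t ⧸ K) :=
        (Nat.card_congr (LinearMap.quotKerEquivRange _).toEquiv).symm
      have hpos : 0 < Nat.card Rt := Nat.card_pos
      have h4 : Nat.card (t ⧸ Rt) = Nat.card K := by
        rw [h3] at h1 hpos
        rw [h2, mul_comm] at h1
        exact (mul_left_cancel₀ hpos.ne' h1).symm
      rw [h4]
      have hxK : (⟨x, hxt⟩ : t) ∈ K := LinearMap.mem_ker.mpr (Subtype.ext hx)
      have hord : addOrderOf (⟨⟨x, hxt⟩, hxK⟩ : K) = p := by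
        refine addOrderOf_eq_prime ?_ fun h => hx0 (congrArg (fun z : K => ((z : t) : M)) h)
        refine Subtype.ext (Subtype.ext ?_)
        simpa [natCast_zsmul] using hx
      exact hord ▸ addOrderOf_dvd_natCard _
    have : Finite (t ⧸ Rt) := Quotient.finite _
    exact Nat.le_of_dvd Nat.card_pos hdvd
  -- the free part
  have : Module.IsTorsionFree ℤ (M ⧸ t) := Submodule.QuotientTorsion.instIsTorsionFree
  have : Module.Free ℤ (M ⧸ t) := Module.free_of_finite_type_torsion_free'
  let b := Module.finBasis ℤ (M ⧸ t)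
  set r' := finrank ℤ (M ⧸ t) with hr'
  have hrank : r ≤ r' := by
    have h := Submodule.finrank_quotient_add_finrank t
    have ht0 : finrank ℤ t = 0 := by
      rw [finrank_eq_zero_iff]
      intro y
      obtain ⟨⟨a, ha⟩, ha'⟩ := (Submodule.mem_torsion_iff _).mp y.2
      exact ⟨a, nonZeroDivisors.ne_zero ha, Subtype.ext ha'⟩
    omega
  -- surjection `M / pM → (Z/p)^r'`
  let g : M →ₗ[ℤ] (Fin r' → ZMod p) :=
    { toFun := fun m i => ((b.repr (Submodule.Quotient.mk m) i : ℤ) : ZMod p)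
      map_add' := fun m m' => by funext i; simp
      map_smul' := fun a m => by funext i; simp }
  have hg : Function.Surjective g := by
    intro v
    choose a ha using fun i => ZMod.intCast_surjective (v i)
    obtain ⟨m, hm⟩ := Submodule.Quotient.mk_surjective t (b.equivFun.symm a)
    refine ⟨m, funext fun i => ?_⟩
    show ((b.repr (Submodule.Quotient.mk m) i : ℤ) : ZMod p) = v i
    rw [hm, ← Basis.equivFun_apply, LinearEquiv.apply_symm_apply, ha]
  have hgR : R ≤ LinearMap.ker g := by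
    rintro _ ⟨m, rfl⟩
    rw [LinearMap.mem_ker]
    funext i
    simp [g]
  let gq := R.liftQ g hgR
  have hgq : Function.Surjective gq := fun v => by
    obtain ⟨m, hm⟩ := hg v; exact ⟨Submodule.Quotient.mk m, hm⟩
  let ι' : (t ⧸ Rt) →ₗ[ℤ] (M ⧸ R) := Submodule.mapQ Rt R t.subtype (by
    rintro _ ⟨y, rfl⟩
    exact ⟨(y : M), rfl⟩)
  have hι' : Function.Injective ι' := by
    rw [← LinearMap.ker_eq_bot, eq_bot_iff]
    intro y hy
    obtain ⟨y, rfl⟩ := Submodule.Quotient.mk_surjective _ y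
    rw [LinearMap.mem_ker, Submodule.mapQ_apply, Submodule.Quotient.mk_eq_zero] at hy
    obtain ⟨m, hm⟩ := hy
    rw [Submodule.mem_bot, Submodule.Quotient.mk_eq_zero]
    exact ⟨⟨m, hmemt m (by
      have : (p : ℤ) • m = (y : M) := hm
      rw [this]; exact y.2)⟩, Subtype.ext hm⟩
  have hker : ∀ y, gq (ι' y) = 0 := by
    intro y
    obtain ⟨y, rfl⟩ := Submodule.Quotient.mk_surjective _ y
    funext i
    show ((b.repr (Submodule.Quotient.mk (y : M)) i : ℤ) : ZMod p) = 0
    rw [(Submodule.Quotient.mk_eq_zero t).mpr y.2]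
    simp
  have hfinq : Finite (M ⧸ R) := by
    refine Module.finite_of_fg_torsion _ ?_
    intro z
    obtain ⟨m, rfl⟩ := Submodule.Quotient.mk_surjective _ z
    exact ⟨⟨(p : ℤ), mem_nonZeroDivisors_of_ne_zero hp⟩,
      (Submodule.Quotient.mk_eq_zero R).mpr ⟨m, rfl⟩⟩
  calc p ^ (r + 1) ≤ p ^ (r' + 1) :=
        Nat.pow_le_pow_right (Fact.out : p.Prime).pos (by omega)
    _ = p * p ^ r' := by ring
    _ ≤ Nat.card (LinearMap.ker gq) * p ^ r' := by
        refine Nat.mul_le_mul_right _ (htcard.trans ?_)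
        exact Nat.card_le_card_of_injective (fun y => (⟨ι' y, hker y⟩ : LinearMap.ker gq))
          (fun y y' h => hι' (congrArg Subtype.val h))
    _ = Nat.card (M ⧸ R) := by
        rw [Submodule.card_eq_card_quotient_mul_card (LinearMap.ker gq),
          Nat.card_congr (gq.quotKerEquivOfSurjective hgq).toEquiv]
        simp

end Fermat.Agent.ClassField.Idele.Existence
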