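import Fermat.Agent.ClassField.Idele.CosetProd
import Fermat.Agent.ClassField.S55.Bridge.Units

/-!
# Kummer extensions of degree `p` by units away from a set of primes
-/

set_option autoImplicit false

noncomputable section

open IntermediateField

namespace Fermat.Agent.ClassField.Idele.Existence

local notation "Qb" => AlgebraicClosure ℚ
local notation "Γ" => (AlgebraicClosure ℚ ≃ₐ[ℚ] AlgebraicClosure ℚ)

/-- Units of `K` away from `S`. -/
def sUnits (S : Set Nat.Primes) (K : IntermediateField ℚ Qb) : Subgroup Qbˣ where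
  carrier := {x | (x : Qb) ∈ K ∧ ∀ ℓ ∉ S, ∀ ι : Emb ℓ, ‖ι (x : Qb)‖ = 1}
  one_mem' := ⟨by simp, fun ℓ _ ι => by simp⟩
  mul_mem' := fun {x y} hx hy => ⟨by simpa using mul_mem hx.1 hy.1,
    fun ℓ h ι => by simp [hx.2 ℓ h ι, hy.2 ℓ h ι]⟩
  inv_mem' := fun {x} hx => ⟨by simpa using inv_mem hx.1,
    fun ℓ h ι => by simp [hx.2 ℓ h ι]⟩

/-- `α` is the `p`-th power of an element of `K`. -/
def IsPow (p : ℕ) (K : IntermediateField ℚ Qb) (α : Qb) : Prop := ∃ γ ∈ K, γ ^ p = α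

variable {p : ℕ} [hp : Fact p.Prime] {K : IntermediateField ℚ Qb}
  {ζ : Qb} (hζ : IsPrimitiveRoot ζ p) (hζK : ζ ∈ K)

/-- A chosen `p`-th root. -/
def root (p : ℕ) [Fact p.Prime] (α : Qb) : Qb :=
  (IsAlgClosed.exists_pow_nat_eq α (Fact.out : p.Prime).pos).choose

lemma root_pow (α : Qb) : root p α ^ p = α :=
  (IsAlgClosed.exists_pow_nat_eq α (Fact.out : p.Prime).pos).choose_spec

lemma root_ne_zero {α : Qb} (hα : α ≠ 0) : root p α ≠ 0 := fun h =>
  hα (by rw [← root_pow (p := p) α, h, zero_pow hp.out.ne_zero])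

/-- The Kummer extension. -/
def kummerField (p : ℕ) [Fact p.Prime] (K : IntermediateField ℚ Qb) (α : Qb) :
    IntermediateField ℚ Qb :=
  K ⊔ ℚ⟮root p α⟯

lemma le_kummerField (α : Qb) : K ≤ kummerField p K α := le_sup_left

lemma root_mem_kummerField (α : Qb) : root p α ∈ kummerField p K α :=
  (le_sup_right : ℚ⟮root p α⟯ ≤ kummerField p K α) (mem_adjoin_simple_self ℚ _)

instance finiteDimensional_kummerField [FiniteDimensional ℚ K] (α : Qb) :
    FiniteDimensional ℚ (kummerField p K α) := by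
  have : FiniteDimensional ℚ ℚ⟮root p α⟯ :=
    adjoin.finiteDimensional (Algebra.IsIntegral.isIntegral _)
  exact IntermediateField.finiteDimensional_sup K ℚ⟮root p α⟯

lemma mem_fixingSubgroup_kummerField {α : Qb} {σ : Γ} :
    σ ∈ (kummerField p K α).fixingSubgroup ↔
      σ ∈ K.fixingSubgroup ∧ σ (root p α) = root p α := by
  constructor
  · intro h
    exact ⟨fixingSubgroup_antitone (le_kummerField α) h,
      (IntermediateField.mem_fixingSubgroup_iff _ _).mp h _ (root_mem_kummerField α)⟩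
  · rintro ⟨h1, h2⟩
    rw [IntermediateField.mem_fixingSubgroup_iff]
    have hle : kummerField p K α ≤ fixedField (Subgroup.zpowers σ) := by
      refine sup_le (fun x hx => (mem_fixedField_iff _ _).mpr fun g hg => ?_)
        (adjoin_simple_le_iff.mpr ((mem_fixedField_iff _ _).mpr fun g hg => ?_))
      · exact (Subgroup.zpowers_le.mpr (show σ ∈ MulAction.stabilizer Γ x from
          (IntermediateField.mem_fixingSubgroup_iff _ _).mp h1 _ hx)) hg
      · exact (Subgroup.zpowers_le.mpr (show σ ∈ MulAction.stabilizer Γ (root p α) from h2)) hg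
    exact fun x hx => (mem_fixedField_iff _ _).mp (hle hx) σ (Subgroup.mem_zpowers σ)

include hζ hζK

lemma apply_zeta {σ : Γ} (hσ : σ ∈ K.fixingSubgroup) : σ ζ = ζ :=
  (IntermediateField.mem_fixingSubgroup_iff _ _).mp hσ _ hζK

lemma exists_apply_root {α : Qb} (hαK : α ∈ K) (hα : α ≠ 0) {σ : Γ} (hσ : σ ∈ K.fixingSubgroup) :
    ∃ i < p, σ (root p α) = ζ ^ i * root p α := by
  have h : (σ (root p α) / root p α) ^ p = 1 := by
    rw [div_pow, ← map_pow, root_pow, (IntermediateField.mem_fixingSubgroup_iff _ _).mp hσ _ hαK,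
      div_self hα]
  obtain ⟨i, hi, hi'⟩ := hζ.eq_pow_of_pow_eq_one h
  exact ⟨i, hi, by rw [hi', div_mul_cancel₀ _ (root_ne_zero hα)]⟩

/-- The character `σ ↦ σ(β)/β` on the fixing subgroup of `K`. -/
lemma exists_kummerChar {α : Qb} (hαK : α ∈ K) (hα : α ≠ 0) :
    ∃ χ : K.fixingSubgroup →* Multiplicative (ZMod p), ∀ σ : K.fixingSubgroup,
      (σ : Γ) (root p α) = ζ ^ (Multiplicative.toAdd (χ σ)).val * root p α := by
  have : NeZero p := ⟨hp.out.ne_zero⟩
  choose i hi hiσ using fun σ : K.fixingSubgroup => exists_apply_root hζ hζK hαK hα σ.2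
  have huniq : ∀ m n : ℕ, ζ ^ m * root p α = ζ ^ n * root p α → (m : ZMod p) = n := by
    intro m n h
    have hζ0 : ζ ≠ 0 := hζ.ne_zero hp.out.ne_zero
    have h1 : ζ ^ m = ζ ^ n := mul_right_cancel₀ (root_ne_zero hα) h
    rw [ZMod.natCast_eq_natCast_iff']
    have hred : ∀ k : ℕ, ζ ^ (k % p) = ζ ^ k := fun k => by
      conv_rhs => rw [← Nat.mod_add_div k p, pow_add, pow_mul, hζ.pow_eq_one, one_pow, mul_one]
    exact hζ.pow_inj (Nat.mod_lt _ hp.out.pos) (Nat.mod_lt _ hp.out.pos)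
      (by rw [hred, hred, h1])
  refine ⟨MonoidHom.mk' (fun σ => Multiplicative.ofAdd (i σ : ZMod p)) fun σ τ => ?_, fun σ => ?_⟩
  · rw [← ofAdd_add]
    congr 1
    rw [← Nat.cast_add]
    refine huniq _ _ ?_
    rw [← hiσ (σ * τ), Subgroup.coe_mul, AlgEquiv.mul_apply, hiσ τ, map_mul, map_pow,
      apply_zeta hζ hζK σ.2, hiσ σ, pow_add]
    ring
  · rw [hiσ σ]
    show ζ ^ i σ * root p α = ζ ^ ((i σ : ℕ) : ZMod p).val * root p α
    rw [ZMod.val_natCast, Nat.mod_eq_of_lt (hi σ)]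

lemma eq_zero_iff_mem {α : Qb} (hαK : α ∈ K) (hα : α ≠ 0)
    {χ : K.fixingSubgroup →* Multiplicative (ZMod p)}
    (hχ : ∀ σ : K.fixingSubgroup,
      (σ : Γ) (root p α) = ζ ^ (Multiplicative.toAdd (χ σ)).val * root p α) :
    χ.ker = (kummerField p K α).fixingSubgroup.subgroupOf K.fixingSubgroup := by
  have : NeZero p := ⟨hp.out.ne_zero⟩
  ext σ
  rw [MonoidHom.mem_ker, Subgroup.mem_subgroupOf, mem_fixingSubgroup_kummerField]
  constructor
  · intro h
    refine ⟨σ.2, ?_⟩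
    rw [hχ σ, h, toAdd_one, ZMod.val_zero, pow_zero, one_mul]
  · rintro ⟨-, h⟩
    have h1 : ζ ^ (Multiplicative.toAdd (χ σ)).val = 1 := by
      refine mul_right_cancel₀ (root_ne_zero (p := p) hα) ?_
      rw [← hχ σ, one_mul]; exact h
    have h2 : (Multiplicative.toAdd (χ σ)).val = 0 :=
      Nat.eq_zero_of_dvd_of_lt ((hζ.pow_eq_one_iff_dvd _).mp h1) (ZMod.val_lt _)
    rw [ZMod.val_eq_zero] at h2
    exact h2

omit hζ hζK in
lemma root_notMem {α : Qb} (hnp : ¬ IsPow p K α) : root p α ∉ K := fun h =>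
  hnp ⟨_, h, root_pow α⟩

lemma kummerChar_surjective {α : Qb} (hαK : α ∈ K) (hα : α ≠ 0) (hnp : ¬ IsPow p K α)
    {χ : K.fixingSubgroup →* Multiplicative (ZMod p)}
    (hχ : ∀ σ : K.fixingSubgroup,
      (σ : Γ) (root p α) = ζ ^ (Multiplicative.toAdd (χ σ)).val * root p α) :
    Function.Surjective χ := by
  rw [← MonoidHom.range_eq_top]
  have hcard : Nat.card (Multiplicative (ZMod p)) = p := by simp
  have : Fact (Nat.card (Multiplicative (ZMod p))).Prime := ⟨by rw [hcard]; exact hp.out⟩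
  refine (Subgroup.eq_bot_or_eq_top_of_prime_card χ.range).resolve_left fun h => root_notMem hnp ?_
  refine mem_of_forall_fixingSubgroup K fun σ hσ => ?_
  have h1 : χ ⟨σ, hσ⟩ = 1 := by
    have : χ ⟨σ, hσ⟩ ∈ χ.range := ⟨_, rfl⟩
    rw [h] at this
    exact this
  have h2 := hχ ⟨σ, hσ⟩
  rw [h1, toAdd_one, ZMod.val_zero, pow_zero, one_mul] at h2
  exact h2

/-- Non-powers give cyclic extensions of degree `p`. -/
theorem isPrimeCyclic_kummerField [FiniteDimensional ℚ K] {α : Qb} (hαK : α ∈ K) (hα : α ≠ 0)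
    (hnp : ¬ IsPow p K α) : IsPrimeCyclic p K (kummerField p K α) := by
  obtain ⟨χ, hχ⟩ := exists_kummerChar hζ hζK hαK hα
  have hker := eq_zero_iff_mem hζ hζK hαK hα hχ
  refine ⟨inferInstance, le_kummerField α, ?_, ?_⟩
  · rw [← hker, Subgroup.index_ker,
      MonoidHom.range_eq_top.mpr (kummerChar_surjective hζ hζK hαK hα hnp hχ), Subgroup.card_top]
    simp
  · rw [← hker]; exact MonoidHom.normal_ker χ

/-- Equal Kummer extensions come from the same line. -/
theorem exists_eq_pow_mul {α α' : Qb} (hαK : α ∈ K) (hα : α ≠ 0) (hα'K : α' ∈ K) (hα' : α' ≠ 0)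
    (hnp : ¬ IsPow p K α) (h : kummerField p K α = kummerField p K α') :
    ∃ j : ℕ, ∃ γ ∈ K, γ ≠ 0 ∧ α' = α ^ j * γ ^ p := by
  obtain ⟨χ, hχ⟩ := exists_kummerChar hζ hζK hαK hα
  obtain ⟨χ', hχ'⟩ := exists_kummerChar hζ hζK hα'K hα'
  obtain ⟨σ₀, hσ₀⟩ := kummerChar_surjective hζ hζK hαK hα hnp hχ (Multiplicative.ofAdd 1)
  set j := (Multiplicative.toAdd (χ' σ₀)).val with hj
  have : NeZero p := ⟨hp.out.ne_zero⟩
  have hone : (Multiplicative.toAdd (χ σ₀)).val = 1 := by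
    rw [hσ₀]; exact ZMod.val_one p
  set γ := root p α' / root p α ^ j with hγdef
  have hγ0 : γ ≠ 0 := div_ne_zero (root_ne_zero hα') (pow_ne_zero _ (root_ne_zero hα))
  have hγK : γ ∈ K := by
    refine mem_of_forall_fixingSubgroup K fun σ hσ => ?_
    obtain ⟨n, hn⟩ : ∃ n : ℕ, χ ⟨σ, hσ⟩ = χ (σ₀ ^ n) := by
      refine ⟨(Multiplicative.toAdd (χ ⟨σ, hσ⟩)).val, ?_⟩
      rw [map_pow, hσ₀]
      apply Multiplicative.toAdd.injective
      rw [toAdd_pow, toAdd_ofAdd, nsmul_eq_mul, mul_one, ZMod.natCast_zmod_val]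
    have hmem : (⟨σ, hσ⟩ : K.fixingSubgroup) * (σ₀ ^ n)⁻¹ ∈ χ'.ker := by
      rw [eq_zero_iff_mem hζ hζK hα'K hα' hχ', ← h, ← eq_zero_iff_mem hζ hζK hαK hα hχ,
        MonoidHom.mem_ker, map_mul, map_inv, hn, mul_inv_cancel]
    rw [MonoidHom.mem_ker, map_mul, map_inv, mul_inv_eq_one] at hmem
    have e1 : ((σ₀ : K.fixingSubgroup) : Γ) γ = γ := by
      rw [hγdef, map_div₀, map_pow, hχ' σ₀, hχ σ₀, hone, ← hj, pow_one, mul_pow]
      have hζ0 : ζ ^ j ≠ 0 := pow_ne_zero _ (hζ.ne_zero hp.out.ne_zero)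
      field_simp
    have e2 : ∀ m : ℕ, ((σ₀ ^ m : K.fixingSubgroup) : Γ) γ = γ := fun m => by
      induction m with
      | zero => rfl
      | succ m ih => rw [pow_succ, Subgroup.coe_mul, AlgEquiv.mul_apply, e1, ih]
    refine Eq.trans ?_ (e2 n)
    have key : ∀ τ : K.fixingSubgroup, (τ : Γ) γ =
        (ζ ^ (Multiplicative.toAdd (χ' τ)).val * root p α') /
          (ζ ^ (Multiplicative.toAdd (χ τ)).val * root p α) ^ j := fun τ => by
      rw [hγdef, map_div₀, map_pow, hχ' τ, hχ τ]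
    show ((⟨σ, hσ⟩ : K.fixingSubgroup) : Γ) γ = _
    rw [key, key, hn, hmem]
  refine ⟨j, γ, hγK, hγ0, ?_⟩
  rw [hγdef, div_pow, ← pow_mul, mul_comm j p, pow_mul, root_pow, root_pow,
    mul_div_cancel₀ _ (pow_ne_zero _ hα)]

omit hζ hζK in
/-- Kummer extensions by units away from a set containing `p` are unramified outside it. -/
theorem isUnramifiedOutside_kummerField {S : Finset Nat.Primes}
    (hpS : (⟨p, hp.out⟩ : Nat.Primes) ∈ S) (hK : K.IsUnramifiedOutside S) {α : Qb} (hα0 : α ≠ 0)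
    (hαK : α ∈ K) (hunit : ∀ ℓ ∉ S, ∀ ι : Emb ℓ, ‖ι α‖ = 1) :
    (kummerField p K α).IsUnramifiedOutside S := by
  refine S55.isUnramifiedOutside_adjoin hK hp.out.ne_zero (fun q hq => ?_) (root_ne_zero hα0)
    (by rw [root_pow]; exact hαK) (fun q hq ι => by rw [root_pow]; exact hunit q hq ι)
  have : q = ⟨p, hp.out⟩ := Subtype.ext ((Nat.prime_dvd_prime_iff_eq q.2 hp.out).mp hq)
  rwa [this]

end Fermat.Agent.ClassField.Idele.Existence
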