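import Fermat.Agent.ClassField.Idele.Existence.PlaceProd
import Fermat.Agent.ClassField.Idele.Existence.Kummer
import Fermat.Agent.ClassField.Idele.Existence.Count

/-!
# The `p`-rank of the `S`-units
-/

set_option autoImplicit false

noncomputable section

open IntermediateField IsDedekindDomain
open scoped NumberField

namespace Fermat.Agent.ClassField.Idele.Existence

local notation "Qb" => AlgebraicClosure ℚ

variable {K : IntermediateField ℚ Qb} [FiniteDimensional ℚ K] {S : Finset Nat.Primes}

/-- The element of `K` underlying an `S`-unit. -/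
def toField (u : sUnits (S : Set Nat.Primes) K) : K := ⟨((u : Qbˣ) : Qb), u.2.1⟩

lemma toField_ne_zero (u : sUnits (S : Set Nat.Primes) K) : toField u ≠ 0 := fun h =>
  Units.ne_zero (u : Qbˣ) (congrArg Subtype.val h)

lemma toField_mul (u w : sUnits (S : Set Nat.Primes) K) :
    toField (u * w) = toField u * toField w := Subtype.ext rfl

variable (K S) in
/-- The orders of an `S`-unit at the places over `S`. -/
def ordHom : Additive (sUnits (S : Set Nat.Primes) K) →ₗ[ℤ] (Place S K → ℤ) :=
  (AddMonoidHom.mk' (fun u v => ordK v.1 (toField u.toMul)) fun u w => funext fun v => by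
    rw [toMul_add, toField_mul, ordK_mul v.1 (toField_ne_zero _) (toField_ne_zero _),
      Pi.add_apply]).toIntLinearMap

lemma ordHom_apply (u : Additive (sUnits (S : Set Nat.Primes) K)) (v : Place S K) :
    ordHom K S u v = ordK v.1 (toField u.toMul) := rfl

lemma ordK_eq_zero_of_notMem (u : sUnits (S : Set Nat.Primes) K) {v : HeightOneSpectrum (𝓞 K)}
    (hv : v ∉ placesOver S K) {ℓ : Nat.Primes} (hℓ : ((ℓ : ℕ) : 𝓞 K) ∈ v.asIdeal) :
    ordK v (toField u) = 0 := by
  obtain ⟨ι, rfl⟩ := exists_placeAt_eq K v hℓ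
  have hS : ℓ ∉ (S : Set Nat.Primes) := fun h => hv (placeAt_mem_placesOver h ι)
  have h1 := norm_emb_eq_zpow ι (toField_ne_zero u)
  rw [show ‖ι ((toField u : K) : Qb)‖ = 1 from u.2.2 ℓ hS ι] at h1
  exact zpow_right_injective₀ (norm_unifK_pos ι) (norm_unifK_lt_one ι).ne
    (h1.symm.trans (zpow_zero _).symm)

lemma valuation_eq_one_of_ordK {v : HeightOneSpectrum (𝓞 K)} {x : K} (hx : x ≠ 0)
    (h : ordK v x = 0) : v.valuation K x = 1 := by
  rw [ordK, neg_eq_zero] at h
  exact (WithZero.exp_log ((Valuation.ne_zero_iff (v.valuation K)).mpr hx)).symm.trans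
    (by rw [h, WithZero.exp_zero])

lemma exists_prime_mem' (v : HeightOneSpectrum (𝓞 K)) :
    ∃ ℓ : Nat.Primes, ((ℓ : ℕ) : 𝓞 K) ∈ v.asIdeal := by
  suffices h : ∀ n : ℕ, n ≠ 0 → (n : 𝓞 K) ∈ v.asIdeal →
      ∃ ℓ : Nat.Primes, ((ℓ : ℕ) : 𝓞 K) ∈ v.asIdeal from
    h _ (fun h0 => v.ne_bot (Ideal.absNorm_eq_zero_iff.mp h0)) (Ideal.absNorm_mem _)
  intro n
  induction n using induction_on_primes with
  | zero => exact fun h => absurd rfl h
  | one =>
    exact fun _ h => absurd ((Ideal.eq_top_iff_one _).mpr (by rwa [Nat.cast_one] at h))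
      v.isPrime.ne_top
  | prime_mul q a hq ih =>
    intro hne h
    rw [Nat.cast_mul] at h
    rcases v.isPrime.mem_or_mem h with h | h
    · exact ⟨⟨q, hq⟩, h⟩
    · exact ih (fun h0 => hne (by rw [h0, mul_zero])) h

variable (K S) in
/-- The units of the integers inside the `S`-units. -/
def unitIncl : Additive (𝓞 K)ˣ →ₗ[ℤ] Additive (sUnits (S : Set Nat.Primes) K) :=
  ((MonoidHom.mk' (fun u : (𝓞 K)ˣ =>
    (⟨Units.map (K.val.toMonoidHom.comp (algebraMap (𝓞 K) K).toMonoidHom) u,
      ((u : 𝓞 K) : K).2, fun ℓ _ ι => le_antisymm (norm_embInt_le_one ι K u) (by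
        have h : embInt ι K u * embInt ι K (u⁻¹ : (𝓞 K)ˣ) = 1 := by
          rw [← map_mul, Units.mul_inv, map_one]
        have h1 := congrArg norm h
        rw [norm_mul, norm_one] at h1
        exact h1 ▸ mul_le_of_le_one_right (norm_nonneg _) (norm_embInt_le_one ι K _))⟩ :
      sUnits (S : Set Nat.Primes) K))
    fun a b => Subtype.ext (map_mul _ a b))).toAdditive.toIntLinearMap

lemma unitIncl_injective : Function.Injective (unitIncl K S) := by
  intro a b h
  apply Additive.toMul.injective
  refine Units.ext (NumberField.RingOfIntegers.ext (Subtype.ext ?_))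
  exact congrArg (fun z : Additive (sUnits (S : Set Nat.Primes) K) => ((z.toMul : Qbˣ) : Qb)) h

lemma ker_ordHom : LinearMap.ker (ordHom K S) = LinearMap.range (unitIncl K S) := by
  ext u
  constructor
  · intro hu
    rw [LinearMap.mem_ker] at hu
    have h0 : ∀ v : HeightOneSpectrum (𝓞 K), ordK v (toField u.toMul) = 0 := fun v => by
      by_cases hv : v ∈ placesOver S K
      · exact congrFun hu ⟨v, hv⟩
      · obtain ⟨ℓ, hℓ⟩ := exists_prime_mem' v
        exact ordK_eq_zero_of_notMem _ hv hℓ
    obtain ⟨a, ha⟩ := HeightOneSpectrum.mem_integers_of_valuation_le_one (R := 𝓞 K) K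
      (toField u.toMul) fun v => (valuation_eq_one_of_ordK (toField_ne_zero _) (h0 v)).le
    obtain ⟨b, hb⟩ := HeightOneSpectrum.mem_integers_of_valuation_le_one (R := 𝓞 K) K
      (toField u.toMul)⁻¹ fun v => by
        rw [map_inv₀, valuation_eq_one_of_ordK (toField_ne_zero _) (h0 v), inv_one]
    have hab : a * b = 1 := IsFractionRing.injective (𝓞 K) K (by
      rw [map_mul, map_one, ha, hb, mul_inv_cancel₀ (toField_ne_zero _)])
    exact ⟨Additive.ofMul (Units.mkOfMulEqOne a b hab),
      Additive.toMul.injective (Subtype.ext (Units.ext (congrArg Subtype.val ha)))⟩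
  · rintro ⟨a, rfl⟩
    refine funext fun v => ?_
    have h1 : v.1.valuation K (((a.toMul : (𝓞 K)ˣ) : 𝓞 K) : K) = 1 := by
      refine le_antisymm (v.1.valuation_le_one _) ?_
      have h : v.1.valuation K (((a.toMul : (𝓞 K)ˣ) : 𝓞 K) : K) *
          v.1.valuation K ((((a.toMul)⁻¹ : (𝓞 K)ˣ) : 𝓞 K) : K) = 1 := by
        rw [← map_mul]
        show v.1.valuation K (algebraMap (𝓞 K) K _ * algebraMap (𝓞 K) K _) = 1
        rw [← map_mul, Units.mul_inv, map_one, map_one]
      calc (1 : _) = _ := h.symm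
        _ ≤ v.1.valuation K (((a.toMul : (𝓞 K)ˣ) : 𝓞 K) : K) * 1 := by
          gcongr; exact v.1.valuation_le_one _
        _ = _ := mul_one _
    show ordK v.1 (((a.toMul : (𝓞 K)ˣ) : 𝓞 K) : K) = 0
    rw [ordK, h1, WithZero.log_one, neg_zero]

instance finite_sUnits : Module.Finite ℤ (Additive (sUnits (S : Set Nat.Primes) K)) := by
  refine ⟨Submodule.fg_of_fg_map_of_fg_inf_ker (ordHom K S) ?_ ?_⟩
  · exact IsNoetherian.noetherian _
  · rw [top_inf_eq, ker_ordHom, LinearMap.range_eq_map]
    exact Module.Finite.fg_top.map _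

open NumberField in
lemma pow_card_le_finrank :
    Fintype.card (Place S K) + NumberField.Units.rank K ≤
      Module.finrank ℤ (Additive (sUnits (S : Set Nat.Primes) K)) := by
  classical
  have hker : Module.finrank ℤ (LinearMap.ker (ordHom K S)) = NumberField.Units.rank K := by
    rw [ker_ordHom, LinearMap.finrank_range_of_inj unitIncl_injective, NumberField.Units.finrank_eq]
  set h := NumberField.classNumber K
  have hgen : ∀ v : Place S K, ∃ u : Additive (sUnits (S : Set Nat.Primes) K),
      ordHom K S u = Pi.single v (h : ℤ) := by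
    intro v
    have hprin : (v.1.asIdeal ^ h).IsPrincipal := by
      refine (ClassGroup.mk0_eq_one_iff
        (pow_mem (mem_nonZeroDivisors_of_ne_zero v.1.ne_bot) h)).mp ?_
      rw [show (⟨v.1.asIdeal ^ h, pow_mem (mem_nonZeroDivisors_of_ne_zero v.1.ne_bot) h⟩ :
        nonZeroDivisors (Ideal (𝓞 K))) = ⟨v.1.asIdeal, mem_nonZeroDivisors_of_ne_zero v.1.ne_bot⟩ ^ h
        from rfl, map_pow]
      exact pow_card_eq_one
    obtain ⟨x, hx⟩ := hprin.principal
    rw [Ideal.submodule_span_eq] at hx
    have hx0 : x ≠ 0 := fun h0 => by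
      rw [h0, Ideal.span_singleton_eq_bot.mpr rfl] at hx
      exact pow_ne_zero h v.1.ne_bot hx
    have hordx : ∀ w : HeightOneSpectrum (𝓞 K), w ≠ v.1 → x ∉ w.asIdeal := fun w hw hmem => by
      have hle : v.1.asIdeal ^ h ≤ w.asIdeal := hx ▸ (Ideal.span_singleton_le_iff_mem _).mpr hmem
      exact hw (HeightOneSpectrum.ext (v.1.isMaximal.eq_of_le w.isPrime.ne_top
        ((Ideal.IsPrime.pow_le_iff (NumberField.classNumber_ne_zero K)).mp hle)).symm)
    have hu : Units.mk0 ((x : K) : Qb) (fun h0 => hx0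
        (NumberField.RingOfIntegers.coe_eq_zero_iff.mp (Subtype.ext h0))) ∈
        sUnits (S : Set Nat.Primes) K :=
      ⟨(x : K).2, fun ℓ hℓ ι => le_antisymm (norm_embInt_le_one ι K x) (not_lt.mp fun hlt =>
        hordx (placeAt ι K) (fun heq => by
          obtain ⟨ℓ', hℓ', hmem⟩ := mem_placesOver.mp v.2
          exact hℓ (Finset.mem_coe.mpr ((primes_eq_of_mem (heq ▸ natCast_mem_placeAt ι K) hmem) ▸ hℓ')))
          hlt)⟩
    refine ⟨Additive.ofMul ⟨_, hu⟩, funext fun w => ?_⟩
    show -WithZero.log (w.1.valuation K (algebraMap (𝓞 K) K x)) = _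
    rw [HeightOneSpectrum.valuation_of_algebraMap]
    rcases eq_or_ne w v with rfl | hw
    · obtain ⟨m, hm⟩ : ∃ m : ℕ, w.1.intValuation x = WithZero.exp (-(m : ℤ)) :=
        ⟨_, w.1.intValuation_if_neg hx0⟩
      have h1 : x ∈ w.1.asIdeal ^ h := hx ▸ Ideal.mem_span_singleton_self x
      have h2 : x ∉ w.1.asIdeal ^ (h + 1) := by
        intro hmem
        have hle : w.1.asIdeal ^ h ≤ w.1.asIdeal ^ (h + 1) :=
          hx ▸ (Ideal.span_singleton_le_iff_mem _).mpr hmem
        exact absurd hle
          (Ideal.pow_right_strictAnti _ w.1.ne_bot w.1.isPrime.ne_top (Nat.lt_succ_self h)).not_ge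
      rw [← w.1.intValuation_le_pow_iff_mem, hm, WithZero.exp_le_exp] at h1 h2
      rw [hm, WithZero.log_exp, Pi.single_eq_same]
      omega
    · rw [HeightOneSpectrum.intValuation_eq_one_iff.mpr (hordx w.1 fun h' => hw (Subtype.ext h')),
        WithZero.log_one, neg_zero, Pi.single_eq_of_ne hw]
  choose u hu using hgen
  have hli : LinearIndependent ℤ fun v : Place S K =>
      (⟨Pi.single v (h : ℤ), u v, hu v⟩ : LinearMap.range (ordHom K S)) := by
    refine LinearIndependent.of_comp (LinearMap.range (ordHom K S)).subtype ?_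
    exact Pi.linearIndependent_single_of_ne_zero
      fun v => Int.natCast_ne_zero.mpr (NumberField.classNumber_ne_zero K)
  have hr := hli.fintype_card_le_finrank
  have hadd := (LinearMap.ker (ordHom K S)).finrank_quotient_add_finrank
  rw [(ordHom K S).quotKerEquivRange.finrank_eq, hker] at hadd
  omega

/-- The `S`-units modulo `p`-th powers. -/
theorem pow_le_card_sUnits_quotient {p : ℕ} [Fact p.Prime] [NumberField.IsTotallyComplex K]
    {ζ : Qb} (hζ : IsPrimitiveRoot ζ p) (hζK : ζ ∈ K) :
    p ^ (Fintype.card (Place S K) + NumberField.InfinitePlace.nrComplexPlaces K) ≤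
      Nat.card (sUnits (S : Set Nat.Primes) K ⧸
        (powMonoidHom p : sUnits (S : Set Nat.Primes) K →* _).range) := by
  have hp0 : p ≠ 0 := (Fact.out : p.Prime).ne_zero
  have hζu : Units.mk0 ζ (hζ.ne_zero hp0) ∈ sUnits (S : Set Nat.Primes) K :=
    ⟨hζK, fun ℓ _ ι => (pow_eq_one_iff_of_nonneg (norm_nonneg _) hp0).mp (by
      rw [← norm_pow, ← map_pow, Units.val_mk0, hζ.pow_eq_one, map_one, norm_one])⟩
  have hx0 : Additive.ofMul (⟨_, hζu⟩ : sUnits (S : Set Nat.Primes) K) ≠ 0 := fun h0 =>
    hζ.ne_one (Fact.out : p.Prime).one_lt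
      (congrArg (fun z : Additive (sUnits (S : Set Nat.Primes) K) => ((z.toMul : Qbˣ) : Qb)) h0)
  have hx : (p : ℤ) • Additive.ofMul (⟨_, hζu⟩ : sUnits (S : Set Nat.Primes) K) = 0 := by
    rw [natCast_zsmul]
    exact Additive.toMul.injective (Subtype.ext (Units.ext hζ.pow_eq_one))
  have hrank : NumberField.Units.rank K + 1 = NumberField.InfinitePlace.nrComplexPlaces K := by
    rw [NumberField.Units.rank, NumberField.InfinitePlace.card_eq_nrRealPlaces_add_nrComplexPlaces,
      NumberField.IsTotallyComplex.nrRealPlaces_eq_zero K, zero_add]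
    have : 0 < NumberField.InfinitePlace.nrComplexPlaces K := by
      have h1 := NumberField.InfinitePlace.card_add_two_mul_card_eq_rank K
      rw [NumberField.IsTotallyComplex.nrRealPlaces_eq_zero K] at h1
      have h2 : 0 < Module.finrank ℚ K := Module.finrank_pos
      omega
    omega
  refine le_trans (le_of_eq ?_) (le_trans
    (pow_succ_le_card_quotient (p := p) (r := Fintype.card (Place S K) + NumberField.Units.rank K)
      pow_card_le_finrank hx0 hx) (le_of_eq ?_))
  · congr 1; omega
  · refine Nat.card_congr (Quotient.congr Additive.toMul fun a b => ?_)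
    rw [Submodule.quotientRel_def, QuotientGroup.leftRel_apply]
    constructor
    · rintro ⟨c, hc⟩
      refine ⟨(Additive.toMul c)⁻¹, ?_⟩
      have h := congrArg Additive.toMul hc
      simp only [LinearMap.lsmul_apply, natCast_zsmul, toMul_nsmul, toMul_sub] at h
      rw [powMonoidHom_apply, inv_pow, h, inv_div, div_eq_inv_mul]
    · rintro ⟨c, hc⟩
      refine ⟨Additive.ofMul c⁻¹, Additive.toMul.injective ?_⟩
      rw [powMonoidHom_apply] at hc
      simp only [LinearMap.lsmul_apply, natCast_zsmul, toMul_nsmul, toMul_sub, toMul_ofMul]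
      rw [inv_pow, hc, mul_inv_rev, inv_inv, mul_comm, div_eq_inv_mul, mul_comm]

end Fermat.Agent.ClassField.Idele.Existence
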