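import Fermat.Agent.ClassField.Idele.Existence.Norms
import Fermat.Agent.ClassField.Idele.Existence.SUnits
import Fermat.Agent.ClassField.Idele.Existence.LocalPow
import Fermat.Agent.ClassField.Idele.SecondIneq.Bound

/-!
# The character space is no bigger than the `S`-units modulo `p`-th powers
-/

set_option autoImplicit false

noncomputable section

open IntermediateField IsDedekindDomain
open scoped NumberField

namespace Fermat.Agent.ClassField.Idele.Existence

open SecondIneq

local notation "Qb" => AlgebraicClosure ℚ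

section Group

lemma index_pi_pow {ι : Type*} [Fintype ι] (M : ι → Type*) [∀ i, CommGroup (M i)] (n : ℕ) :
    Nat.card ((∀ i, M i) ⧸ (powMonoidHom n : (∀ i, M i) →* _).range) =
      ∏ i, (powMonoidHom n : M i →* M i).range.index := by
  let π : (∀ i, M i) →* ∀ i, M i ⧸ (powMonoidHom n : M i →* M i).range :=
    MonoidHom.mk' (fun y i => QuotientGroup.mk (y i)) fun _ _ => rfl
  have hker : π.ker = (powMonoidHom n : (∀ i, M i) →* _).range := by
    ext y
    constructor
    · intro h
      choose z hz using fun i => (QuotientGroup.eq_one_iff _).mp (congrFun h i)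
      exact ⟨z, funext fun i => hz i⟩
    · rintro ⟨z, rfl⟩
      exact funext fun i => (QuotientGroup.eq_one_iff _).mpr ⟨z i, rfl⟩
  have hsurj : Function.Surjective π := fun y => by
    choose z hz using fun i => QuotientGroup.mk_surjective (y i)
    exact ⟨z, funext hz⟩
  rw [Nat.card_congr ((QuotientGroup.quotientMulEquivOfEq hker.symm).trans
    (QuotientGroup.quotientKerEquivOfSurjective π hsurj)).toEquiv, Nat.card_pi]
  rfl

lemma card_mul_card_le {Q C U : Type*} [CommGroup Q] [CommGroup C] [CommGroup U] [Finite Q]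
    {N : Subgroup U} (χ : Q →* C) (hχ : Function.Surjective χ) (ε : U →* Q) (hε : ε.ker = N)
    (h : ε.range ≤ χ.ker) :
    Finite C ∧ Finite (U ⧸ N) ∧ Nat.card C * Nat.card (U ⧸ N) ≤ Nat.card Q := by
  have e : U ⧸ N ≃* ε.range :=
    (QuotientGroup.quotientMulEquivOfEq hε.symm).trans (QuotientGroup.quotientKerEquivRange ε)
  refine ⟨Finite.of_surjective χ hχ, Finite.of_equiv _ e.toEquiv.symm, ?_⟩
  rw [Subgroup.card_eq_card_quotient_mul_card_subgroup χ.ker,
    Nat.card_congr (QuotientGroup.quotientKerEquivOfSurjective χ hχ).toEquiv,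
    Nat.card_congr e.toEquiv]
  exact Nat.mul_le_mul_left _ (Subgroup.card_le_of_le h)

end Group

variable {p : ℕ} [Fact p.Prime] {K : IntermediateField ℚ Qb} [FiniteDimensional ℚ K]
  {S : Finset Nat.Primes}

lemma exists_emb_over {v : Place S K} {ℓ : Nat.Primes} (h : repPrime v = ℓ) (hℓ : (ℓ : ℕ) = p) :
    ∃ ι : Emb ℓ, placeAt ι K = v.1 ∧
      powExp p (localField (repEmb v) K) = Module.finrank ℚ_[(ℓ : ℕ)] (localField ι K) := by
  subst h
  exact ⟨repEmb v, placeAt_repEmb v, by rw [powExp, if_pos hℓ.symm]⟩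

lemma exists_extend {ℓ : Nat.Primes} (ι : Emb ℓ)
    (g : localField ι K →ₐ[ℚ_[(ℓ : ℕ)]] PadicAlgCl (ℓ : ℕ)) :
    ∃ τ : LocalGal ℓ, ∀ z : localField ι K, τ z = g z :=
  ⟨AlgEquiv.ofBijective (g.liftNormal (PadicAlgCl (ℓ : ℕ)))
    (Algebra.IsAlgebraic.algHom_bijective _),
    fun z => AlgHom.liftNormal_commutes g (PadicAlgCl (ℓ : ℕ)) z⟩

/-- The local degrees at embeddings with different places add up to at most the degree. -/
lemma sum_finrank_localField_le {ℓ : Nat.Primes} {A : Type*} [Fintype A] (ι : A → Emb ℓ)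
    (hinj : Function.Injective fun a => placeAt (ι a) K) :
    ∑ a, Module.finrank ℚ_[(ℓ : ℕ)] (localField (ι a) K) ≤ Module.finrank ℚ K := by
  classical
  let F : (Σ a, (localField (ι a) K →ₐ[ℚ_[(ℓ : ℕ)]] PadicAlgCl (ℓ : ℕ))) →
      (K →ₐ[ℚ] PadicAlgCl (ℓ : ℕ)) := fun x =>
    (x.2.restrictScalars ℚ).comp (((ι x.1).comp K.val).codRestrict
      ((localField (ι x.1) K).restrictScalars ℚ).toSubalgebra fun y => apply_mem_localField y.2)
  have hF : Function.Injective F := by
    rintro ⟨a, h⟩ ⟨a', h'⟩ heq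
    have happ : ∀ (y : Qb) (hy : y ∈ K), h ⟨ι a y, apply_mem_localField hy⟩ =
        h' ⟨ι a' y, apply_mem_localField hy⟩ := fun y hy =>
      DFunLike.congr_fun heq (⟨y, hy⟩ : K)
    obtain ⟨τ, hτ⟩ := exists_extend (ι a) h
    obtain ⟨τ', hτ'⟩ := exists_extend (ι a') h'
    have haa : a = a' := by
      refine hinj ?_
      refine placeAt_eq_of_eqOn (τ⁻¹ * τ') fun y hy => ?_
      show τ.symm (τ' (ι a' y)) = ι a y
      rw [hτ' ⟨ι a' y, apply_mem_localField hy⟩, ← happ y hy,
        ← hτ ⟨ι a y, apply_mem_localField hy⟩, AlgEquiv.symm_apply_apply]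
    subst haa
    refine congrArg (Sigma.mk a) (AlgHom.ext fun z => ?_)
    rw [← hτ z, ← hτ' z]
    exact eq_of_eqOn_of_mem_localField (ι a) (fun y hy => by
      rw [hτ ⟨ι a y, apply_mem_localField hy⟩, hτ' ⟨ι a y, apply_mem_localField hy⟩, happ y hy]) z.2
  have hcard := Nat.card_le_card_of_injective F hF
  rw [Nat.card_sigma] at hcard
  simp only [Nat.card_eq_fintype_card, AlgHom.card] at hcard
  exact hcard

/-- The local degrees at `p` add up to at most the degree. -/
lemma sum_powExp_le :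
    ∑ v : Place S K, powExp p (localField (repEmb v) K) ≤ Module.finrank ℚ K := by
  classical
  let pp : Nat.Primes := ⟨p, Fact.out⟩
  set A := (Finset.univ : Finset (Place S K)).filter fun v => repPrime v = pp with hA
  have hzero : ∀ v : Place S K, v ∉ A → powExp p (localField (repEmb v) K) = 0 := fun v hv => by
    rw [powExp, if_neg]
    exact fun h => hv (Finset.mem_filter.mpr ⟨Finset.mem_univ _, Subtype.ext h.symm⟩)
  rw [← Finset.sum_subset (Finset.subset_univ A) (fun v _ hv => hzero v hv)]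
  choose ι hι hpow using fun v : A =>
    exists_emb_over (p := p) (ℓ := pp) (Finset.mem_filter.mp v.2).2 rfl
  rw [← Finset.sum_coe_sort A]
  refine le_trans (le_of_eq (Finset.sum_congr rfl fun v _ => hpow v))
    (sum_finrank_localField_le ι fun v w h => ?_)
  exact Subtype.ext (Subtype.ext ((hι v).symm.trans (h.trans (hι w))))

/-- The local unit groups over `S`, as a product. -/
abbrev LocalProd (S : Finset Nat.Primes) (K : IntermediateField ℚ Qb) [FiniteDimensional ℚ K] :
    Type :=
  ∀ v : Place S K, LocalUnits v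

instance commGroupLocalProd : CommGroup (LocalProd S K) := Pi.commGroup

variable (p) in
/-- The product of the local unit groups modulo `p`-th powers. -/
abbrev LocalPowQuot (S : Finset Nat.Primes) (K : IntermediateField ℚ Qb) [FiniteDimensional ℚ K] :
    Type :=
  LocalProd S K ⧸ (powMonoidHom p : LocalProd S K →* LocalProd S K).range

instance commGroupLocalPowQuot : CommGroup (LocalPowQuot p S K) :=
  QuotientGroup.Quotient.commGroup _

lemma card_localProd_quotient [NumberField.IsTotallyComplex K] :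
    Nat.card (LocalPowQuot p S K) ≠ 0 ∧
    Nat.card (LocalPowQuot p S K) ≤
      p ^ (2 * (Fintype.card (Place S K) + NumberField.InfinitePlace.nrComplexPlaces K)) := by
  rw [show Nat.card (LocalPowQuot p S K) = _ from index_pi_pow _ p]
  have hb := fun v : Place S K => index_pow_le (F := localField (repEmb v) K) (Fact.out : p.Prime)
  refine ⟨Finset.prod_ne_zero_iff.mpr fun v _ => (hb v).1, ?_⟩
  refine (Finset.prod_le_prod (fun v _ => Nat.zero_le _) fun v _ => (hb v).2).trans ?_
  rw [Finset.prod_mul_distrib, Finset.prod_const, Finset.prod_pow_eq_pow_sum, Finset.card_univ,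
    ← pow_mul, ← pow_add]
  refine Nat.pow_le_pow_right (Fact.out : p.Prime).pos ?_
  have h1 := sum_powExp_le (p := p) (K := K) (S := S)
  have h2 := NumberField.InfinitePlace.card_add_two_mul_card_eq_rank K
  rw [NumberField.IsTotallyComplex.nrRealPlaces_eq_zero K] at h2
  omega

/-- The product of the local unit groups into the ideles. -/
def localToIdeles (S : Finset Nat.Primes) (K : IntermediateField ℚ Qb) [FiniteDimensional ℚ K] :
    LocalProd S K →* idelesOf K :=
  ofLocal.codRestrict (idelesOf K) fun y => (ofLocal_mem y).1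

lemma coe_localToIdeles (y : LocalProd S K) : (localToIdeles S K y : IdeleGroup) = ofLocal y := rfl

variable (p) in
/-- The map onto the quotient by the trivial part. -/
def localQuotHom (S : Finset Nat.Primes) (K : IntermediateField ℚ Qb) [FiniteDimensional ℚ K] :
    LocalPowQuot p S K →*
      idelesOf K ⧸ (trivPart p K S).subgroupOf (idelesOf K) :=
  QuotientGroup.lift _ ((QuotientGroup.mk' _).comp (localToIdeles S K)) (by
    rintro _ ⟨z, rfl⟩
    refine (QuotientGroup.eq_one_iff _).mpr (Subgroup.mem_subgroupOf.mpr ?_)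
    rw [powMonoidHom_apply, map_pow, SubgroupClass.coe_pow]
    exact pow_mem_trivPart (localToIdeles S K z).2)

lemma localQuotHom_surjective (hgen : Generates p K S) :
    Function.Surjective (localQuotHom p S K) := by
  intro c
  obtain ⟨f, rfl⟩ := QuotientGroup.mk_surjective c
  obtain ⟨d, hd, g, hg, hdg⟩ := Subgroup.mem_sup.mp (hgen.le_sup f.2)
  refine ⟨QuotientGroup.mk fun v => evalAt v ⟨g, hg.1⟩, ?_⟩
  show QuotientGroup.mk (localToIdeles S K fun v => evalAt v ⟨g, hg.1⟩) = QuotientGroup.mk f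
  rw [QuotientGroup.eq, Subgroup.mem_subgroupOf, Subgroup.coe_mul, InvMemClass.coe_inv,
    coe_localToIdeles, ofLocal_evalAt (f := ⟨g, hg.1⟩) hg.2, ← hdg, mul_comm d,
    inv_mul_cancel_left]
  exact hd

/-- The principal idele of an `S`-unit. -/
def unitPrincipal (S : Finset Nat.Primes) (K : IntermediateField ℚ Qb) :
    sUnits (S : Set Nat.Primes) K →* idelesOf K :=
  (principal.comp (sUnits (S : Set Nat.Primes) K).subtype).codRestrict (idelesOf K)
    fun u => principal_mem_idelesOf u.2.1

/-- The components of an `S`-unit. -/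
def unitsToLocal (S : Finset Nat.Primes) (K : IntermediateField ℚ Qb) [FiniteDimensional ℚ K] :
    sUnits (S : Set Nat.Primes) K →* LocalProd S K :=
  MonoidHom.pi fun v => (evalAt v).comp (unitPrincipal S K)

lemma coe_unitsToLocal (u : sUnits (S : Set Nat.Primes) K) (v : Place S K) :
    ((unitsToLocal S K u v : localField (repEmb v) K) : PadicAlgCl (repPrime v : ℕ)) =
      repEmb v ((u : Qbˣ) : Qb) := rfl

variable (p) in
/-- The components of an `S`-unit modulo `p`-th powers. -/
def unitsToQuot (S : Finset Nat.Primes) (K : IntermediateField ℚ Qb) [FiniteDimensional ℚ K] :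
    sUnits (S : Set Nat.Primes) K →* LocalPowQuot p S K :=
  (QuotientGroup.mk' _).comp (unitsToLocal S K)

omit [FiniteDimensional ℚ K] in
lemma map_localField_mem {ℓ : Nat.Primes} {ι ι' : Emb ℓ} {τ : LocalGal ℓ}
    (hτ : ∀ x ∈ K, τ (ι x) = ι' x) {y : PadicAlgCl (ℓ : ℕ)} (hy : y ∈ localField ι K) :
    τ y ∈ localField ι' K := by
  induction hy using IntermediateField.adjoin_induction with
  | mem y hy =>
    obtain ⟨x, hx, rfl⟩ := hy
    rw [hτ x hx]
    exact apply_mem_localField hx
  | algebraMap r => rw [τ.commutes]; exact IntermediateField.algebraMap_mem _ r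
  | add a b _ _ ha hb => rw [map_add]; exact add_mem ha hb
  | inv a _ ha => rw [map_inv₀]; exact inv_mem ha
  | mul a b _ _ ha hb => rw [map_mul]; exact mul_mem ha hb

lemma ker_unitsToLocal (hp : p ≠ 2) {ζ : Qb} (hζ : IsPrimitiveRoot ζ p) (hζK : ζ ∈ K)
    (hpS : (⟨p, Fact.out⟩ : Nat.Primes) ∈ S) (hK : K.IsUnramifiedOutside S)
    (hgen : Generates p K S) :
    (unitsToQuot p S K).ker =
      (powMonoidHom p : sUnits (S : Set Nat.Primes) K →* _).range := by
  ext u
  rw [MonoidHom.mem_ker, unitsToQuot, MonoidHom.comp_apply, QuotientGroup.mk'_apply,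
    QuotientGroup.eq_one_iff]
  constructor
  · rintro ⟨z, hz⟩
    have hloc : ∀ ℓ ∈ S, ∀ ι : Emb ℓ, ∃ y ∈ localField ι K, y ^ p = ι ((u : Qbˣ) : Qb) := by
      intro ℓ hℓ ι
      obtain ⟨v, hv⟩ : ∃ v : Place S K, v.1 = placeAt ι K :=
        ⟨⟨_, placeAt_mem_placesOver hℓ ι⟩, rfl⟩
      have e := repPrime_eq hv
      subst e
      obtain ⟨τ, hτ⟩ := exists_localComp_eqOn_of_placeAt_eq (repEmb v) ((placeAt_repEmb v).trans hv)
      refine ⟨τ ((z v : localField (repEmb v) K) : PadicAlgCl (repPrime v : ℕ)),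
        map_localField_mem hτ (z v : localField (repEmb v) K).2, ?_⟩
      rw [← map_pow, ← hτ _ u.2.1, ← coe_unitsToLocal, ← hz]
      rfl
    obtain ⟨γ, hγK, hγ⟩ := isPow_of_forall_local hp hζ hζK hpS hK hgen u.2 hloc
    have hγ0 : γ ≠ 0 := fun h0 => Units.ne_zero (u : Qbˣ)
      (by rw [← hγ, h0, zero_pow (Fact.out : p.Prime).ne_zero])
    refine ⟨⟨Units.mk0 γ hγ0, hγK, fun ℓ hℓ ι => ?_⟩, Subtype.ext (Units.ext hγ)⟩
    refine (pow_eq_one_iff_of_nonneg (norm_nonneg _) (Fact.out : p.Prime).ne_zero).mp ?_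
    rw [← norm_pow, ← map_pow, Units.val_mk0, hγ]
    exact u.2.2 ℓ hℓ ι
  · rintro ⟨w, rfl⟩
    exact ⟨unitsToLocal S K w, by rw [powMonoidHom_apply, powMonoidHom_apply, map_pow]⟩

lemma range_unitsToLocal_le :
    (unitsToQuot p S K).range ≤
      (localQuotHom p S K).ker := by
  rintro _ ⟨u, rfl⟩
  rw [MonoidHom.mem_ker]
  refine (QuotientGroup.eq_one_iff _).mpr (Subgroup.mem_subgroupOf.mpr ?_)
  rw [coe_localToIdeles]
  set f := cut (S : Set Nat.Primes) (principal (u : Qbˣ)) with hf
  have hfK : f ∈ idelesOf K := cut_mem_idelesOf _ (principal_mem_idelesOf u.2.1)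
  have hev : unitsToLocal S K u = fun v : Place S K => evalAt v ⟨f, hfK⟩ :=
    funext fun v => Units.ext (Subtype.ext (by
      rw [coe_unitsToLocal, coe_evalAt]
      show _ = (((cut (S : Set Nat.Primes) (principal (u : Qbˣ)) : IdeleGroup) : Raw) (repPrime v)
        (repEmb v) : PadicAlgCl (repPrime v : ℕ))
      rw [cut_of_mem _ (Finset.mem_coe.mpr (repPrime_mem v)), principal_apply]))
  rw [hev, ofLocal_evalAt (f := ⟨f, hfK⟩) fun ℓ hℓ ι => cut_of_notMem _ hℓ ι]
  have hc : cut (S : Set Nat.Primes)ᶜ (principal (u : Qbˣ)) ∈ trivPart p K S :=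
    unit_mem_trivPart (cut_mem_idelesOf _ (principal_mem_idelesOf u.2.1))
      ⟨fun ℓ hℓ ι => cut_of_notMem _ (show ℓ ∉ (S : Set Nat.Primes)ᶜ from fun h => h hℓ) ι,
        fun ℓ hℓ ι => by
          rw [cut_of_mem (P := (S : Set Nat.Primes)ᶜ) _ hℓ ι, principal_apply]
          exact u.2.2 ℓ hℓ ι⟩
  show f ∈ trivPart p K S
  rw [show f = principal (u : Qbˣ) * (cut (S : Set Nat.Primes)ᶜ (principal (u : Qbˣ)))⁻¹ from
    eq_mul_inv_of_mul_eq (cut_mul_cut_compl _ _)]
  exact mul_mem (principal_mem_trivPart u.2.1) (inv_mem hc)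

/-- The counting inequality. -/
theorem card_charSpace_le (hp : p ≠ 2) {ζ : Qb} (hζ : IsPrimitiveRoot ζ p) (hζK : ζ ∈ K)
    (hpS : (⟨p, Fact.out⟩ : Nat.Primes) ∈ S) (hK : K.IsUnramifiedOutside S)
    (hgen : Generates p K S) :
    Finite (CharSpace p K S) ∧
      Finite (sUnits (S : Set Nat.Primes) K ⧸
        (powMonoidHom p : sUnits (S : Set Nat.Primes) K →* _).range) ∧
      Nat.card (CharSpace p K S) ≤ Nat.card (sUnits (S : Set Nat.Primes) K ⧸
        (powMonoidHom p : sUnits (S : Set Nat.Primes) K →* _).range) := by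
  have := isTotallyComplex hp hζ hζK
  obtain ⟨hQ0, hQle⟩ := card_localProd_quotient (p := p) (S := S) (K := K)
  have : Finite (LocalPowQuot p S K) :=
    Nat.finite_of_card_ne_zero hQ0
  obtain ⟨hC, hU, hmul⟩ := card_mul_card_le (localQuotHom p S K) (localQuotHom_surjective hgen) _
    (ker_unitsToLocal hp hζ hζK hpS hK hgen) range_unitsToLocal_le
  refine ⟨Finite.of_equiv _ Additive.ofMul, hU, ?_⟩
  have hlow := pow_le_card_sUnits_quotient (S := S) hζ hζK
  rw [mul_comm 2, pow_mul, pow_two] at hQle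
  rw [show Nat.card (CharSpace p K S) =
    Nat.card (idelesOf K ⧸ (trivPart p K S).subgroupOf (idelesOf K)) from
      Nat.card_congr Additive.toMul]
  exact Nat.le_of_mul_le_mul_right ((hmul.trans hQle).trans (Nat.mul_le_mul hlow hlow)) Nat.card_pos

end Fermat.Agent.ClassField.Idele.Existence
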