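import Fermat.Agent.ClassField.Idele.Existence.PlaceProd
import Fermat.Agent.ClassField.Idele.SecondIneq.Chars

/-!
# The ideles modulo principal ideles, units away from `S` and `p`-th powers
-/

set_option autoImplicit false

noncomputable section

open IntermediateField

namespace Fermat.Agent.ClassField.Idele.Existence

open SecondIneq

local notation "Qb" => AlgebraicClosure ℚ

variable (p : ℕ) [Fact p.Prime] (K : IntermediateField ℚ Qb) (S : Finset Nat.Primes)

/-- The nonzero elements of `K`. -/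
def fieldUnits : Subgroup Qbˣ where
  carrier := {x | (x : Qb) ∈ K}
  one_mem' := by simp
  mul_mem' := fun {x y} hx hy => by simpa using mul_mem hx hy
  inv_mem' := fun {x} hx => by simpa using inv_mem (s := K) hx

/-- Principal ideles, units away from `S` and `p`-th powers. -/
def trivPart : Subgroup IdeleGroup :=
  (fieldUnits K).map principal ⊔ (idelesOf K ⊓ unitsAway (S : Set Nat.Primes)) ⊔
    (idelesOf K).map (powMonoidHom p)

variable {p K S}

lemma principal_mem_trivPart {x : Qbˣ} (hx : (x : Qb) ∈ K) : principal x ∈ trivPart p K S :=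
  Subgroup.mem_sup_left (Subgroup.mem_sup_left ⟨x, hx, rfl⟩)

lemma unit_mem_trivPart {f : IdeleGroup} (hf : f ∈ idelesOf K)
    (hu : f ∈ unitsAway (S : Set Nat.Primes)) : f ∈ trivPart p K S :=
  Subgroup.mem_sup_left (Subgroup.mem_sup_right ⟨hf, hu⟩)

lemma pow_mem_trivPart {f : IdeleGroup} (hf : f ∈ idelesOf K) : f ^ p ∈ trivPart p K S :=
  Subgroup.mem_sup_right ⟨f, hf, rfl⟩

lemma trivPart_le : trivPart p K S ≤ idelesOf K := by
  refine sup_le (sup_le ?_ inf_le_left) ?_
  · rintro _ ⟨x, hx, rfl⟩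
    exact principal_mem_idelesOf hx
  · rintro _ ⟨f, hf, rfl⟩
    exact pow_mem hf p

lemma trivPart_antitone {S' : Finset Nat.Primes} (h : S ⊆ S') :
    trivPart p K S' ≤ trivPart p K S :=
  sup_le_sup_right (sup_le_sup_left
    (inf_le_inf_left _ (unitsAway_antitone (Finset.coe_subset.mpr h))) _) _

variable (p K S)

/-- The quotient of the ideles of `K` by the trivial part. -/
abbrev CharSpace : Type := Additive (idelesOf K ⧸ (trivPart p K S).subgroupOf (idelesOf K))

instance : Module (ZMod p) (CharSpace p K S) :=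
  AddCommGroup.zmodModule fun x => by
    obtain ⟨f, hf⟩ := QuotientGroup.mk_surjective x.toMul
    apply Additive.toMul.injective
    rw [toMul_nsmul, ← hf, toMul_zero, ← QuotientGroup.mk_pow, QuotientGroup.eq_one_iff,
      Subgroup.mem_subgroupOf, SubgroupClass.coe_pow]
    exact pow_mem_trivPart f.2

variable {p K S}

/-- The class of an idele. -/
def toCharSpace (f : idelesOf K) : CharSpace p K S := Additive.ofMul (QuotientGroup.mk f)

lemma toCharSpace_mul (f g : idelesOf K) :
    (toCharSpace (f * g) : CharSpace p K S) = toCharSpace f + toCharSpace g := rfl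

lemma toCharSpace_eq_zero {f : idelesOf K} :
    (toCharSpace f : CharSpace p K S) = 0 ↔ (f : IdeleGroup) ∈ trivPart p K S := by
  rw [toCharSpace, ofMul_eq_zero, QuotientGroup.eq_one_iff, Subgroup.mem_subgroupOf]

lemma toCharSpace_surjective : Function.Surjective (toCharSpace (p := p) (K := K) (S := S)) :=
  fun x => by
    obtain ⟨f, hf⟩ := QuotientGroup.mk_surjective x.toMul
    exact ⟨f, by rw [toCharSpace, hf, ofMul_toMul]⟩

open Classical in
/-- The idele character of a linear form. -/
def dualChar (ψ : Module.Dual (ZMod p) (CharSpace p K S)) (f : IdeleGroup) : ZMod p :=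
  if h : f ∈ idelesOf K then ψ (toCharSpace ⟨f, h⟩) else 0

lemma dualChar_apply (ψ : Module.Dual (ZMod p) (CharSpace p K S)) (f : idelesOf K) :
    dualChar ψ (f : IdeleGroup) = ψ (toCharSpace f) := by
  rw [dualChar, dif_pos f.2]

lemma dualChar_of_mem {ψ : Module.Dual (ZMod p) (CharSpace p K S)} {f : IdeleGroup}
    (hf : f ∈ trivPart p K S) : dualChar ψ f = 0 := by
  rw [show f = ((⟨f, trivPart_le hf⟩ : idelesOf K) : IdeleGroup) from rfl, dualChar_apply,
    toCharSpace_eq_zero.mpr hf, map_zero]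

lemma isIdeleChar_dualChar (ψ : Module.Dual (ZMod p) (CharSpace p K S)) :
    IsIdeleChar p K S (dualChar ψ) where
  map_mul' f hf g hg := by
    rw [show f * g = ((⟨f, hf⟩ * ⟨g, hg⟩ : idelesOf K) : IdeleGroup) from rfl, dualChar_apply,
      toCharSpace_mul, map_add, ← dualChar_apply, ← dualChar_apply]
  map_principal _ hx := dualChar_of_mem (principal_mem_trivPart hx)
  map_unit _ hf hu := dualChar_of_mem (unit_mem_trivPart hf hu)

/-- Idele characters come from linear forms. -/
lemma exists_dual_eq {φ : IdeleGroup → ZMod p} (hφ : IsIdeleChar p K S φ) :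
    ∃ ψ : Module.Dual (ZMod p) (CharSpace p K S), ∀ f ∈ idelesOf K, dualChar ψ f = φ f := by
  let χ : idelesOf K →* Multiplicative (ZMod p) :=
    MonoidHom.mk' (fun f => Multiplicative.ofAdd (φ f)) fun f g => by
      rw [← ofAdd_add, ← hφ.map_mul' _ f.2 _ g.2]; rfl
  have hle : (trivPart p K S).subgroupOf (idelesOf K) ≤ χ.ker := by
    rintro ⟨f, hf⟩ hmem
    rw [Subgroup.mem_subgroupOf] at hmem
    rw [MonoidHom.mem_ker]
    show Multiplicative.ofAdd (φ f) = 1
    rw [ofAdd_eq_one]
    have hsub : trivPart p K S ≤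
        ({ carrier := {g | g ∈ idelesOf K ∧ φ g = 0}
           one_mem' := ⟨one_mem _, hφ.map_one'⟩
           mul_mem' := fun {a b} ha hb => ⟨mul_mem ha.1 hb.1, by
             rw [hφ.map_mul' a ha.1 b hb.1, ha.2, hb.2, add_zero]⟩
           inv_mem' := fun {a} ha => ⟨inv_mem ha.1, by rw [hφ.map_inv' ha.1, ha.2, neg_zero]⟩ } :
          Subgroup IdeleGroup) := by
      refine sup_le (sup_le ?_ fun g hg => ⟨hg.1, hφ.map_unit g hg.1 hg.2⟩) ?_
      · rintro _ ⟨x, hx, rfl⟩
        exact ⟨principal_mem_idelesOf hx, hφ.map_principal x hx⟩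
      · rintro _ ⟨g, hg, rfl⟩
        exact ⟨pow_mem hg p, hφ.map_pow_eq_zero hg⟩
    exact (hsub hmem).2
  refine ⟨(MonoidHom.toAdditiveLeft (QuotientGroup.lift _ χ hle)).toZModLinearMap p,
    fun f hf => ?_⟩
  rw [dualChar, dif_pos hf]
  rfl

/-- Linear forms separate. -/
lemma mem_trivPart_of_forall_dual {f : IdeleGroup} (hf : f ∈ idelesOf K)
    (h : ∀ ψ : Module.Dual (ZMod p) (CharSpace p K S), dualChar ψ f = 0) : f ∈ trivPart p K S := by
  refine toCharSpace_eq_zero (f := ⟨f, hf⟩) |>.mp
    ((Module.forall_dual_apply_eq_zero_iff (ZMod p) _).mp fun ψ => ?_)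
  rw [← dualChar_apply ψ ⟨f, hf⟩]
  exact h ψ

omit [Fact p.Prime] in
/-- Characters of a smaller set are characters of a larger one. -/
lemma isIdeleChar_mono {S' : Finset Nat.Primes} (h : S ⊆ S') {φ : IdeleGroup → ZMod p}
    (hφ : IsIdeleChar p K S φ) : IsIdeleChar p K S' φ :=
  ⟨hφ.map_mul', hφ.map_principal,
    fun f hf hu => hφ.map_unit f hf (unitsAway_antitone (Finset.coe_subset.mpr h) hu)⟩

variable (p K S) in
/-- The places over `S` generate the ideles modulo principal ideles, units and `p`-th powers. -/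
def Generates : Prop :=
  idelesOf K ≤ trivPart p K ∅ ⊔ (idelesOf K ⊓ supportedIn (S : Set Nat.Primes))

omit [Fact p.Prime] in
lemma Generates.mono (h : Generates p K S) {S' : Finset Nat.Primes} (hS : S ⊆ S') :
    Generates p K S' :=
  le_trans h (sup_le_sup_left (inf_le_inf_left _ (supportedIn_mono (Finset.coe_subset.mpr hS))) _)

lemma trivPart_empty_le :
    trivPart p K ∅ ≤ trivPart p K S ⊔ (idelesOf K ⊓ supportedIn (S : Set Nat.Primes)) := by
  refine sup_le (sup_le ?_ ?_) ?_
  · rintro _ ⟨x, hx, rfl⟩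
    exact Subgroup.mem_sup_left (principal_mem_trivPart hx)
  · rintro f ⟨hf, hu⟩
    rw [← cut_mul_cut_compl (S : Set Nat.Primes) f]
    refine mul_mem (Subgroup.mem_sup_right ⟨cut_mem_idelesOf _ hf, fun ℓ hℓ ι => cut_of_notMem f hℓ ι⟩)
      (Subgroup.mem_sup_left (unit_mem_trivPart (cut_mem_idelesOf _ hf) ⟨fun ℓ hℓ ι =>
        cut_of_notMem f (show ℓ ∉ (S : Set Nat.Primes)ᶜ from fun h => h hℓ) ι, fun ℓ hℓ ι => ?_⟩))
    rw [cut_of_mem (P := (S : Set Nat.Primes)ᶜ) f hℓ ι]
    exact hu.2 ℓ (by simp) ι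
  · rintro _ ⟨g, hg, rfl⟩
    exact Subgroup.mem_sup_left (pow_mem_trivPart hg)

lemma Generates.le_sup (h : Generates p K S) :
    idelesOf K ≤ trivPart p K S ⊔ (idelesOf K ⊓ supportedIn (S : Set Nat.Primes)) :=
  h.trans (sup_le trivPart_empty_le le_sup_right)

end Fermat.Agent.ClassField.Idele.Existence
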