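import Fermat.Agent.ClassField.Idele.Existence.Chars
import Fermat.Agent.ClassField.Idele.Existence.Kummer
import Fermat.Agent.ClassField.Idele.HerbrandClasses
import Fermat.Agent.ClassField.Idele.Local
import Fermat.Agent.ClassField.Idele.Unramified

/-!
# Norm groups of Kummer extensions

Units away from `S`, `p`-th powers and split components are norms from an extension unramified
outside `S`; the norms do not exhaust the idele classes, so some character kills them.
-/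

set_option autoImplicit false

noncomputable section

open IntermediateField

namespace Fermat.Agent.ClassField.Idele.Existence

open SecondIneq

local notation "Qb" => AlgebraicClosure ℚ
local notation "Γ" => (AlgebraicClosure ℚ ≃ₐ[ℚ] AlgebraicClosure ℚ)

variable {p : ℕ} [Fact p.Prime] {k L : IntermediateField ℚ Qb} {S : Finset Nat.Primes}

/-- Principal ideles and norms. -/
def normTriv (k L : IntermediateField ℚ Qb) [FiniteDimensional ℚ L] : Subgroup IdeleGroup :=
  (fieldUnits k).map principal ⊔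
    (idelesOf L).map (cosetProdHom k.fixingSubgroup L.fixingSubgroup)

lemma relNorm_mem_normTriv [FiniteDimensional ℚ L] {g : IdeleGroup} (hg : g ∈ idelesOf L) :
    relNorm k L g ∈ normTriv k L :=
  Subgroup.mem_sup_right ⟨g, hg, rfl⟩

/-- Units at the unramified primes are norms. -/
theorem exists_relNorm_eq_of_unitsAway [FiniteDimensional ℚ L] (hkL : IsPrimeCyclic p k L)
    (hunr : ∀ ℓ ∉ S, IsUnramifiedAt k L ℓ) {f : IdeleGroup} (hf : f ∈ idelesOf k)
    (hu : f ∈ unitsAway (S : Set Nat.Primes)) : ∃ g ∈ idelesOf L, relNorm k L g = f := by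
  classical
  have h : ∀ ℓ : Nat.Primes, ∃ g ∈ idelesOf L,
      (∀ ι : Emb ℓ, ‖((g : Raw) ℓ ι : PadicAlgCl (ℓ : ℕ))‖ = 1) ∧
      ∀ ι : Emb ℓ, ((relNorm k L g : IdeleGroup) : Raw) ℓ ι = (f : Raw) ℓ ι := by
    intro ℓ
    by_cases hℓ : ℓ ∈ S
    · refine ⟨1, one_mem _, fun ι => by simp, fun ι => ?_⟩
      rw [relNorm, cosetProd_one, hu.1 ℓ (Finset.mem_coe.mpr hℓ) ι]
      rfl
    · obtain ⟨g, hg, -, hg1, hg2⟩ := exists_relNorm_eq_of_unit hkL (hunr ℓ hℓ) hf
        (hu.2 ℓ fun h => hℓ (Finset.mem_coe.mp h))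
      exact ⟨g, hg, hg1, hg2⟩
  choose g hg hg1 hg2 using h
  let G : Raw := fun ℓ ι => (g ℓ : Raw) ℓ ι
  have hGfix : ∀ σ ∈ L.fixingSubgroup, σ • G = G := fun σ hσ => Raw.ext fun ℓ ι =>
    congrArg (fun a : IdeleGroup => (a : Raw) ℓ ι) (hg ℓ σ hσ)
  have hG : G ∈ ideles := ⟨fun ℓ τ ι => (g ℓ).2.1 ℓ τ ι, ⟨L, inferInstance, hGfix⟩,
    ⟨∅, fun ℓ _ ι => hg1 ℓ ι⟩⟩
  refine ⟨⟨G, hG⟩, fun σ hσ => Subtype.ext (hGfix σ hσ), Subtype.ext (Raw.ext fun ℓ ι => ?_)⟩
  rw [relNorm_apply, ← hg2 ℓ ι, relNorm_apply]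

/-- The trivial part consists of principal ideles and norms. -/
theorem trivPart_le_normTriv [FiniteDimensional ℚ L] (hkL : IsPrimeCyclic p k L)
    (hunr : ∀ ℓ ∉ S, IsUnramifiedAt k L ℓ) : trivPart p k S ≤ normTriv k L := by
  refine sup_le (sup_le le_sup_left ?_) ?_
  · rintro f ⟨hf, hu⟩
    obtain ⟨g, hg, rfl⟩ := exists_relNorm_eq_of_unitsAway hkL hunr hf hu
    exact relNorm_mem_normTriv hg
  · rintro _ ⟨f, hf, rfl⟩
    have h := relNorm_mem_normTriv (k := k) (L := L)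
      (show f ∈ idelesOf L from invariants_mono _ (fixingSubgroup_antitone hkL.le) hf)
    rwa [relNorm, cosetProd_eq_pow hf, show L.fixingSubgroup.relIndex k.fixingSubgroup = p from
      hkL.index_eq] at h

/-- Ideles supported at split primes are norms. -/
theorem supported_le_normTriv [FiniteDimensional ℚ k] [FiniteDimensional ℚ L] (hkL : k ≤ L)
    (hsplit : ∀ ℓ ∈ S, ∀ ι : Emb ℓ, localField ι L ≤ localField ι k) :
    idelesOf k ⊓ supportedIn (S : Set Nat.Primes) ≤ normTriv k L := by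
  rintro f ⟨hf, hfS⟩
  rw [show f = ((⟨f, hf⟩ : idelesOf k) : IdeleGroup) from rfl,
    ← ofLocal_evalAt (f := ⟨f, hf⟩) hfS, ofLocal_apply]
  refine Subgroup.prod_mem _ fun v _ => ?_
  rw [singleHom_apply, ← relNorm_single (repEmb v) hkL (hsplit _ (repPrime_mem v) _)
    (localToUnit_mem v _)]
  exact relNorm_mem_normTriv (single_mem_idelesOf _ _ _
    (localField_mono (repEmb v) hkL (localToUnit_mem v _)))

/-- Principal ideles and norms do not exhaust the ideles. -/
theorem exists_notMem_normTriv [FiniteDimensional ℚ L] (hkL : IsPrimeCyclic p k L) (hp : p ≠ 2)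
    {ζ : Qb} (hζ : IsPrimitiveRoot ζ p) (hζk : ζ ∈ k) : ∃ f ∈ idelesOf k, f ∉ normTriv k L := by
  by_contra! hall
  obtain ⟨σ, hσk, hσL⟩ : ∃ σ ∈ k.fixingSubgroup, σ ∉ L.fixingSubgroup := by
    by_contra! h
    have h1 : L.fixingSubgroup.relIndex k.fixingSubgroup = 1 := Subgroup.relIndex_eq_one.mpr h
    exact (Fact.out : p.Prime).ne_one (hkL.index_eq.symm.trans h1)
  have h := relIndex_normClasses (S := Set.univ) hkL hζ hζk hp
    (fun ℓ hℓ => absurd (Set.mem_univ ℓ) hℓ) σ hσk hσL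
  have hle : classesOf Set.univ k ≤ normClasses Set.univ k L := by
    rintro _ ⟨f, hf, rfl⟩
    obtain ⟨_, ⟨x, -, rfl⟩, _, ⟨g, hg, rfl⟩, rfl⟩ := Subgroup.mem_sup.mp (hall f hf)
    rw [map_mul, classMap_principal, one_mul, cosetProdHom_apply]
    exact Subgroup.subset_closure ⟨classMap Set.univ g, ⟨g, hg, rfl⟩, (classMap_relNorm g).symm⟩
  rw [Subgroup.relIndex_eq_one.mpr hle] at h
  exact (Fact.out : p.Prime).ne_one (Nat.eq_one_of_mul_eq_one_right h.symm)

/-- A character separating an idele from a subgroup containing the trivial part. -/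
theorem exists_dual_separating {H : Subgroup IdeleGroup} (hH : trivPart p k S ≤ H)
    {f : IdeleGroup} (hf : f ∈ idelesOf k) (hfH : f ∉ H) :
    ∃ ψ : Module.Dual (ZMod p) (CharSpace p k S), dualChar ψ f ≠ 0 ∧
      ∀ g ∈ idelesOf k, g ∈ H → dualChar ψ g = 0 := by
  set W : AddSubgroup (CharSpace p k S) :=
    ((H.subgroupOf (idelesOf k)).map (QuotientGroup.mk' _)).toAddSubgroup with hW
  have hfW : toCharSpace (⟨f, hf⟩ : idelesOf k) ∉ W.toZModSubmodule p := by
    rintro ⟨g, hg, hgf⟩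
    rw [QuotientGroup.mk'_apply] at hgf
    have h' : (toCharSpace (g⁻¹ * ⟨f, hf⟩) : CharSpace p k S) = 0 := by
      apply Additive.toMul.injective
      show (QuotientGroup.mk (g⁻¹ * ⟨f, hf⟩) : _ ⧸ _) = 1
      rw [QuotientGroup.mk_mul, QuotientGroup.mk_inv, inv_mul_eq_one]
      exact hgf
    rw [toCharSpace_eq_zero] at h'
    have h'' : (g : IdeleGroup) * ((g : IdeleGroup)⁻¹ * f) ∈ H :=
      mul_mem (Subgroup.mem_subgroupOf.mp hg) (hH h')
    rw [mul_inv_cancel_left] at h''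
    exact hfH h''
  obtain ⟨ψ, hψf, hψW⟩ := Submodule.exists_dual_map_eq_bot_of_notMem hfW inferInstance
  refine ⟨ψ, ?_, fun g hg hgH => ?_⟩
  · rw [show f = ((⟨f, hf⟩ : idelesOf k) : IdeleGroup) from rfl, dualChar_apply]
    exact hψf
  · rw [show g = ((⟨g, hg⟩ : idelesOf k) : IdeleGroup) from rfl, dualChar_apply]
    refine (Submodule.eq_bot_iff _).mp hψW _ (Submodule.mem_map_of_mem ?_)
    exact ⟨⟨g, hg⟩, Subgroup.mem_subgroupOf.mpr hgH, rfl⟩

/-- An extension unramified outside `S` has a nonzero character killing its norms. -/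
theorem exists_dual_norm_eq_zero [FiniteDimensional ℚ L] (hkL : IsPrimeCyclic p k L) (hp : p ≠ 2)
    {ζ : Qb} (hζ : IsPrimitiveRoot ζ p) (hζk : ζ ∈ k) (hunr : ∀ ℓ ∉ S, IsUnramifiedAt k L ℓ) :
    ∃ ψ : Module.Dual (ZMod p) (CharSpace p k S), ψ ≠ 0 ∧
      ∀ g ∈ idelesOf L, dualChar ψ (relNorm k L g) = 0 := by
  obtain ⟨f, hf, hfN⟩ := exists_notMem_normTriv hkL hp hζ hζk
  obtain ⟨ψ, hψ, hker⟩ := exists_dual_separating (trivPart_le_normTriv hkL hunr) hf hfN
  refine ⟨ψ, fun h0 => hψ ?_, fun g hg => hker _ (relNorm_mem_idelesOf hg) (relNorm_mem_normTriv hg)⟩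
  rw [dualChar, dif_pos hf, h0, LinearMap.zero_apply]

/-- An `S`-unit which is locally a `p`-th power over a generating `S` is a `p`-th power. -/
theorem isPow_of_forall_local [FiniteDimensional ℚ k] (hp : p ≠ 2) {ζ : Qb}
    (hζ : IsPrimitiveRoot ζ p) (hζk : ζ ∈ k) (hpS : (⟨p, Fact.out⟩ : Nat.Primes) ∈ S)
    (hk : k.IsUnramifiedOutside S) (hgen : Generates p k S) {α : Qbˣ}
    (hα : α ∈ sUnits (S : Set Nat.Primes) k)
    (hloc : ∀ ℓ ∈ S, ∀ ι : Emb ℓ, ∃ y ∈ localField ι k, y ^ p = ι (α : Qb)) :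
    IsPow p k (α : Qb) := by
  by_contra hnp
  have hcyc := isPrimeCyclic_kummerField hζ hζk hα.1 α.ne_zero hnp
  have hur := isUnramifiedOutside_kummerField hpS hk α.ne_zero hα.1
    fun ℓ hℓ ι => hα.2 ℓ (fun h => hℓ (Finset.mem_coe.mp h)) ι
  obtain ⟨f, hf, hfN⟩ := exists_notMem_normTriv hcyc hp hζ hζk
  refine hfN (sup_le (trivPart_le_normTriv hcyc fun ℓ hℓ => isUnramifiedAt_of_isUnramifiedOutside hur hℓ)
    (supported_le_normTriv (le_kummerField (α : Qb)) fun ℓ hℓ ι => ?_) (hgen.le_sup hf))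
  obtain ⟨y, hy, hyp⟩ := hloc ℓ hℓ ι
  have hroot : ι (root p (α : Qb)) ∈ localField ι k := by
    have : NeZero p := ⟨(Fact.out : p.Prime).ne_zero⟩
    have hy0 : y ≠ 0 := fun h => α.ne_zero (ι.toRingHom.injective (by
      show ι (α : Qb) = ι 0
      rw [map_zero, ← hyp, h, zero_pow (Fact.out : p.Prime).ne_zero]))
    obtain ⟨i, -, hi⟩ := (hζ.map_of_injective ι.toRingHom.injective).eq_pow_of_pow_eq_one
      (show (ι (root p (α : Qb)) / y) ^ p = 1 by
        rw [div_pow, ← map_pow, root_pow, hyp, div_self ((map_ne_zero ι).mpr α.ne_zero)])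
    rw [← div_mul_cancel₀ (ι (root p (α : Qb))) hy0, ← hi]
    exact mul_mem (pow_mem (apply_mem_localField hζk) i) hy
  let B : IntermediateField ℚ Qb := ((localField ι k).restrictScalars ℚ).comap ι
  have hle : kummerField p k (α : Qb) ≤ B :=
    sup_le (fun x hx => apply_mem_localField hx) (adjoin_simple_le_iff.mpr hroot)
  refine IntermediateField.adjoin_le_iff.mpr ?_
  rintro _ ⟨x, hx, rfl⟩
  exact hle hx

end Fermat.Agent.ClassField.Idele.Existence
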