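import Fermat.Agent.ClassField.Idele.Existence.Embeddings

/-!
# The ideles supported over a finite set of primes as a product of local unit groups
-/

set_option autoImplicit false

noncomputable section

open IntermediateField IsDedekindDomain
open scoped NumberField

namespace Fermat.Agent.ClassField.Idele

local notation "Qb" => AlgebraicClosure ℚ

/-- Ideles trivial outside `S`. -/
def supportedIn (S : Set Nat.Primes) : Subgroup IdeleGroup where
  carrier := {f | ∀ ℓ ∉ S, ∀ ι, (f : Raw) ℓ ι = 1}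
  one_mem' _ _ _ := rfl
  mul_mem' := fun {f g} hf hg ℓ h ι => by simp [hf ℓ h ι, hg ℓ h ι]
  inv_mem' := fun {f} hf ℓ h ι => by simp [hf ℓ h ι]

namespace Existence

lemma supportedIn_mono {S S' : Set Nat.Primes} (h : S ⊆ S') : supportedIn S ≤ supportedIn S' :=
  fun _ hf ℓ hℓ => hf ℓ fun h' => hℓ (h h')

lemma unitsAway_antitone {S S' : Set Nat.Primes} (h : S ⊆ S') : unitsAway S' ≤ unitsAway S := by
  refine fun f hf => ⟨fun ℓ hℓ => hf.1 ℓ (h hℓ), fun ℓ _ ι => ?_⟩
  by_cases h' : ℓ ∈ S'
  · rw [hf.1 ℓ h' ι, Units.val_one, norm_one]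
  · exact hf.2 ℓ h' ι

variable (S : Finset Nat.Primes) (K : IntermediateField ℚ Qb) [FiniteDimensional ℚ K]

/-- The places of `K` over the primes of `S`. -/
def placesOver : Finset (HeightOneSpectrum (𝓞 K)) :=
  haveI := Classical.decEq (HeightOneSpectrum (𝓞 K))
  S.biUnion fun ℓ => (finite_places_over K ℓ).toFinset

/-- The type of places of `K` over the primes of `S`. -/
abbrev Place : Type := {v : HeightOneSpectrum (𝓞 K) // v ∈ placesOver S K}

variable {S K}

lemma mem_placesOver {v : HeightOneSpectrum (𝓞 K)} :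
    v ∈ placesOver S K ↔ ∃ ℓ ∈ S, ((ℓ : ℕ) : 𝓞 K) ∈ v.asIdeal := by
  classical
  simp [placesOver]

lemma placeAt_mem_placesOver {ℓ : Nat.Primes} (hℓ : ℓ ∈ S) (ι : Emb ℓ) :
    placeAt ι K ∈ placesOver S K :=
  mem_placesOver.mpr ⟨ℓ, hℓ, natCast_mem_placeAt ι K⟩

lemma exists_rep (v : Place S K) : ∃ (ℓ : Nat.Primes) (ι : Emb ℓ), ℓ ∈ S ∧ placeAt ι K = v.1 := by
  obtain ⟨ℓ, hℓ, hv⟩ := mem_placesOver.mp v.2
  obtain ⟨ι, hι⟩ := exists_placeAt_eq K v.1 hv
  exact ⟨ℓ, ι, hℓ, hι⟩

/-- The prime below a place. -/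
def repPrime (v : Place S K) : Nat.Primes := (exists_rep v).choose

/-- An embedding at a place. -/
def repEmb (v : Place S K) : Emb (repPrime v) := (exists_rep v).choose_spec.choose

lemma repPrime_mem (v : Place S K) : repPrime v ∈ S := (exists_rep v).choose_spec.choose_spec.1

lemma placeAt_repEmb (v : Place S K) : placeAt (repEmb v) K = v.1 :=
  (exists_rep v).choose_spec.choose_spec.2

lemma repPrime_eq {v : Place S K} {ℓ : Nat.Primes} {ι : Emb ℓ} (h : v.1 = placeAt ι K) :
    repPrime v = ℓ := by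
  refine primes_eq_of_mem (v := v.1) ?_ (h ▸ natCast_mem_placeAt ι K)
  rw [← placeAt_repEmb v]
  exact natCast_mem_placeAt _ K

/-- The unit group of the local field at a place. -/
abbrev LocalUnits (v : Place S K) : Type := (localField (repEmb v) K)ˣ

/-- A local unit as a unit of the algebraic closure. -/
abbrev localToUnit (v : Place S K) : LocalUnits v →* (PadicAlgCl (repPrime v : ℕ))ˣ :=
  Units.map (localField (repEmb v) K).val.toMonoidHom

/-- The component of an idele at a place. -/
def evalAt (v : Place S K) : idelesOf K →* LocalUnits v :=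
  MonoidHom.mk' (fun f => Units.mk0
    ⟨((f : IdeleGroup) : Raw) (repPrime v) (repEmb v), idele_apply_mem_localField f.2 _⟩
    fun h => Units.ne_zero _ (congrArg Subtype.val h))
    fun _ _ => Units.ext (Subtype.ext rfl)

lemma coe_evalAt (v : Place S K) (f : idelesOf K) :
    ((evalAt v f : localField (repEmb v) K) : PadicAlgCl (repPrime v : ℕ)) =
      ((f : IdeleGroup) : Raw) (repPrime v) (repEmb v) := rfl

lemma localToUnit_evalAt (v : Place S K) (f : idelesOf K) :
    localToUnit v (evalAt v f) = ((f : IdeleGroup) : Raw) (repPrime v) (repEmb v) :=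
  Units.ext rfl

lemma single_mul_of_mem {ℓ : Nat.Primes} (ι : Emb ℓ) {y y' z : (PadicAlgCl (ℓ : ℕ))ˣ}
    (hy : (y : PadicAlgCl (ℓ : ℕ)) ∈ localField ι K)
    (hy' : (y' : PadicAlgCl (ℓ : ℕ)) ∈ localField ι K)
    (hz : (z : PadicAlgCl (ℓ : ℕ)) ∈ localField ι K) (h : z = y * y') :
    single ι K z hz = single ι K y hy * single ι K y' hy' := by
  subst h
  refine Subtype.ext (Raw.ext fun ℓ' ι' => ?_)
  rw [Subgroup.coe_mul, Raw.mul_apply]
  rcases eq_or_ne ℓ ℓ' with rfl | hne
  · by_cases hpl : placeAt ι' K = placeAt ι K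
    · obtain ⟨τ, hτ⟩ := exists_localComp_eqOn_of_placeAt_eq ι hpl.symm
      refine Units.ext ?_
      exact ((single_apply_of_eqOn ι hz ι' τ hτ).trans (map_mul τ _ _)).trans
        (congrArg₂ (· * ·) (single_apply_of_eqOn ι hy ι' τ hτ).symm
          (single_apply_of_eqOn ι hy' ι' τ hτ).symm)
    · rw [single_apply_of_placeAt_ne ι K ι' _ hz hpl, single_apply_of_placeAt_ne ι K ι' _ hy hpl,
        single_apply_of_placeAt_ne ι K ι' _ hy' hpl, one_mul]
  · rw [single_apply_of_ne ι K ι' _ hz hne, single_apply_of_ne ι K ι' _ hy hne,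
      single_apply_of_ne ι K ι' _ hy' hne, one_mul]

lemma localToUnit_mem (v : Place S K) (y : LocalUnits v) :
    (localToUnit v y : PadicAlgCl (repPrime v : ℕ)) ∈ localField (repEmb v) K :=
  (y : localField (repEmb v) K).2

/-- The idele supported at a place. -/
def singleHom (v : Place S K) : LocalUnits v →* IdeleGroup :=
  MonoidHom.mk' (fun y => single (repEmb v) K (localToUnit v y) (localToUnit_mem v y))
    fun y y' => single_mul_of_mem (repEmb v) _ _ _ (map_mul (localToUnit v) y y')

lemma singleHom_apply (v : Place S K) (y : LocalUnits v) :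
    singleHom v y = single (repEmb v) K (localToUnit v y) (localToUnit_mem v y) := rfl

/-- The idele with prescribed components at the places over `S`. -/
def ofLocal : (∀ v : Place S K, LocalUnits v) →* IdeleGroup :=
  ∏ v : Place S K, (singleHom v).comp (Pi.evalMonoidHom _ v)

lemma ofLocal_apply (y : ∀ v : Place S K, LocalUnits v) :
    ofLocal y = ∏ v : Place S K, singleHom v (y v) := by
  simp [ofLocal]

lemma ofLocal_mem (y : ∀ v : Place S K, LocalUnits v) :
    ofLocal y ∈ idelesOf K ⊓ supportedIn (S : Set Nat.Primes) := by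
  rw [ofLocal_apply]
  refine Subgroup.prod_mem _ fun v _ =>
    ⟨single_mem_idelesOf _ _ _ (localToUnit_mem v (y v)), fun ℓ hℓ ι => ?_⟩
  exact single_apply_of_ne _ K ι _ (localToUnit_mem v (y v))
    fun h => hℓ (h ▸ Finset.mem_coe.mpr (repPrime_mem v))

lemma evalAt_ofLocal (y : ∀ v : Place S K, LocalUnits v) (v : Place S K)
    (h : ofLocal y ∈ idelesOf K) : evalAt v ⟨ofLocal y, h⟩ = y v := by
  classical
  refine Units.ext (Subtype.ext ?_)
  rw [coe_evalAt]
  let ev : IdeleGroup →* (PadicAlgCl (repPrime v : ℕ))ˣ :=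
    MonoidHom.mk' (fun f => (f : Raw) (repPrime v) (repEmb v)) fun _ _ => rfl
  show (ev (ofLocal y) : PadicAlgCl (repPrime v : ℕ)) = _
  rw [ofLocal_apply, map_prod, Finset.prod_eq_single v]
  · show (((single (repEmb v) K (localToUnit v (y v)) (localToUnit_mem v (y v)) : IdeleGroup) : Raw) (repPrime v) (repEmb v) :
      PadicAlgCl (repPrime v : ℕ)) = _
    rw [single_apply_self]
    rfl
  · intro w _ hw
    show ((single (repEmb w) K (localToUnit w (y w)) (localToUnit_mem w (y w)) : IdeleGroup) : Raw) (repPrime v) (repEmb v) = 1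
    have hne : placeAt (repEmb v) K ≠ w.1 := by
      rw [placeAt_repEmb]
      exact fun h => hw (Subtype.ext h.symm)
    rw [← placeAt_repEmb w] at hne
    generalize repEmb v = ι at hne ⊢
    revert ι
    generalize repPrime v = ℓ
    intro ι hne
    rcases eq_or_ne (repPrime w) ℓ with rfl | hl
    · exact single_apply_of_placeAt_ne _ K ι _ _ hne
    · exact single_apply_of_ne _ K ι _ _ hl
  · simp

/-- Ideles of `K` supported in `S` are determined by the components at the places over `S`. -/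
theorem eq_of_evalAt {f g : idelesOf K} (hf : (f : IdeleGroup) ∈ supportedIn (S : Set Nat.Primes))
    (hg : (g : IdeleGroup) ∈ supportedIn (S : Set Nat.Primes))
    (h : ∀ v : Place S K, evalAt v f = evalAt v g) : f = g := by
  refine Subtype.ext (Subtype.ext (Raw.ext fun ℓ ι => ?_))
  by_cases hℓ : ℓ ∈ S
  swap
  · rw [hf ℓ (fun h => hℓ (Finset.mem_coe.mp h)) ι, hg ℓ (fun h => hℓ (Finset.mem_coe.mp h)) ι]
  obtain ⟨v, hv⟩ : ∃ v : Place S K, v.1 = placeAt ι K :=
    ⟨⟨_, placeAt_mem_placesOver hℓ ι⟩, rfl⟩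
  have e := repPrime_eq hv
  subst e
  obtain ⟨τ, hτ⟩ := exists_localComp_eqOn_of_placeAt_eq (repEmb v) ((placeAt_repEmb v).trans hv)
  refine Units.ext ?_
  rw [apply_eq_of_eqOn f.2 (ι := localComp τ (repEmb v)) (ι' := ι) hτ,
    apply_eq_of_eqOn g.2 (ι := localComp τ (repEmb v)) (ι' := ι) hτ,
    (f : IdeleGroup).2.1 _ τ (repEmb v), (g : IdeleGroup).2.1 _ τ (repEmb v),
    ← coe_evalAt, ← coe_evalAt, h v]

/-- Decomposition into local components. -/
theorem ofLocal_evalAt {f : idelesOf K} (hf : (f : IdeleGroup) ∈ supportedIn (S : Set Nat.Primes)) :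
    ofLocal (fun v : Place S K => evalAt v f) = (f : IdeleGroup) :=
  congrArg Subtype.val (eq_of_evalAt (f := ⟨_, (ofLocal_mem _).1⟩) (g := f) (ofLocal_mem _).2 hf
    fun v => evalAt_ofLocal _ v (ofLocal_mem _).1)

end Existence

end Fermat.Agent.ClassField.Idele
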